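import Fermat.Agent.Switch35.Step

/-!
# The 3–5 switch

`exists_switch_curve`: a semistable integral model has a semistable companion with irreducible
mod 3 representation and the same `a_ℓ` mod 5 at common good primes. `exists_member_prime_pow`
first finds a member whose discriminant is exactly divisible by a fifth prime power.
-/

set_option autoImplicit false

open WeierstrassCurve Polynomial

namespace FLTAgent.Switch35

theorem exists_member_prime_pow (W : WeierstrassCurve ℤ) (hΔ : W.Δ ≠ 0)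
    (hW : W.IsSemistableModel) :
    ∃ (t : ℤ) (q : ℕ), familyBase W ∣ t ∧ q.Prime ∧ ¬ (q : ℤ) ∣ 6 ∧
      (q : ℤ) ^ 5 ∣ (member W t).Δ ∧ ¬ (q : ℤ) ^ 6 ∣ (member W t).Δ := by
  set b : ℤ := 11 * familyBase W with hb
  have hb0 : b ≠ 0 := by simp [hb, familyBase, hΔ]
  set Dz := famD (C W.c₄) (C W.c₆) (X : ℤ[X]) with hDz
  have hev : ∀ s, Dz.eval s = famD W.c₄ W.c₆ s := fun s => by
    rw [hDz, ← coe_evalRingHom, famD_map]; simp
  have hev1 : ∀ s, (derivative Dz).eval s = famD1 W.c₄ W.c₆ s := fun s => by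
    rw [hDz, derivative_famD, famD1, famD1, ← coe_evalRingHom, Px.map_ev, comp_env3]
    simp
  -- a value different from `±1`
  obtain ⟨k, hk⟩ : ∃ k : ℕ, (famD W.c₄ W.c₆ (b * k)).natAbs ≠ 1 := by
    by_contra hall
    push Not at hall
    let f := Int.castRingHom (AlgebraicClosure ℚ)
    have hd : f W.c₄ ^ 3 - f W.c₆ ^ 2 ≠ 0 := by
      rw [← map_pow, ← map_pow, ← map_sub, map_ne_zero_iff f Int.cast_injective, ← W.c_relation]
      exact mul_ne_zero (by norm_num) hΔ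
    have hdeg := five_le_natDegree_famD hd
    have hz : (Dz - 1) * (Dz + 1) = 0 := by
      by_contra hne
      refine (Set.infinite_range_of_injective (f := fun k : ℕ => b * (k : ℤ)) ?_).mono
        (t := {x | ((Dz - 1) * (Dz + 1)).IsRoot x}) ?_ (Polynomial.finite_setOfPred_isRoot hne)
      · intro k k' e
        exact_mod_cast mul_left_cancel₀ hb0 e
      · rintro x ⟨k, rfl⟩
        rcases Int.natAbs_eq_iff.1 (hall k) with e | e <;> simp [IsRoot, hev, e]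
    have hconst : (Dz.map f).natDegree = 0 := by
      rcases mul_eq_zero.1 hz with e | e
      · rw [sub_eq_zero.1 e]; simp
      · rw [eq_neg_of_add_eq_zero_left e]; simp
    rw [hDz] at hconst
    rw [← coe_mapRingHom, famD_map] at hconst
    simp only [coe_mapRingHom, map_C, map_X] at hconst
    omega
  obtain ⟨q, hq, hqD⟩ := Nat.exists_prime_and_dvd hk
  rw [← Int.natCast_dvd] at hqD
  have hI := Nat.prime_iff_prime_int.1 hq
  have hnb : ¬ (q : ℤ) ∣ b := fun h => hI.not_dvd_one (by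
    simpa using dvd_sub hqD (dvd_famD_sub (c4 := W.c₄) (c6 := W.c₆) (h.mul_right (k : ℤ))))
  have h30 : ∀ n : ℤ, n ∣ 30 * W.Δ → ¬ (q : ℤ) ∣ n := fun n hn h =>
    hnb ((h.trans (hn.trans (dvd_mul_left _ _))).mul_left 11)
  have h11 : ¬ (q : ℤ) ∣ 11 := fun h => hnb (h.mul_right _)
  have hq6 : ¬ (q : ℤ) ∣ 6 := h30 6 ((by norm_num : (6 : ℤ) ∣ 30).mul_right _)
  have hqΔ : ¬ (q : ℤ) ∣ W.Δ := h30 _ (dvd_mul_left _ _)
  have hbase : ∀ m : ℤ, familyBase W ∣ b * m := fun m => (dvd_mul_left _ 11).mul_right m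
  -- `D'` does not vanish
  have hder : ¬ (q : ℤ) ∣ famD1 W.c₄ W.c₆ (b * k) := by
    intro h
    have h41 : (41472 : ℤ) ∣ b * k := (dvd_mul_right _ _).trans (hbase k)
    have hc := (member_semistable hΔ hW (hbase k)).2 q hq
      (by rw [member_Δ hΔ h41]; exact (dvd_pow hqD (by norm_num)).mul_left _)
    rw [member_c₄ h41] at hc
    have e := famC4_sq_sub W.c₄ W.c₆ (b * k)
    have : (q : ℤ) ∣ -1584 * famC4 W.c₄ W.c₆ (b * k) := by
      rw [← e]
      exact dvd_sub ((hqD.mul_right _).mul_left _) ((dvd_pow h two_ne_zero).mul_left _)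
    rcases hI.dvd_or_dvd this with h' | h'
    · rw [show (-1584 : ℤ) = -(2 ^ 4 * 3 ^ 2 * 11) by norm_num, dvd_neg] at h'
      exact h11 (prime_five_le hq hq6 4 2 11 h')
    · exact hc h'
  -- a parameter with `q` exactly dividing `D`
  obtain ⟨m, hm, hm2⟩ : ∃ m : ℤ, (q : ℤ) ∣ famD W.c₄ W.c₆ (b * m) ∧
      ¬ (q : ℤ) ^ 2 ∣ famD W.c₄ W.c₆ (b * m) := by
    by_cases h2 : (q : ℤ) ^ 2 ∣ famD W.c₄ W.c₆ (b * k)
    · obtain ⟨z, hz⟩ := Dz.binomExpansion (b * k) (b * q)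
      rw [hev, hev, hev1] at hz
      refine ⟨k + q, ?_, ?_⟩
      · rw [mul_add, hz]
        exact dvd_add (dvd_add hqD ((dvd_mul_left _ b).mul_left _))
          ((dvd_pow (dvd_mul_left _ b) two_ne_zero).mul_left _)
      · rw [mul_add, hz]
        intro h
        rw [dvd_add_left ⟨z * b ^ 2, by ring⟩, dvd_add_right h2,
          show famD1 W.c₄ W.c₆ (b * k) * (b * q) = (q : ℤ) * (famD1 W.c₄ W.c₆ (b * k) * b) by ring,
          sq, mul_dvd_mul_iff_left hI.ne_zero] at h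
        exact (hI.dvd_or_dvd h).elim hder hnb
    · exact ⟨k, hqD, h2⟩
  refine ⟨b * m, q, hbase m, hq, hq6, ?_⟩
  rw [member_Δ hΔ ((dvd_mul_right _ _).trans (hbase m))]
  obtain ⟨u, hu⟩ := hm
  have hu' : ¬ (q : ℤ) ∣ u := fun h => hm2 (by rw [hu, sq]; exact mul_dvd_mul_left _ h)
  rw [hu]
  refine ⟨(pow_dvd_pow_of_dvd (dvd_mul_right _ _) 5).mul_left _, fun h => ?_⟩
  rw [show W.Δ * ((q : ℤ) * u) ^ 5 = (q : ℤ) ^ 5 * (W.Δ * u ^ 5) by ring,
    show (q : ℤ) ^ 6 = (q : ℤ) ^ 5 * q by ring, mul_dvd_mul_iff_left (pow_ne_zero 5 hI.ne_zero)]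
      at h
  exact (hI.dvd_or_dvd h).elim hqΔ fun h' => hu' (hI.dvd_of_dvd_pow h')

/-- **3–5 switch**: a semistable curve congruent mod 5 to `W` with irreducible mod 3
representation. -/
theorem exists_switch_curve (W : WeierstrassCurve ℤ) (hΔ : W.Δ ≠ 0) (hW : W.IsSemistableModel) :
    ∃ W' : WeierstrassCurve ℤ, W'.Δ ≠ 0 ∧ W'.IsSemistableModel ∧ W'.ModRepIsIrreducible 3 ∧
      ∀ ℓ : ℕ, ℓ.Prime → W.IsGoodPrimeFor ℓ → W'.IsGoodPrimeFor ℓ →
        (5 : ℤ) ∣ W'.apOfModel ℓ - W.apOfModel ℓ := by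
  obtain ⟨t₁, q, ht₁, hq, hq6, h5, h5'⟩ := exists_member_prime_pow W hΔ hW
  obtain ⟨hΔ₁, hW₁⟩ := member_semistable hΔ hW ht₁
  by_cases hirr : (member W t₁).ModRepIsIrreducible 3
  · exact ⟨_, hΔ₁, hW₁, hirr, fun ℓ hℓ hg hg' => apOfModel_congr hΔ ht₁ hℓ hg hg'⟩
  obtain ⟨t₂, ht₂, hirr₂⟩ := exists_member_irreducible _ hΔ₁ hW₁ hq hq6 h5 h5' hirr
  obtain ⟨hΔ₂, hW₂⟩ := member_semistable hΔ₁ hW₁ ht₂
  refine ⟨_, hΔ₂, hW₂, hirr₂, fun ℓ hℓ hg hg' => ?_⟩
  have hg₁ : (member W t₁).IsGoodPrimeFor ℓ := by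
    intro h
    apply hg'
    have ht : (ℓ : ℤ) ∣ t₂ := ((h.mul_left 30).mul_left _).trans ht₂
    rw [member_Δ hΔ₁ ((dvd_mul_right _ _).trans ht₂)]
    exact h.mul_right _
  have e : (member (member W t₁) t₂).apOfModel ℓ - W.apOfModel ℓ =
      ((member (member W t₁) t₂).apOfModel ℓ - (member W t₁).apOfModel ℓ) +
        ((member W t₁).apOfModel ℓ - W.apOfModel ℓ) := by ring
  rw [e]
  exact dvd_add (apOfModel_congr hΔ₁ ht₂ hℓ hg₁ hg') (apOfModel_congr hΔ ht₁ hℓ hg hg₁)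

end FLTAgent.Switch35
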