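import Fermat.Agent.Switch35.Height
import Mathlib.FieldTheory.Finite.Basic
import Mathlib.NumberTheory.LegendreSymbol.QuadraticChar.Basic
import Mathlib.Algebra.Polynomial.FieldDivision
import Mathlib.FieldTheory.RatFunc.AsPolynomial
import Mathlib.FieldTheory.IsAlgClosed.AlgebraicClosure

/-!
# The quadratic relation of Frobenius (Manin's elementary method)

For `y ^ 2 = x ^ 3 + A * x + B` over a finite field `F` of odd cardinality `q` and
`a = q + 1 - #E(F)`, twice the endomorphism `φ ^ 2 - a φ + q` kills every point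
(`two_zsmul_frob_rel`), so `φ ^ 2 - a φ + q` kills every point of odd order.
-/

set_option autoImplicit false

open Polynomial WeierstrassCurve
open scoped WeierstrassCurve.Affine IntermediateField

namespace FLTAgent.Switch35

/-! ### Quadratic functions on abelian groups -/

section Quadratic

variable {G : Type*} [AddCommGroup G]

/-- A function satisfying the parallelogram law. -/
def IsParallelogram (h : G → ℤ) : Prop :=
  ∀ P Q, h (P + Q) + h (P - Q) = 2 * (h P + h Q)

theorem IsParallelogram.expand {h : G → ℤ} (hp : IsParallelogram h) (h0 : h 0 = 0)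
    (U V W : G) (l m n : ℤ) :
    h (l • U + m • V + n • W) = l ^ 2 * h U + m ^ 2 * h V + n ^ 2 * h W +
      l * m * (h (U + V) - h U - h V) + l * n * (h (U + W) - h U - h W) +
      m * n * (h (V + W) - h V - h W) := by
  have cube : ∀ P Q R, h (P + Q + R) = h (P + Q) + h (Q + R) + h (P + R) - h P - h Q - h R := by
    intro P Q R
    have e1 := hp (P + R) Q
    have e2 := hp (P - Q) R
    have e3 := hp P (Q + R)
    have e4 := hp P Q
    rw [show P + R + Q = P + Q + R by abel, show P + R - Q = P - Q + R by abel] at e1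
    rw [show P - Q - R = P - (Q + R) by abel] at e2
    rw [show P + (Q + R) = P + Q + R by abel] at e3
    omega
  let B : G → G → ℤ := fun P Q => h (P + Q) - h P - h Q
  have addB : ∀ P Q R, B (P + Q) R = B P R + B Q R := by
    intro P Q R
    simp only [B, cube]
    ring
  have Bsymm : ∀ P Q, B P Q = B Q P := fun P Q => by simp only [B, add_comm P Q]; ring
  have smulB : ∀ (a : ℤ) P Q, B (a • P) Q = a * B P Q := fun a P Q => by
    let f : G →+ ℤ := AddMonoidHom.mk' (fun P => B P Q) (fun x y => addB x y Q)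
    simpa [f] using map_zsmul f a P
  have smul2 : ∀ (a b : ℤ) P Q, B (a • P) (b • Q) = a * b * B P Q := fun a b P Q => by
    rw [smulB, Bsymm, smulB, Bsymm]; ring
  have self : ∀ P, B P P = 2 * h P := fun P => by
    have := hp P P
    rw [sub_self, h0] at this
    simp only [B]
    omega
  have hsq : ∀ (a : ℤ) P, h (a • P) = a ^ 2 * h P := fun a P => by
    have h1 := self (a • P)
    rw [smul2, self] at h1
    linarith
  have hadd : ∀ P Q, h (P + Q) = h P + h Q + B P Q := fun P Q => by simp only [B]; ring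
  rw [hadd, hadd, addB, smul2, smul2, smul2, hsq, hsq, hsq]
  simp only [B]
  ring

end Quadratic

variable {F : Type} [Field F] [Fintype F] {A B : F}

/-- Manin's count of points. -/
theorem natCard_point {E : WeierstrassCurve.Affine F} (hE : IsShort E A B) [DecidableEq F] :
    (Nat.card E.Point : ℤ) = 1 + ∑ x : F, (quadraticChar F (rhs A B x) + 1) := by
  classical
  have hF : ringChar F ≠ 2 := fun h => hE.two (by
    have := ringChar.Nat.cast_ringChar (R := F)
    rw [h] at this
    exact_mod_cast this)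
  have e1 : Nat.card E.Point = Nat.card (WithZero {xy : F × F // xy.2 ^ 2 = rhs A B xy.1}) :=
    Nat.card_congr (E.nonsingularPointEquiv.trans (Equiv.optionCongr
      (Equiv.subtypeEquivRight fun xy => hE.nonsingular_iff)))
  have e2 : Nat.card {xy : F × F // xy.2 ^ 2 = rhs A B xy.1} =
      ∑ x : F, Nat.card {y : F // y ^ 2 = rhs A B x} := by
    rw [← Nat.card_sigma]
    exact Nat.card_congr
      { toFun := fun s => ⟨s.1.1, s.1.2, s.2⟩
        invFun := fun s => ⟨(s.1, s.2.1), s.2.2⟩
        left_inv := fun _ => rfl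
        right_inv := fun _ => rfl }
  rw [e1, show WithZero {xy : F × F // xy.2 ^ 2 = rhs A B xy.1} =
    Option {xy : F × F // xy.2 ^ 2 = rhs A B xy.1} from rfl, Finite.card_option, e2]
  push_cast
  rw [add_comm]
  congr 1
  refine Finset.sum_congr rfl fun x _ => ?_
  rw [← quadraticChar_card_sqrts hF (rhs A B x), Nat.card_eq_fintype_card, Set.toFinset_card]
  rfl

/-- The product of `X - c` over a finite set. -/
noncomputable def linProd (S : Finset F) : F[X] := ∏ x ∈ S, (X - C x)

omit [Fintype F] in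
theorem linProd_natDegree (S : Finset F) : (linProd S).natDegree = S.card := by
  simp [linProd]

omit [Fintype F] in
theorem linProd_monic (S : Finset F) : (linProd S).Monic :=
  monic_prod_of_monic S (fun x => X - C x) fun x _ => monic_X_sub_C x

omit [Fintype F] in
theorem linProd_eval_eq_zero (S : Finset F) (x : F) : (linProd S).eval x = 0 ↔ x ∈ S := by
  simp [linProd, eval_prod, Finset.prod_eq_zero_iff, sub_eq_zero]

omit [Fintype F] in
theorem linProd_dvd {S : Finset F} {p : F[X]} (h : ∀ x ∈ S, p.eval x = 0) : linProd S ∣ p :=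
  Finset.prod_dvd_of_coprime (fun _ _ _ _ hxy => pairwise_coprime_X_sub_C
    Function.injective_id hxy) fun x hx => dvd_iff_isRoot.2 (h x hx)

theorem linProd_univ : linProd (Finset.univ : Finset F) = X ^ Fintype.card F - X := by
  have hq1 : 1 < Fintype.card F := Fintype.one_lt_card
  refine Eq.trans ?_ (prod_multiset_X_sub_C_of_monic_of_roots_card_eq ?_ ?_)
  · rw [FiniteField.roots_X_pow_card_sub_X]; rfl
  · exact monic_X_pow_sub (by rw [degree_X]; exact_mod_cast hq1)
  · rw [FiniteField.roots_X_pow_card_sub_X, FiniteField.X_pow_card_sub_X_natDegree_eq F hq1]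
    rfl

theorem manin_num_natDegree (hF : ringChar F ≠ 2) (A B : F) :
    ((X ^ 3 + C A * X + C B) * ((X ^ 3 + C A * X + C B) ^ (Fintype.card F / 2) + 1) ^ 2 -
      (X ^ Fintype.card F + X) * (X ^ Fintype.card F - X) ^ 2).natDegree =
      2 * Fintype.card F + 1 := by
  set q := Fintype.card F with hqdef
  set k := q / 2 with hkdef
  have hq : q = 2 * k + 1 := by
    have := FiniteField.odd_card_of_char_ne_two hF
    omega
  have hq1 : 1 < q := Fintype.one_lt_card
  set f : F[X] := X ^ 3 + C A * X + C B with hf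
  have hfd : f.natDegree = 3 := by rw [hf]; compute_degree!
  have hfq : f ^ q = X ^ (3 * q) + C A * X ^ q + C B := by
    rw [hqdef, ← FiniteField.expand_card f, hf]
    rw [map_add, map_add, map_mul, map_pow, expand_X, expand_C, expand_C, ← pow_mul,
      Nat.mul_comm]
  have e : f * (f ^ k + 1) ^ 2 - (X ^ q + X) * (X ^ q - X) ^ 2 = X ^ (2 * q + 1) +
      (X ^ (q + 2) - X ^ 3 + C A * X ^ q + C B + C 2 * f ^ (k + 1) + f) := by
    have e2 : f * (f ^ k + 1) ^ 2 = f ^ q + C 2 * f ^ (k + 1) + f := by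
      rw [hq, map_ofNat]; ring
    rw [e2, hfq]; ring
  rw [e, natDegree_add_eq_left_of_natDegree_lt, natDegree_X_pow]
  rw [natDegree_X_pow]
  refine lt_of_le_of_lt (b := max (q + 2) (3 * k + 3)) ?_ (by omega)
  have h2 : (C 2 * f ^ (k + 1) : F[X]).natDegree ≤ 3 * k + 3 := by
    refine (natDegree_C_mul_le _ _).trans ((natDegree_pow_le).trans ?_)
    rw [hfd]; omega
  refine natDegree_add_le_of_degree_le (natDegree_add_le_of_degree_le (natDegree_add_le_of_degree_le
    (natDegree_add_le_of_degree_le ((natDegree_sub_le _ _).trans (max_le ?_ ?_)) ?_) ?_) ?_) ?_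
  · simp
  · simp
  · exact (natDegree_C_mul_X_pow_le A q).trans (by omega)
  · simp
  · exact h2.trans (le_max_right _ _)
  · rw [hfd]; omega

theorem manin_num_root {E : WeierstrassCurve.Affine F} (hE : IsShort E A B) {g n : F[X]}
    (h : (X ^ 3 + C A * X + C B) * ((X ^ 3 + C A * X + C B) ^ (Fintype.card F / 2) + 1) ^ 2 -
      (X ^ Fintype.card F + X) * (X ^ Fintype.card F - X) ^ 2 = g * n) {x : F}
    (hx : rhs A B x = 0 ∧ g.eval x = 0 ∨
      rhs A B x ≠ 0 ∧ rhs A B x ^ (Fintype.card F / 2) = 1) : n.eval x ≠ 0 := by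
  intro hnx
  have hq1 : 1 < Fintype.card F := Fintype.one_lt_card
  set k := Fintype.card F / 2 with hkdef
  have hk : k ≠ 0 := by omega
  set f : F[X] := X ^ 3 + C A * X + C B with hf
  have feval : f.eval x = rhs A B x := by simp [hf, rhs]
  have hxq : x ^ Fintype.card F - x = 0 := by rw [FiniteField.pow_card, sub_self]
  rcases hx with ⟨hfx, hgx⟩ | ⟨hfx, h1⟩
  · have e : (derivative (f * (f ^ k + 1) ^ 2 -
        (X ^ Fintype.card F + X) * (X ^ Fintype.card F - X) ^ 2)).eval x = 0 := by
      rw [h, derivative_mul, eval_add, eval_mul, eval_mul, hnx, hgx]; ring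
    have hd' : (derivative f).eval x = 3 * x ^ 2 + A := by
      simp only [hf, derivative_add, derivative_X_pow, derivative_C_mul, derivative_X, derivative_C]
      simp
    refine hE.deriv_ne_zero hfx ?_
    rw [derivative_sub, eval_sub, derivative_mul, derivative_mul, derivative_pow,
      derivative_pow] at e
    simp only [eval_add, eval_mul, eval_pow, eval_one, eval_sub, eval_X, eval_C, hxq, feval, hfx,
      hd', zero_pow hk] at e
    linear_combination e
  · have e : (f * (f ^ k + 1) ^ 2 -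
        (X ^ Fintype.card F + X) * (X ^ Fintype.card F - X) ^ 2).eval x = 0 := by
      rw [h, eval_mul, hnx, mul_zero]
    simp only [eval_add, eval_mul, eval_pow, eval_one, eval_sub, eval_X, hxq, feval, h1] at e
    refine mul_ne_zero hfx (pow_ne_zero 2 hE.two) ?_
    linear_combination e

/-- The `x`-coordinate of `φ P - P` for the generic point `P`, in lowest terms. -/
theorem exists_manin_pair {E : WeierstrassCurve.Affine F} (hE : IsShort E A B) :
    ∃ n d : F[X], IsCoprime n d ∧ n.natDegree = Nat.card E.Point ∧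
      d.natDegree < n.natDegree ∧
      ∀ (Ω : Type) [Field Ω] [Algebra F Ω] (x : Ω), (∀ c : F, x ≠ algebraMap F Ω c) →
        aeval x d ≠ 0 ∧ aeval x n / aeval x d =
          rhs (algebraMap F Ω A) (algebraMap F Ω B) x *
            ((rhs (algebraMap F Ω A) (algebraMap F Ω B) x ^ (Fintype.card F / 2) + 1)
              / (x ^ Fintype.card F - x)) ^ 2 - x ^ Fintype.card F - x := by
  classical
  have hF : ringChar F ≠ 2 := fun h => hE.two (by
    have := ringChar.Nat.cast_ringChar (R := F)
    rw [h] at this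
    exact_mod_cast this)
  set q := Fintype.card F with hqdef
  set k := q / 2 with hkdef
  have hq : q = 2 * k + 1 := by
    have := FiniteField.odd_card_of_char_ne_two hF
    omega
  have hq1 : 1 < q := Fintype.one_lt_card
  have hk : k ≠ 0 := by omega
  set f : F[X] := X ^ 3 + C A * X + C B with hf
  have feval : ∀ x : F, f.eval x = rhs A B x := fun x => by simp [hf, rhs]
  have hfd : f.natDegree = 3 := by rw [hf]; compute_degree!
  set S0 := Finset.univ.filter fun x : F => rhs A B x = 0
  set Sm := Finset.univ.filter fun x : F => rhs A B x ≠ 0 ∧ rhs A B x ^ k = -1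
  set Sp := Finset.univ.filter fun x : F => rhs A B x ≠ 0 ∧ rhs A B x ^ k ≠ -1
  let P : Finset F → F[X] := linProd
  have hd01 : Disjoint S0 Sm := by
    rw [Finset.disjoint_left]
    intro x h0 h1
    simp only [S0, Sm, Finset.mem_filter] at h0 h1
    exact h1.2.1 h0.2
  have hd02 : Disjoint (S0 ∪ Sm) Sp := by
    rw [Finset.disjoint_left]
    intro x h0 h1
    simp only [S0, Sm, Sp, Finset.mem_filter, Finset.mem_union] at h0 h1
    rcases h0 with h0 | h0
    · exact h1.2.1 h0.2
    · exact h1.2.2 h0.2.2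
  have huniv : S0 ∪ Sm ∪ Sp = Finset.univ := by
    ext x; simp [S0, Sm, Sp]; tauto
  have hall : X ^ q - X = P S0 * P Sm * P Sp := by
    rw [← linProd_univ, ← huniv]
    simp only [P, linProd]
    rw [Finset.prod_union hd02, Finset.prod_union hd01]
  have hcard : S0.card + Sm.card + Sp.card = q := by
    rw [← Finset.card_union_of_disjoint hd01, ← Finset.card_union_of_disjoint hd02, huniv]; rfl
  set g := P S0 * P Sm ^ 2 with hg
  set d := P S0 * P Sp ^ 2 with hd
  have hgd : g * d = (X ^ q - X) ^ 2 := by rw [hall, hg, hd]; ring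
  set num : F[X] := f * (f ^ k + 1) ^ 2 - (X ^ q + X) * (X ^ q - X) ^ 2 with hnum
  have hP0 : P S0 ∣ f := linProd_dvd fun x hx => by
    simpa [S0, feval] using hx
  have hPm : P Sm ∣ f ^ k + 1 := linProd_dvd fun x hx => by
    simp only [Sm, Finset.mem_filter] at hx
    simp [feval, hx.2.2]
  obtain ⟨n, hn⟩ : g ∣ num :=
    dvd_sub (mul_dvd_mul hP0 (pow_dvd_pow_of_dvd hPm 2)) (hgd ▸ (dvd_mul_right g d).mul_left _)
  have hroot : ∀ x ∈ S0 ∪ Sp, n.eval x ≠ 0 := by
    intro x hx
    refine manin_num_root hE hn ?_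
    rcases Finset.mem_union.1 hx with h0 | h0
    · exact .inl ⟨(Finset.mem_filter.1 h0).2,
        by rw [hg, eval_mul, (linProd_eval_eq_zero S0 x).2 h0, zero_mul]⟩
    · simp only [Sp, Finset.mem_filter] at h0
      exact .inr ⟨h0.2.1, (FiniteField.pow_dichotomy hF h0.2.1).resolve_right h0.2.2⟩
  have hcop : IsCoprime n d := by
    have hlin : ∀ S ⊆ S0 ∪ Sp, IsCoprime n (P S) := fun S hS =>
      by
      simp only [P, linProd]
      exact IsCoprime.prod_right fun x hx => ((irreducible_X_sub_C x).coprime_iff_not_dvd.2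
        fun h => hroot x (hS hx) (dvd_iff_isRoot.1 h)).symm
    exact (hlin S0 Finset.subset_union_left).mul_right (hlin Sp Finset.subset_union_right).pow_right
  have hnumdeg : num.natDegree = 2 * q + 1 ∧ num ≠ 0 :=
    ⟨manin_num_natDegree hF A B, fun h => by
      have := manin_num_natDegree hF A B
      rw [show (X ^ 3 + C A * X + C B) * ((X ^ 3 + C A * X + C B) ^ (Fintype.card F / 2) + 1) ^ 2 -
        (X ^ Fintype.card F + X) * (X ^ Fintype.card F - X) ^ 2 = num from rfl, h,
        natDegree_zero] at this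
      omega⟩
  have hg0 : g ≠ 0 := ((linProd_monic S0).mul ((linProd_monic Sm).pow 2)).ne_zero
  have hn0 : n ≠ 0 := fun h => hnumdeg.2 (by rw [hn, h, mul_zero])
  have hgdeg : g.natDegree = S0.card + 2 * Sm.card := by
    rw [hg, (linProd_monic S0).natDegree_mul ((linProd_monic Sm).pow 2),
      (linProd_monic Sm).natDegree_pow, linProd_natDegree, linProd_natDegree]
  have hddeg : d.natDegree = S0.card + 2 * Sp.card := by
    rw [hd, (linProd_monic S0).natDegree_mul ((linProd_monic Sp).pow 2),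
      (linProd_monic Sp).natDegree_pow, linProd_natDegree, linProd_natDegree]
  have hndeg : g.natDegree + n.natDegree = 2 * q + 1 := by
    rw [← hnumdeg.1, hn, natDegree_mul hg0 hn0]
  have hN : (Nat.card E.Point : ℤ) = 2 * q + 1 - (S0.card + 2 * Sm.card : ℕ) := by
    rw [natCard_point hE]
    have : ∀ x, quadraticChar F (rhs A B x) + 1 =
        2 - (if x ∈ S0 then 1 else 0) - 2 * (if x ∈ Sm then 1 else 0) := by
      intro x
      by_cases h0 : rhs A B x = 0
      · simp [S0, Sm, h0]
      · rw [quadraticChar_eq_pow_of_char_ne_two hF h0]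
        rcases FiniteField.pow_dichotomy hF h0 with h1 | h1
        · simp [S0, Sm, h0, k, q, h1, Ring.neg_one_ne_one_of_char_ne_two hF |>.symm]
        · simp [S0, Sm, h0, k, q, h1, Ring.neg_one_ne_one_of_char_ne_two hF]
    rw [Finset.sum_congr rfl fun x _ => this x]
    simp only [Finset.sum_sub_distrib, Finset.sum_const, Finset.card_univ, ← Finset.mul_sum,
      Finset.sum_boole, Finset.filter_mem_eq_inter, Finset.univ_inter, nsmul_eq_mul]
    push_cast
    ring
  refine ⟨n, d, hcop, by omega, by omega, fun Ω _ _ x hx => ?_⟩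
  have hPx : ∀ S, aeval x (P S) ≠ 0 := fun S => by
    simp only [P, linProd, map_prod, map_sub, aeval_X, aeval_C]
    exact Finset.prod_ne_zero_iff.2 fun c _ => sub_ne_zero.2 (hx c)
  have hgx : aeval x g ≠ 0 := by
    rw [hg, map_mul, map_pow]; exact mul_ne_zero (hPx _) (pow_ne_zero _ (hPx _))
  have hdx : aeval x d ≠ 0 := by
    rw [hd, map_mul, map_pow]; exact mul_ne_zero (hPx _) (pow_ne_zero _ (hPx _))
  have hxx : x ^ q - x ≠ 0 := by
    have := mul_ne_zero hgx hdx
    rw [← map_mul, hgd, map_pow, map_sub, map_pow, aeval_X] at this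
    exact fun h => this (by rw [h]; ring)
  refine ⟨hdx, ?_⟩
  rw [← mul_div_mul_left (aeval x n) (aeval x d) hgx, ← map_mul, ← map_mul, ← hn, hgd, hnum, hf]
  simp only [map_sub, map_mul, map_add, map_pow, map_one, aeval_X, aeval_C, rhs]
  field_simp
  ring

variable {Ω : Type} [Field Ω] [Algebra F Ω] [DecidableEq Ω] {E : WeierstrassCurve.Affine F}

/-- The Frobenius endomorphism of `E(Ω)`. -/
noncomputable def frobPt (E : WeierstrassCurve.Affine F) (Ω : Type) [Field Ω] [Algebra F Ω]
    [DecidableEq Ω] : (E⁄Ω).Point →+ (E⁄Ω).Point :=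
  Affine.Point.map (FiniteField.frobeniusAlgHom F Ω)

theorem frobPt_some {x y : Ω} (h : (E⁄Ω).Nonsingular x y) :
    ∃ h', frobPt E Ω (.some x y h) = .some (x ^ Fintype.card F) (y ^ Fintype.card F) h' :=
  ⟨_, Affine.Point.map_some _ h⟩

theorem hasRep_frobPt {z : Ω} {P : (E⁄Ω).Point} {k : ℕ} (h : HasHt z P k) :
    HasHt z (frobPt E Ω P) (Fintype.card F * k) := by
  obtain ⟨v, ⟨hv, c, hc, he⟩, hk⟩ := h
  refine ⟨fun i => v i ^ Fintype.card F, ⟨fun L _ φ => ?_, c ^ Fintype.card F, pow_ne_zero _ hc,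
    fun i => ?_⟩, fun i => natDegree_pow_le_of_le _ (hk.1 i), ?_⟩
  · obtain ⟨i, hi⟩ := hv L φ
    exact ⟨i, by rw [map_pow]; exact pow_ne_zero _ hi⟩
  · rw [map_pow, ← mul_pow, ← he]
    rcases P with _ | ⟨x, y, hxy⟩
    · rw [← Affine.Point.zero_def, map_zero]
      fin_cases i <;> simp [zero_pow Fintype.card_ne_zero]
    · obtain ⟨h', e⟩ := frobPt_some hxy
      rw [e]
      fin_cases i <;> simp
  · obtain ⟨i, hi⟩ := hk.2
    exact ⟨i, by rw [coeff_pow_of_natDegree_le (hk.1 i)]; exact pow_ne_zero _ hi⟩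

/-- `φ Γ - Γ` for a generic point `Γ`. -/
theorem frobPt_sub_self (hE : IsShort E A B) {n d : F[X]}
    (hnd : ∀ (Ω : Type) [Field Ω] [Algebra F Ω] (x : Ω), (∀ c : F, x ≠ algebraMap F Ω c) →
        aeval x d ≠ 0 ∧ aeval x n / aeval x d =
          rhs (algebraMap F Ω A) (algebraMap F Ω B) x *
            ((rhs (algebraMap F Ω A) (algebraMap F Ω B) x ^ (Fintype.card F / 2) + 1)
              / (x ^ Fintype.card F - x)) ^ 2 - x ^ Fintype.card F - x)
    {x y : Ω} (h : (E⁄Ω).Nonsingular x y) (hx : ∀ c : F, x ≠ algebraMap F Ω c) :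
    ∃ y' h', frobPt E Ω (.some x y h) - .some x y h =
      .some (aeval x n / aeval x d) y' h' := by
  classical
  have hS := hE.baseChange (L := Ω)
  have hF : ringChar F ≠ 2 := fun h => hE.two (by
    have := ringChar.Nat.cast_ringChar (R := F)
    rw [h] at this
    exact_mod_cast this)
  set q := Fintype.card F with hqdef
  have hq : q = 2 * (q / 2) + 1 := by
    have := FiniteField.odd_card_of_char_ne_two hF
    omega
  have hxx : x ^ q ≠ x := by
    intro e
    have hq1 : 1 < q := Fintype.one_lt_card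
    have h0 : aeval x (X ^ q - X : F[X]) = 0 := by simp [e]
    have hr : (X ^ q - X : F[X]) = ∏ c : F, (X - C c) := by
      refine (prod_multiset_X_sub_C_of_monic_of_roots_card_eq ?_ ?_).symm.trans ?_
      · exact monic_X_pow_sub (by rw [degree_X]; exact_mod_cast hq1)
      · rw [FiniteField.roots_X_pow_card_sub_X, FiniteField.X_pow_card_sub_X_natDegree_eq F hq1]
        rfl
      · rw [FiniteField.roots_X_pow_card_sub_X]; rfl
    rw [hr, map_prod, Finset.prod_eq_zero_iff] at h0
    obtain ⟨c, -, hc⟩ := h0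
    exact hx c (by simpa [sub_eq_zero] using hc)
  obtain ⟨h', e⟩ := frobPt_some h
  have hn : (E⁄Ω).Nonsingular x (-y) := hS.nonsingular_iff.2 (by
    rw [neg_sq]; exact hS.nonsingular_iff.1 h)
  obtain ⟨x₃, y₃, h₃, hadd, e₃, -⟩ := hS.add_of_ne h' hn hxx
  have ey : y ^ q = y * rhs (algebraMap F Ω A) (algebraMap F Ω B) x ^ (q / 2) := by
    rw [← hS.nonsingular_iff.1 h, ← pow_mul]
    conv_lhs => rw [hq, pow_succ']
  have : x₃ = aeval x n / aeval x d := by
    rw [← hqdef] at e₃
    rw [(hnd Ω x hx).2, e₃, ey, ← hS.nonsingular_iff.1 h]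
    have := sub_ne_zero.2 hxx
    field_simp
    ring
  subst this
  exact ⟨y₃, h₃, by rw [e, sub_eq_add_neg, hS.neg_some h, hadd]⟩

/-- Frobenius preserves the rational points of the twist. -/
private theorem frobPt_mem_twistPts (hE : IsShort E A B) {z y₀ : Ω}
    (hy₀ : y₀ ^ 2 = rhs (algebraMap F Ω A) (algebraMap F Ω B) z) (hy0 : y₀ ≠ 0)
    {P : (E⁄Ω).Point} (hP : P ∈ twistPts hE z y₀ hy₀ hy0) :
    frobPt E Ω P ∈ twistPts hE z y₀ hy₀ hy0 := by
  have hF : ringChar F ≠ 2 := fun h => hE.two (by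
    have := ringChar.Nat.cast_ringChar (R := F)
    rw [h] at this
    exact_mod_cast this)
  have hzK : z ∈ F⟮z⟯ := IntermediateField.mem_adjoin_simple_self F z
  rcases hP with rfl | ⟨x, y, h, rfl, hx, hy⟩
  · exact .inl (map_zero _)
  obtain ⟨h', e⟩ := frobPt_some h
  set q := Fintype.card F with hqdef
  refine .inr ⟨_, _, h', e, pow_mem hx q, ?_⟩
  have : y ^ q / y₀ = (y / y₀) ^ q * (y₀ ^ 2) ^ (q / 2) := by
    have hq : q = 2 * (q / 2) + 1 := by
      have := FiniteField.odd_card_of_char_ne_two hF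
      omega
    rw [div_pow, ← pow_mul]
    conv_rhs => rw [show y₀ ^ q = y₀ ^ (2 * (q / 2)) * y₀ from by rw [← pow_succ, ← hq]]
    field_simp
  rw [this, hy₀]
  refine mul_mem (pow_mem hy q)
    (pow_mem (add_mem (add_mem (pow_mem hzK 3) (mul_mem ?_ hzK)) ?_) _)
    <;> exact IntermediateField.algebraMap_mem _ _

omit [Fintype F] [DecidableEq Ω] in
/-- A generic point has height one. -/
private theorem hasHt_generic {z y₀ : Ω} (h₀ : (E⁄Ω).Nonsingular z y₀) :
    HasHt z (Affine.Point.some z y₀ h₀ : (E⁄Ω).Point) 1 := by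
  refine ⟨![X, 1], ⟨PrimVec.of_coprime isCoprime_one_right, 1, one_ne_zero, fun i => ?_⟩,
    fun i => ?_, 0, by simp⟩ <;> fin_cases i <;> simp

/-- The heights of `φ G - G` and of its image under `φ - 1`, for a generic point `G`, are the
number of points and its square. -/
private theorem hasHt_frobPt_sub_self (hE : IsShort E A B) {z y₀ : Ω} (hz : Transcendental F z)
    (h₀ : (E⁄Ω).Nonsingular z y₀) {G : (E⁄Ω).Point} (hG : G = .some z y₀ h₀) :
    HasHt z (frobPt E Ω G - G) (Nat.card E.Point) ∧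
      HasHt z (frobPt E Ω (frobPt E Ω G - G) - (frobPt E Ω G - G))
        (Nat.card E.Point * Nat.card E.Point) := by
  classical
  have hzc : ∀ c : F, z ≠ algebraMap F Ω c := fun c e => hz (e ▸ isAlgebraic_algebraMap c)
  set N := Nat.card E.Point with hNdef
  obtain ⟨n, d, hcop, hndeg, hdn, hnd⟩ := exists_manin_pair hE
  have hv : PrimVec ![n, d] := PrimVec.of_coprime hcop
  have hn0 : n ≠ 0 := fun e => by rw [e, natDegree_zero] at hdn; omega
  have hvd : VecDeg ![n, d] N := by
    refine ⟨fun i => ?_, 0, ?_⟩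
    · fin_cases i <;> simp <;> omega
    · simp only [Matrix.cons_val_zero]
      rw [hNdef, ← hndeg]
      exact leadingCoeff_ne_zero.2 hn0
  obtain ⟨y₁, h₁, e₁⟩ := frobPt_sub_self hE hnd h₀ hzc
  set x₁ := aeval z n / aeval z d with hx₁
  have hdz : aeval z d ≠ 0 := (hnd Ω z hzc).1
  refine ⟨⟨![n, d], ⟨hv, (aeval z d)⁻¹, inv_ne_zero hdz, fun i => ?_⟩, hvd⟩, ?_⟩
  · rw [hG, e₁]
    fin_cases i
    · simp [div_eq_inv_mul]
    · simp [hdz]
  have hx₁c : ∀ c : F, x₁ ≠ algebraMap F Ω c := by
    intro c e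
    have hne : n - C c * d ≠ 0 := by
      intro e0
      have := congrArg natDegree (sub_eq_zero.1 e0)
      have := (natDegree_C_mul_le c d)
      omega
    refine aeval_ne_zero_of_transcendental hz hne ?_
    rw [map_sub, map_mul, aeval_C, ← e, hx₁]
    field_simp
    ring
  obtain ⟨y₂, h₂, e₂⟩ := frobPt_sub_self hE hnd h₁ hx₁c
  refine ⟨compPair N ![n, d] C ![n, d], ⟨hv.compPair hvd hv,
    (aeval x₁ d)⁻¹ * ((aeval z d) ^ N)⁻¹, ?_, fun i => ?_⟩, VecDeg.compPair hv hvd hvd⟩
  · exact mul_ne_zero (inv_ne_zero (hnd Ω x₁ hx₁c).1) (inv_ne_zero (pow_ne_zero _ hdz))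
  rw [hG, e₁, e₂]
  have key : ∀ j, aeval z (compPair N ![n, d] C ![n, d] j) =
      aeval z d ^ N * aeval x₁ (![n, d] j) := by
    intro j
    change (aeval z).toRingHom _ = _
    rw [compPair_map]
    have e : ((aeval z).toRingHom ∘ ![n, d] : Fin 2 → Ω) = aeval z d • ![x₁, 1] := by
      funext i; fin_cases i
      · simp [x₁, mul_div_cancel₀ _ hdz]
      · simp
    rw [e, compPair_smul]
    congr 1
    simp only [compPair, Matrix.cons_val_zero, Matrix.cons_val_one, one_pow, mul_one]
    rw [aeval_eq_sum_range' (Nat.lt_succ_of_le (hvd.1 j))]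
    simp [Algebra.smul_def]
  rw [key]
  have := (hnd Ω x₁ hx₁c).1
  fin_cases i
  · simp only [Fin.zero_eta, Affine.Point.xRep_some, Matrix.cons_val_zero]
    field_simp
  · simp only [Fin.mk_one, Affine.Point.xRep_some, Matrix.cons_val_one, Matrix.cons_val_fin_one]
    field_simp

omit [Fintype F] in
/-- A rational point of the twist of height zero has order at most two. -/
private theorem two_zsmul_eq_zero_of_hasHt_zero (hE : IsShort E A B) {z y₀ : Ω}
    (hz : Transcendental F z) (hy₀ : y₀ ^ 2 = rhs (algebraMap F Ω A) (algebraMap F Ω B) z)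
    (hy0 : y₀ ≠ 0) {P : (E⁄Ω).Point} (hP : P ∈ twistPts hE z y₀ hy₀ hy0) (hk : HasHt z P 0) :
    (2 : ℤ) • P = 0 := by
  have hS := hE.baseChange (L := Ω)
  set f : F[X] := X ^ 3 + C A * X + C B with hf
  have hfd : f.natDegree = 3 := by rw [hf]; compute_degree!
  have hf0 : f ≠ 0 := fun h => by rw [h, natDegree_zero] at hfd; omega
  have hfz : aeval z f = rhs (algebraMap F Ω A) (algebraMap F Ω B) z := by simp [hf, rhs]
  rcases hP with e | ⟨x, y, hxy, rfl, hxK, hyK⟩
  · rw [e, smul_zero]
  by_cases hy : y = 0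
  · rw [two_zsmul, Affine.Point.add_self_of_Y_eq]
    rw [hS.negY, hy, neg_zero]
  exfalso
  obtain ⟨v, ⟨-, c, hc, hev⟩, hvk⟩ := hk
  have hx : ∃ c : F, x = algebraMap F Ω c := by
    have hv0 := eq_C_of_natDegree_eq_zero (Nat.le_zero.1 (hvk.1 0))
    have hv1 := eq_C_of_natDegree_eq_zero (Nat.le_zero.1 (hvk.1 1))
    refine ⟨(v 0).coeff 0 / (v 1).coeff 0, ?_⟩
    have e0 := hev 0
    have e1 := hev 1
    rw [hv0, aeval_C, Affine.Point.xRep_some, Matrix.cons_val_zero] at e0
    rw [hv1, aeval_C, Affine.Point.xRep_some, Matrix.cons_val_one, Matrix.cons_val_fin_one] at e1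
    have : algebraMap F Ω ((v 1).coeff 0) ≠ 0 := fun h => one_ne_zero (by rw [e1, h, mul_zero])
    rw [map_div₀, eq_div_iff this, e0]
    linear_combination -(algebraMap F Ω ((v 0).coeff 0)) * e1
  obtain ⟨c₀, rfl⟩ := hx
  obtain ⟨r, s, hrs⟩ := IntermediateField.mem_adjoin_simple_iff F _ |>.1 hyK
  have hne : y / y₀ ≠ 0 := div_ne_zero hy hy0
  rw [hrs, div_ne_zero_iff] at hne
  have hr : r ≠ 0 := fun h => hne.1 (by rw [h, map_zero])
  have hs : s ≠ 0 := fun h => hne.2 (by rw [h, map_zero])
  have key : f * r ^ 2 = C (rhs A B c₀) * s ^ 2 := by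
    by_contra hne'
    refine aeval_ne_zero_of_transcendental hz (sub_ne_zero.2 hne') ?_
    have hsz := aeval_ne_zero_of_transcendental hz hs
    have e3 : algebraMap F Ω (rhs A B c₀) = y ^ 2 := by
      rw [hS.nonsingular_iff.1 hxy]; simp [rhs]
    rw [map_sub, map_mul, map_mul, map_pow, map_pow, aeval_C, hfz, ← hy₀, e3]
    rw [div_eq_div_iff hy0 hsz] at hrs
    linear_combination -(y₀ * aeval z r + y * aeval z s) * hrs
  have hc0 : rhs A B c₀ ≠ 0 := by
    intro h
    rw [h, C_0, zero_mul] at key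
    exact mul_ne_zero hf0 (pow_ne_zero 2 hr) key
  have := congrArg natDegree key
  rw [natDegree_mul hf0 (pow_ne_zero 2 hr), natDegree_pow, natDegree_C_mul hc0, natDegree_pow,
    hfd] at this
  omega

/-- `φ² - a φ + q` sends a generic point to a point of order at most two. -/
theorem two_zsmul_frob_rel_generic (hE : IsShort E A B) {z y₀ : Ω} (hz : Transcendental F z)
    (h₀ : (E⁄Ω).Nonsingular z y₀) :
    (2 : ℤ) • (frobPt E Ω (frobPt E Ω (.some z y₀ h₀)) -
      ((Fintype.card F : ℤ) + 1 - Nat.card E.Point) • frobPt E Ω (.some z y₀ h₀) +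
      (Fintype.card F : ℤ) • Affine.Point.some z y₀ h₀) = 0 := by
  classical
  have hy₀ := (hE.baseChange (L := Ω)).nonsingular_iff.1 h₀
  have hy0 : y₀ ≠ 0 := by
    intro e
    have hfd : (X ^ 3 + C A * X + C B : F[X]).natDegree = 3 := by compute_degree!
    refine aeval_ne_zero_of_transcendental hz
      (p := X ^ 3 + C A * X + C B) (fun h => by rw [h, natDegree_zero] at hfd; omega) ?_
    have e' : rhs (algebraMap F Ω A) (algebraMap F Ω B) z = 0 := by rw [← hy₀, e]; ring
    simpa [rhs] using e'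
  let S := twistPts hE z y₀ hy₀ hy0
  set G : (E⁄Ω).Point := .some z y₀ h₀ with hG
  set q := Fintype.card F with hqdef
  set N := Nat.card E.Point with hNdef
  have hGS : G ∈ S := .inr ⟨_, _, h₀, rfl, IntermediateField.mem_adjoin_simple_self F z,
    by rw [div_self hy0]; exact one_mem _⟩
  have hex : ∀ P : S, ∃ k, HasHt z (P : (E⁄Ω).Point) k := by
    rintro ⟨P, rfl | ⟨x, y, h, rfl, hx, hy⟩⟩
    · exact ⟨0, hasHt_zero⟩
    · exact hasHt_of_mem hz h hx
  choose hN hhN using hex
  let h : S → ℤ := fun P => hN P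
  have hval : ∀ (P : S) (k : ℕ), HasHt z (P : (E⁄Ω).Point) k → h P = k := fun P k hk => by
    simp only [h]; exact congrArg _ ((hhN P).unique hz hk)
  have hpar : IsParallelogram h := fun P Q => by
    simp only [h]
    exact_mod_cast (hhN P).parallelogram hz hE (hhN Q) (by simpa using hhN (P + Q))
      (by simpa using hhN (P - Q))
  have hG1 : HasHt z G 1 := hasHt_generic h₀
  obtain ⟨hG', hG''⟩ := hasHt_frobPt_sub_self hE hz h₀ hG
  -- the quadratic form
  let U : S := ⟨frobPt E Ω (frobPt E Ω G),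
    frobPt_mem_twistPts hE hy₀ hy0 (frobPt_mem_twistPts hE hy₀ hy0 hGS)⟩
  let V : S := ⟨frobPt E Ω G, frobPt_mem_twistPts hE hy₀ hy0 hGS⟩
  let W : S := ⟨G, hGS⟩
  have vU : h U = q * q := by
    rw [hval U _ (hasRep_frobPt (hasRep_frobPt hG1))]; push_cast; ring
  have vV : h V = q := by rw [hval V _ (hasRep_frobPt hG1)]; push_cast; ring
  have vW : h W = 1 := hval W 1 hG1
  have ex := hpar.expand (hval 0 0 hasHt_zero) U V W
  have v1 : h ((0 : ℤ) • U + (1 : ℤ) • V + (-1 : ℤ) • W) = N :=
    hval _ _ (by simpa [U, V, W, sub_eq_add_neg] using hG')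
  have v2 : h ((1 : ℤ) • U + (-1 : ℤ) • V + (0 : ℤ) • W) = q * N := by
    rw [hval _ (q * N) (by simpa [U, V, W, sub_eq_add_neg] using hasRep_frobPt hG')]
    push_cast; ring
  have v3 : h ((1 : ℤ) • U + (-2 : ℤ) • V + (1 : ℤ) • W) = N * N := by
    rw [hval _ (N * N) ?_]
    · push_cast; ring
    · convert hG'' using 1
      show (1 : ℤ) • frobPt E Ω (frobPt E Ω G) + (-2 : ℤ) • frobPt E Ω G + (1 : ℤ) • G = _
      rw [map_sub]
      module
  rw [ex, vU, vV, vW] at v1 v2 v3
  set a : ℤ := (q : ℤ) + 1 - N with ha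
  let β : S := (1 : ℤ) • U + (-a) • V + (q : ℤ) • W
  have hβ : h β = 0 := by
    rw [show h β = _ from ex 1 (-a) q, vU, vV, vW]
    generalize h (U + V) = u at *
    generalize h (U + W) = w at *
    generalize h (V + W) = v at *
    have hu : u = q * q + q + a * q := by rw [ha]; linarith
    have hv : v = q + 1 + a := by rw [ha]; linarith
    have hw : w = q * q + 1 + (a * a - 2 * q) := by
      subst hu hv
      have hN' : (N : ℤ) = q + 1 - a := by rw [ha]; ring
      rw [hN'] at v3
      linear_combination v3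
    subst hu hv hw
    ring
  have hfin : frobPt E Ω (frobPt E Ω G) - a • frobPt E Ω G + (q : ℤ) • G = (β : (E⁄Ω).Point) := by
    simp [β, U, V, W, sub_eq_add_neg]
  rw [hfin]
  have hk0 : hN β = 0 := by exact_mod_cast (show (hN β : ℤ) = 0 from hβ)
  exact two_zsmul_eq_zero_of_hasHt_zero hE hz hy₀ hy0 β.2 (hk0 ▸ hhN β)

/-- **Frobenius relation**: `φ² - a φ + q` kills all points of odd order. -/
theorem two_zsmul_frob_rel (hE : IsShort E A B) (K : Type) [Field K] [DecidableEq K]
    [Algebra F K] [IsAlgClosed K] (T : (E⁄K).Point) :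
    (2 : ℤ) • (frobPt E K (frobPt E K T) -
      ((Fintype.card F : ℤ) + 1 - Nat.card E.Point) • frobPt E K T +
      (Fintype.card F : ℤ) • T) = 0 := by
  classical
  let Ω := AlgebraicClosure (RatFunc K)
  have hS := hE.baseChange (L := Ω)
  let ι : K →ₐ[F] Ω := IsScalarTower.toAlgHom F K Ω
  set z : Ω := algebraMap (RatFunc K) Ω RatFunc.X with hzdef
  have hzK : Transcendental K z := (transcendental_algebraMap_iff
    (algebraMap (RatFunc K) Ω).injective).2 RatFunc.transcendental_X
  obtain ⟨y₀, hy₀⟩ := IsAlgClosed.exists_pow_nat_eq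
    (rhs (algebraMap F Ω A) (algebraMap F Ω B) z) (n := 2) two_pos
  have gen : ∀ {x : Ω}, (∀ t : K, ι t ≠ x) → Transcendental F x := by
    intro x hx halg
    have h1 : IsIntegral K x := (halg.isIntegral).tower_top
    have h2 := IsAlgClosed.degree_eq_one_of_irreducible K (minpoly.irreducible h1)
    obtain ⟨t, ht⟩ := minpoly.mem_range_of_degree_eq_one K x h2
    exact hx t ht
  have hzι : ∀ t : K, ι t ≠ z := fun t e => hzK (e ▸ isAlgebraic_algebraMap t)
  let G : (E⁄Ω).Point := hS.mkPt hy₀
  let f := Affine.Point.map (W' := E) ι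
  have hcomm : ∀ P, f (frobPt E K P) = frobPt E Ω (f P) := by
    intro P
    simp only [f, frobPt, Affine.Point.map_map]
    congr 2
    ext t
    simp [FiniteField.coe_frobeniusAlgHom]
  have hrange : ∀ P : (E⁄Ω).Point, P = 0 ∨
      (∃ x y h, P = .some x y h ∧ Transcendental F x) ∨ ∃ P', f P' = P := by
    rintro (_ | ⟨x, y, h⟩)
    · exact .inl rfl
    by_cases hx : ∀ t : K, ι t ≠ x
    · exact .inr (.inl ⟨x, y, h, rfl, gen hx⟩)
    push Not at hx
    obtain ⟨t, ht⟩ := hx
    obtain ⟨u, hu⟩ := IsAlgClosed.exists_pow_nat_eq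
      (rhs (algebraMap F K A) (algebraMap F K B) t) (n := 2) two_pos
    have hh : (ι u) ^ 2 = rhs (algebraMap F Ω A) (algebraMap F Ω B) x := by
      rw [← map_pow, hu, ← ht]; simp [rhs]
    have hT := (hE.baseChange (L := K)).mkPt hu
    rcases sq_eq_sq_iff_eq_or_eq_neg.1 ((hS.nonsingular_iff.1 h).trans hh.symm) with e | e
    · refine .inr (.inr ⟨(hE.baseChange (L := K)).mkPt hu, ?_⟩)
      subst e; subst ht
      exact Affine.Point.map_some ι _
    · refine .inr (.inr ⟨(hE.baseChange (L := K)).mkPt (x := t) (y := -u) (by rw [neg_sq, hu]), ?_⟩)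
      subst e; subst ht
      simp only [IsShort.mkPt, f, Affine.Point.map_some, map_neg]
  have key : ∀ P : (E⁄Ω).Point, (∀ P', f P' ≠ P) → (2 : ℤ) • (frobPt E Ω (frobPt E Ω P) -
      ((Fintype.card F : ℤ) + 1 - Nat.card E.Point) • frobPt E Ω P +
      (Fintype.card F : ℤ) • P) = 0 := by
    intro P hP
    rcases hrange P with rfl | ⟨x, y, h, rfl, hx⟩ | ⟨P', e⟩
    · exact absurd (map_zero f) (hP 0)
    · exact two_zsmul_frob_rel_generic hE hx h
    · exact absurd e (hP P')
  have hGne : ∀ P', f P' ≠ G := by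
    rintro (_ | ⟨t, u, h⟩) e
    · rw [← Affine.Point.zero_def, map_zero] at e
      exact Affine.Point.some_ne_zero _ e.symm
    · simp only [f, G, IsShort.mkPt, Affine.Point.map_some, Affine.Point.some.injEq] at e
      exact hzι t e.1
  have hG := key G hGne
  have hGT := key (G + f T) fun P' e => hGne (P' - T) (by rw [map_sub, e, add_sub_cancel_right])
  refine Affine.Point.map_injective (W' := E) (f := ι) ?_
  change f _ = f 0
  simp only [map_zero, map_zsmul, map_add, map_sub, hcomm]
  rw [← sub_self (0 : (E⁄Ω).Point)]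
  conv_rhs => arg 1; rw [← hGT]
  conv_rhs => arg 2; rw [← hG]
  simp only [map_add]
  module

end FLTAgent.Switch35
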