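import Fermat.Agent.Switch35.Transfer
import Fermat.Agent.Switch35.FrobRel
import Mathlib.RingTheory.Int.Basic

/-!
# Members of the family have congruent traces of Frobenius mod 5

`five_dvd_trace_sub`: over a finite field, a short curve and a member of its family have traces
congruent mod 5, by moving five-torsion along the family and applying the Frobenius relation.
-/

set_option autoImplicit false

open WeierstrassCurve Polynomial
open scoped WeierstrassCurve.Affine

namespace FLTAgent.Switch35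

theorem eq_zero_of_two_five {G : Type*} [AddCommGroup G] {P : G} (h2 : (2 : ℤ) • P = 0)
    (h5 : (5 : ℤ) • P = 0) : P = 0 := by
  calc P = (5 : ℤ) • P - (2 : ℤ) • ((2 : ℤ) • P) := by module
    _ = 0 := by rw [h5, h2, smul_zero, sub_zero]

theorem dvd_of_five_zsmul {G : Type*} [AddCommGroup G] {P : G} {m : ℤ} (hP : P ≠ 0)
    (h5 : (5 : ℤ) • P = 0) (hm : m • P = 0) : (5 : ℤ) ∣ m := by
  by_contra h
  have h5p : Prime (5 : ℤ) := Int.prime_iff_natAbs_prime.2 (by decide)
  obtain ⟨u, v, huv⟩ := (h5p.coprime_iff_not_dvd).2 h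
  refine hP ?_
  calc P = (u * 5 + v * m) • P := by rw [huv, one_zsmul]
    _ = 0 := by rw [add_zsmul, mul_zsmul, mul_zsmul, h5, hm, smul_zero, smul_zero, add_zero]

variable {F : Type} [Field F] [Fintype F] {c4 c6 t : F} {E E' : WeierstrassCurve.Affine F}

/-- **Congruence of traces** along the family. -/
theorem five_dvd_trace_sub (hE : IsShort E (-27 * c4) (-54 * c6))
    (hE' : IsShort E' (famCoeffA c4 c6 t) (famCoeffB c4 c6 t)) (h3 : (3 : F) ≠ 0)
    (h5 : (5 : F) ≠ 0) :
    (5 : ℤ) ∣ ((Fintype.card F : ℤ) + 1 - Nat.card E'.Point) -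
      ((Fintype.card F : ℤ) + 1 - Nat.card E.Point) := by
  classical
  let K := AlgebraicClosure F
  let g := algebraMap F K
  have hK : IsShort (E⁄K) (-27 * g c4) (-54 * g c6) := by
    have := hE.baseChange (L := K)
    rwa [map_mul, map_mul, map_neg, map_neg, map_ofNat, map_ofNat] at this
  have hK' : IsShort (E'⁄K) (famCoeffA (g c4) (g c6) (g t)) (famCoeffB (g c4) (g c6) (g t)) := by
    have := hE'.baseChange (L := K)
    rwa [famCoeffA_map, famCoeffB_map] at this
  have h3K : (3 : K) ≠ 0 := by simpa [map_ofNat] using (map_ne_zero g).2 h3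
  have h5K : (5 : K) ≠ 0 := by simpa [map_ofNat] using (map_ne_zero g).2 h5
  -- a point of order five
  obtain ⟨hdeg, -, -⟩ := hK.card_psi5_roots h3K h5K
  obtain ⟨x, hx⟩ := IsAlgClosed.exists_root (psi5Poly (-27 * g c4) (-54 * g c6)) (by
    rw [degree_eq_natDegree (psi5Poly_ne_zero h5K _ _), hdeg]
    exact_mod_cast (by norm_num : (12 : ℕ) ≠ 0))
  rw [IsRoot, psi5Poly_eval] at hx
  obtain ⟨y, hy⟩ := IsAlgClosed.exists_pow_nat_eq (rhs (-27 * g c4) (-54 * g c6) x) (n := 2) two_pos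
  have h₀ := IsFive.mk' hK.two h3K hy (hK.fiveRel_of_psi5 hy hx)
  set P := hK.mkPt hy with hPdef
  have hP5 : (5 : ℤ) • P = 0 := by
    obtain ⟨hA, hB, ex, ey, e4, -⟩ := h₀
    exact hK.five_zsmul_tate h3K hA hB (by rw [← e4]) _ ex ey
  -- the transfer map on five-torsion
  let T5 : AddSubgroup (E⁄K).Point :=
    (DistribSMul.toAddMonoidHom (E⁄K).Point (5 : ℤ)).ker
  let f : T5 →+ (E'⁄K).Point :=
    AddMonoidHom.mk' (fun Q => transPt (g c4) (g t) hK' (Q : (E⁄K).Point))
    fun Q R => transPt_add hK hK' h3K h5K Q.2 R.2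
  set φ := frobPt E K
  set φ' := frobPt E' K
  have hmem : ∀ Q ∈ T5, φ Q ∈ T5 := fun Q hQ => by
    change (5 : ℤ) • φ Q = 0
    rw [← map_zsmul, show (5 : ℤ) • Q = 0 from hQ, map_zero]
  have hequiv : ∀ (Q : T5), transPt (g c4) (g t) hK' (φ Q) = φ' (f Q) := by
    rintro ⟨Q, hQ⟩
    change transPt (g c4) (g t) hK' (φ Q) = φ' (transPt (g c4) (g t) hK' Q)
    rcases Q with _ | ⟨u, v, n⟩
    · rw [← Affine.Point.zero_def, map_zero, transPt_zero, map_zero]
    have hfive := isFive_of_five hK h3K n hQ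
    obtain ⟨n', e⟩ := frobPt_some (E := E) n
    have h5' := hmem _ hQ
    rw [e] at h5' ⊢
    have hfive' := isFive_of_five hK h3K n' h5'
    rw [transPt_some hK' hfive', transPt_some hK' hfive, IsShort.mkPt, IsShort.mkPt]
    obtain ⟨n'', e'⟩ := frobPt_some (E := E') (hK'.nonsingular_iff.2 (hfive.trans_equation (g t)))
    rw [e', Affine.Point.some.injEq]
    let σ : K →ₐ[F] K := FiniteField.frobeniusAlgHom F K
    have hX := transX_map (σ : K →+* K) (g c4) (g t) u v
    have hY := transY_map (σ : K →+* K) (g c4) (g t) u v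
    have hσ : ∀ w, (σ : K →+* K) w = w ^ Fintype.card F := fun w => by
      simp [σ]
    have hg : ∀ w : F, (σ : K →+* K) (g w) = g w := fun w => σ.commutes w
    rw [hσ, hg, hg, hσ u, hσ v] at hX hY
    exact ⟨hX.symm, hY.symm⟩
  have hPT : P ∈ T5 := hP5
  let Q0 : T5 := ⟨P, hPT⟩
  let Q1 : T5 := ⟨φ P, hmem _ hPT⟩
  let Q2 : T5 := ⟨φ (φ P), hmem _ (hmem _ hPT)⟩
  set a : ℤ := (Fintype.card F : ℤ) + 1 - Nat.card E.Point
  set a' : ℤ := (Fintype.card F : ℤ) + 1 - Nat.card E'.Point
  have hzero : Q2 - a • Q1 + (Fintype.card F : ℤ) • Q0 = 0 := by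
    refine Subtype.ext ?_
    refine eq_zero_of_two_five ?_ ?_
    · exact two_zsmul_frob_rel hE K P
    · exact (Q2 - a • Q1 + (Fintype.card F : ℤ) • Q0).2
  have himg := congrArg f hzero
  rw [map_add, map_sub, map_zsmul, map_zsmul, map_zero] at himg
  have e1 : f Q1 = φ' (f Q0) := hequiv Q0
  have e2 : f Q2 = φ' (φ' (f Q0)) := by rw [← e1]; exact hequiv Q1
  rw [e1, e2] at himg
  set P' := f Q0 with hP'
  have hP'5 : (5 : ℤ) • P' = 0 := by
    rw [hP', ← map_zsmul, show (5 : ℤ) • Q0 = 0 from Subtype.ext hP5, map_zero]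
  have hP'ne : P' ≠ 0 := by
    have : P' = hK'.mkPt (h₀.trans_equation (g t)) :=
      transPt_some (E := E⁄K) hK' h₀ (hK.nonsingular_iff.2 hy)
    rw [this]
    exact Affine.Point.some_ne_zero _
  have hrel : φ' (φ' P') - a' • φ' P' + (Fintype.card F : ℤ) • P' = 0 := by
    refine eq_zero_of_two_five (two_zsmul_frob_rel hE' K P') ?_
    simp only [smul_add, smul_sub, smul_comm (5 : ℤ), ← map_zsmul, hP'5, map_zero, smul_zero,
      sub_zero, add_zero]
  refine dvd_of_five_zsmul (P := φ' P') ?_ ?_ ?_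
  · intro h
    exact hP'ne (Affine.Point.map_injective (f := FiniteField.frobeniusAlgHom F K)
      (h.trans (map_zero φ').symm))
  · rw [← map_zsmul, hP'5, map_zero]
  · calc (a' - a) • φ' P' = (φ' (φ' P') - a • φ' P' + (Fintype.card F : ℤ) • P') -
        (φ' (φ' P') - a' • φ' P' + (Fintype.card F : ℤ) • P') := by module
      _ = 0 := by rw [himg, hrel, sub_zero]

end FLTAgent.Switch35
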