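import Fermat.Agent.Switch35.Grid

/-!
# Universal forms for the family of curves congruent mod 5 to a given one

The curve with invariants `c4`, `c6` lies in the family with invariants `famC4 c4 c6 t`,
`famC6 c4 c6 t` and discriminant `Δ * famD c4 c6 t ^ 5`. In Tate normal form coordinates `(A, B)`
the family is `(famA A B t, famB A B t)`. The explicit forms were found by computer algebra; the
identities between them at `B = 1` are checked on a grid.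
-/

set_option autoImplicit false

namespace FLTAgent.Switch35

/-- The environment of three variables. -/
def env3 {R : Type*} (a b t : R) : ℕ → R
  | 0 => a
  | 1 => b
  | _ => t

/-- The invariant `c4` of the family as an expression. -/
def famC4E : Px :=
  (.add (.add (.add (.add (.add (.mul (.c (1)) (.pow (.v 0) 1))
    (.add (.mul (.mul (.c (-20)) (.pow (.v 1) 1)) (.pow (.v 2) 1))
    (.mul (.mul (.c (190)) (.pow (.v 0) 2)) (.pow (.v 2) 2))))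
    (.add (.mul (.mul (.mul (.c (-1140)) (.pow (.v 0) 1)) (.pow (.v 1) 1)) (.pow (.v 2) 3))
    (.add (.mul (.mul (.c (-855)) (.pow (.v 0) 3)) (.pow (.v 2) 4))
    (.mul (.mul (.c (5700)) (.pow (.v 1) 2)) (.pow (.v 2) 4)))))
    (.add (.add (.mul (.mul (.mul (.c (-15504)) (.pow (.v 0) 2)) (.pow (.v 1) 1)) (.pow (.v 2) 5))
    (.add (.mul (.mul (.c (102600)) (.pow (.v 0) 4)) (.pow (.v 2) 6))
    (.mul (.mul (.mul (.c (-63840)) (.pow (.v 0) 1)) (.pow (.v 1) 2)) (.pow (.v 2) 6))))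
    (.add (.mul (.mul (.mul (.c (-259920)) (.pow (.v 0) 3)) (.pow (.v 1) 1)) (.pow (.v 2) 7))
    (.add (.mul (.mul (.c (182400)) (.pow (.v 1) 3)) (.pow (.v 2) 7))
    (.mul (.mul (.c (-1000350)) (.pow (.v 0) 5)) (.pow (.v 2) 8))))))
    (.add (.add (.add (.mul (.mul (.mul (.c (1126320)) (.pow (.v 0) 2)) (.pow (.v 1) 2))
      (.pow (.v 2) 8))
    (.add (.mul (.mul (.mul (.c (7736040)) (.pow (.v 0) 4)) (.pow (.v 1) 1)) (.pow (.v 2) 9))
    (.mul (.mul (.mul (.c (-7904000)) (.pow (.v 0) 1)) (.pow (.v 1) 3)) (.pow (.v 2) 9))))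
    (.add (.mul (.mul (.c (-10003500)) (.pow (.v 0) 6)) (.pow (.v 2) 10))
    (.add (.mul (.mul (.mul (.c (-5619744)) (.pow (.v 0) 3)) (.pow (.v 1) 2)) (.pow (.v 2) 10))
    (.mul (.mul (.c (15808000)) (.pow (.v 1) 4)) (.pow (.v 2) 10)))))
    (.add (.add (.mul (.mul (.mul (.c (54685800)) (.pow (.v 0) 5)) (.pow (.v 1) 1))
      (.pow (.v 2) 11))
    (.add (.mul (.mul (.mul (.c (-54853760)) (.pow (.v 0) 2)) (.pow (.v 1) 3)) (.pow (.v 2) 11))
    (.mul (.mul (.c (-45015750)) (.pow (.v 0) 7)) (.pow (.v 2) 12))))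
    (.add (.add (.mul (.mul (.mul (.c (7202520)) (.pow (.v 0) 4)) (.pow (.v 1) 2)) (.pow (.v 2) 12))
    (.mul (.mul (.mul (.c (37939200)) (.pow (.v 0) 1)) (.pow (.v 1) 4)) (.pow (.v 2) 12)))
    (.add (.mul (.mul (.mul (.c (35089200)) (.pow (.v 0) 6)) (.pow (.v 1) 1)) (.pow (.v 2) 13))
    (.mul (.mul (.mul (.c (23201280)) (.pow (.v 0) 3)) (.pow (.v 1) 3)) (.pow (.v 2) 13)))))))
    (.add (.add (.add (.add (.mul (.mul (.c (-58368000)) (.pow (.v 1) 5)) (.pow (.v 2) 13))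
    (.add (.mul (.mul (.c (207765000)) (.pow (.v 0) 8)) (.pow (.v 2) 14))
    (.mul (.mul (.mul (.c (-495188640)) (.pow (.v 0) 5)) (.pow (.v 1) 2)) (.pow (.v 2) 14))))
    (.add (.mul (.mul (.mul (.c (287462400)) (.pow (.v 0) 2)) (.pow (.v 1) 4)) (.pow (.v 2) 14))
    (.add (.mul (.mul (.mul (.c (-415530000)) (.pow (.v 0) 7)) (.pow (.v 1) 1)) (.pow (.v 2) 15))
    (.mul (.mul (.mul (.c (882458496)) (.pow (.v 0) 4)) (.pow (.v 1) 3)) (.pow (.v 2) 15)))))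
    (.add (.add (.mul (.mul (.mul (.c (-466944000)) (.pow (.v 0) 1)) (.pow (.v 1) 5))
      (.pow (.v 2) 15))
    (.add (.mul (.mul (.c (-77911875)) (.pow (.v 0) 9)) (.pow (.v 2) 16))
    (.mul (.mul (.mul (.c (714711600)) (.pow (.v 0) 6)) (.pow (.v 1) 2)) (.pow (.v 2) 16))))
    (.add (.add (.mul (.mul (.mul (.c (-1220474880)) (.pow (.v 0) 3)) (.pow (.v 1) 4))
      (.pow (.v 2) 16))
    (.mul (.mul (.c (583680000)) (.pow (.v 1) 6)) (.pow (.v 2) 16)))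
    (.add (.mul (.mul (.mul (.c (-353200500)) (.pow (.v 0) 8)) (.pow (.v 1) 1)) (.pow (.v 2) 17))
    (.mul (.mul (.mul (.c (715080960)) (.pow (.v 0) 5)) (.pow (.v 1) 3)) (.pow (.v 2) 17))))))
    (.add (.add (.add (.mul (.mul (.mul (.c (-361881600)) (.pow (.v 0) 2)) (.pow (.v 1) 5))
      (.pow (.v 2) 17))
    (.add (.mul (.mul (.c (779118750)) (.pow (.v 0) 10)) (.pow (.v 2) 18))
    (.mul (.mul (.mul (.c (-2182917600)) (.pow (.v 0) 7)) (.pow (.v 1) 2)) (.pow (.v 2) 18))))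
    (.add (.mul (.mul (.mul (.c (2026391040)) (.pow (.v 0) 4)) (.pow (.v 1) 4)) (.pow (.v 2) 18))
    (.add (.mul (.mul (.mul (.c (-622592000)) (.pow (.v 0) 1)) (.pow (.v 1) 6)) (.pow (.v 2) 18))
    (.mul (.mul (.mul (.c (-694372500)) (.pow (.v 0) 9)) (.pow (.v 1) 1)) (.pow (.v 2) 19)))))
    (.add (.add (.mul (.mul (.mul (.c (2044414080)) (.pow (.v 0) 6)) (.pow (.v 1) 3))
      (.pow (.v 2) 19))
    (.add (.mul (.mul (.mul (.c (-2005401600)) (.pow (.v 0) 3)) (.pow (.v 1) 5)) (.pow (.v 2) 19))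
    (.mul (.mul (.c (655360000)) (.pow (.v 1) 7)) (.pow (.v 2) 19))))
    (.add (.add (.mul (.mul (.c (184528125)) (.pow (.v 0) 11)) (.pow (.v 2) 20))
    (.mul (.mul (.mul (.c (-549301500)) (.pow (.v 0) 8)) (.pow (.v 1) 2)) (.pow (.v 2) 20)))
    (.add (.mul (.mul (.mul (.c (544997376)) (.pow (.v 0) 5)) (.pow (.v 1) 4)) (.pow (.v 2) 20))
    (.mul (.mul (.mul (.c (-180224000)) (.pow (.v 0) 2)) (.pow (.v 1) 6)) (.pow (.v 2) 20))))))))

/-- The invariant `c4` of the family. -/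
def famC4 {R : Type*} [CommRing R] (c4 c6 t : R) : R := famC4E.ev (env3 c4 c6 t)

/-- The invariant `c6` of the family as an expression. -/
def famC6E : Px :=
  (.add (.add (.add (.add (.add (.add (.mul (.c (1)) (.pow (.v 1) 1))
    (.add (.mul (.mul (.c (-30)) (.pow (.v 0) 2)) (.pow (.v 2) 1))
    (.mul (.mul (.mul (.c (435)) (.pow (.v 0) 1)) (.pow (.v 1) 1)) (.pow (.v 2) 2))))
    (.add (.mul (.mul (.c (-1160)) (.pow (.v 0) 3)) (.pow (.v 2) 3))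
    (.add (.mul (.mul (.c (-2900)) (.pow (.v 1) 2)) (.pow (.v 2) 3))
    (.mul (.mul (.mul (.c (27405)) (.pow (.v 0) 2)) (.pow (.v 1) 1)) (.pow (.v 2) 4)))))
    (.add (.add (.mul (.mul (.c (-95526)) (.pow (.v 0) 4)) (.pow (.v 2) 5))
    (.add (.mul (.mul (.mul (.c (-46980)) (.pow (.v 0) 1)) (.pow (.v 1) 2)) (.pow (.v 2) 5))
    (.mul (.mul (.mul (.c (437175)) (.pow (.v 0) 3)) (.pow (.v 1) 1)) (.pow (.v 2) 6))))
    (.add (.mul (.mul (.c (156600)) (.pow (.v 1) 3)) (.pow (.v 2) 6))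
    (.add (.mul (.mul (.c (1879200)) (.pow (.v 0) 5)) (.pow (.v 2) 7))
    (.mul (.mul (.mul (.c (-3915000)) (.pow (.v 0) 2)) (.pow (.v 1) 2)) (.pow (.v 2) 7))))))
    (.add (.add (.add (.mul (.mul (.mul (.c (-8554275)) (.pow (.v 0) 4)) (.pow (.v 1) 1))
      (.pow (.v 2) 8))
    (.add (.mul (.mul (.mul (.c (14407200)) (.pow (.v 0) 1)) (.pow (.v 1) 3)) (.pow (.v 2) 8))
    (.mul (.mul (.c (-24312150)) (.pow (.v 0) 6)) (.pow (.v 2) 9))))
    (.add (.mul (.mul (.mul (.c (42021000)) (.pow (.v 0) 3)) (.pow (.v 1) 2)) (.pow (.v 2) 9))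
    (.add (.mul (.mul (.c (-32016000)) (.pow (.v 1) 4)) (.pow (.v 2) 9))
    (.mul (.mul (.mul (.c (246633255)) (.pow (.v 0) 5)) (.pow (.v 1) 1)) (.pow (.v 2) 10)))))
    (.add (.add (.mul (.mul (.mul (.c (-216588240)) (.pow (.v 0) 2)) (.pow (.v 1) 3))
      (.pow (.v 2) 10))
    (.add (.mul (.mul (.c (-162081000)) (.pow (.v 0) 7)) (.pow (.v 2) 11))
    (.mul (.mul (.mul (.c (-1352475900)) (.pow (.v 0) 4)) (.pow (.v 1) 2)) (.pow (.v 2) 11))))
    (.add (.add (.mul (.mul (.mul (.c (1459929600)) (.pow (.v 0) 1)) (.pow (.v 1) 4))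
      (.pow (.v 2) 11))
    (.mul (.mul (.mul (.c (4131714825)) (.pow (.v 0) 6)) (.pow (.v 1) 1)) (.pow (.v 2) 12)))
    (.add (.mul (.mul (.mul (.c (-1612005600)) (.pow (.v 0) 3)) (.pow (.v 1) 3)) (.pow (.v 2) 12))
    (.mul (.mul (.c (-2433216000)) (.pow (.v 1) 5)) (.pow (.v 2) 12)))))))
    (.add (.add (.add (.add (.mul (.mul (.c (-6928962750)) (.pow (.v 0) 8)) (.pow (.v 2) 13))
    (.add (.mul (.mul (.mul (.c (-5235216300)) (.pow (.v 0) 5)) (.pow (.v 1) 2)) (.pow (.v 2) 13))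
    (.mul (.mul (.mul (.c (12044419200)) (.pow (.v 0) 2)) (.pow (.v 1) 4)) (.pow (.v 2) 13))))
    (.add (.mul (.mul (.mul (.c (43190534475)) (.pow (.v 0) 7)) (.pow (.v 1) 1)) (.pow (.v 2) 14))
    (.add (.mul (.mul (.mul (.c (-43045111800)) (.pow (.v 0) 4)) (.pow (.v 1) 3)) (.pow (.v 2) 14))
    (.mul (.mul (.mul (.c (-79575287760)) (.pow (.v 0) 6)) (.pow (.v 1) 2)) (.pow (.v 2) 15)))))
    (.add (.add (.mul (.mul (.mul (.c (79420170240)) (.pow (.v 0) 3)) (.pow (.v 1) 4))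
      (.pow (.v 2) 15))
    (.add (.mul (.mul (.mul (.c (-176688550125)) (.pow (.v 0) 8)) (.pow (.v 1) 1)) (.pow (.v 2) 16))
    (.mul (.mul (.mul (.c (474659611200)) (.pow (.v 0) 5)) (.pow (.v 1) 3)) (.pow (.v 2) 16))))
    (.add (.add (.mul (.mul (.mul (.c (-297825638400)) (.pow (.v 0) 2)) (.pow (.v 1) 5))
      (.pow (.v 2) 16))
    (.mul (.mul (.c (311803323750)) (.pow (.v 0) 10)) (.pow (.v 2) 17)))
    (.add (.mul (.mul (.mul (.c (-77604382800)) (.pow (.v 0) 7)) (.pow (.v 1) 2)) (.pow (.v 2) 17))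
    (.mul (.mul (.mul (.c (-935084908800)) (.pow (.v 0) 4)) (.pow (.v 1) 4)) (.pow (.v 2) 17))))))
    (.add (.add (.add (.mul (.mul (.mul (.c (700766208000)) (.pow (.v 0) 1)) (.pow (.v 1) 6))
      (.pow (.v 2) 17))
    (.add (.mul (.mul (.mul (.c (-1694131392375)) (.pow (.v 0) 9)) (.pow (.v 1) 1))
      (.pow (.v 2) 18))
    (.mul (.mul (.mul (.c (2776512362400)) (.pow (.v 0) 6)) (.pow (.v 1) 3)) (.pow (.v 2) 18))))
    (.add (.mul (.mul (.mul (.c (-303665356800)) (.pow (.v 0) 3)) (.pow (.v 1) 5)) (.pow (.v 2) 18))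
    (.add (.mul (.mul (.c (-778629120000)) (.pow (.v 1) 7)) (.pow (.v 2) 18))
    (.mul (.mul (.c (328214025000)) (.pow (.v 0) 11)) (.pow (.v 2) 19)))))
    (.add (.add (.mul (.mul (.mul (.c (3481840250100)) (.pow (.v 0) 8)) (.pow (.v 1) 2))
      (.pow (.v 2) 19))
    (.add (.mul (.mul (.mul (.c (-8100765158400)) (.pow (.v 0) 5)) (.pow (.v 1) 4))
      (.pow (.v 2) 19))
    (.mul (.mul (.mul (.c (4290656256000)) (.pow (.v 0) 2)) (.pow (.v 1) 6)) (.pow (.v 2) 19))))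
    (.add (.add (.mul (.mul (.mul (.c (-2874607835625)) (.pow (.v 0) 10)) (.pow (.v 1) 1))
      (.pow (.v 2) 20))
    (.mul (.mul (.mul (.c (2424887357760)) (.pow (.v 0) 7)) (.pow (.v 1) 3)) (.pow (.v 2) 20)))
    (.add (.mul (.mul (.mul (.c (3892110842880)) (.pow (.v 0) 4)) (.pow (.v 1) 5)) (.pow (.v 2) 20))
    (.mul (.mul (.mul (.c (-3442360320000)) (.pow (.v 0) 1)) (.pow (.v 1) 7))
      (.pow (.v 2) 20))))))))
    (.add (.add (.add (.add (.add (.mul (.mul (.c (2215444668750)) (.pow (.v 0) 12))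
      (.pow (.v 2) 21))
    (.add (.mul (.mul (.mul (.c (-3077188825500)) (.pow (.v 0) 9)) (.pow (.v 1) 2))
      (.pow (.v 2) 21))
    (.mul (.mul (.mul (.c (2709129888000)) (.pow (.v 0) 6)) (.pow (.v 1) 4)) (.pow (.v 2) 21))))
    (.add (.mul (.mul (.mul (.c (-5125838438400)) (.pow (.v 0) 3)) (.pow (.v 1) 6))
      (.pow (.v 2) 21))
    (.add (.mul (.mul (.c (3278438400000)) (.pow (.v 1) 8)) (.pow (.v 2) 21))
    (.mul (.mul (.mul (.c (-1403114956875)) (.pow (.v 0) 11)) (.pow (.v 1) 1)) (.pow (.v 2) 22)))))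
    (.add (.add (.mul (.mul (.mul (.c (-1724509423800)) (.pow (.v 0) 8)) (.pow (.v 1) 3))
      (.pow (.v 2) 22))
    (.add (.mul (.mul (.mul (.c (7701051801600)) (.pow (.v 0) 5)) (.pow (.v 1) 5)) (.pow (.v 2) 22))
    (.mul (.mul (.mul (.c (-4573421568000)) (.pow (.v 0) 2)) (.pow (.v 1) 7)) (.pow (.v 2) 22))))
    (.add (.add (.mul (.mul (.c (-7705894500000)) (.pow (.v 0) 13)) (.pow (.v 2) 23))
    (.mul (.mul (.mul (.c (33414470973000)) (.pow (.v 0) 10)) (.pow (.v 1) 2)) (.pow (.v 2) 23)))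
    (.add (.mul (.mul (.mul (.c (-49888700928000)) (.pow (.v 0) 7)) (.pow (.v 1) 4))
      (.pow (.v 2) 23))
    (.mul (.mul (.mul (.c (30337884979200)) (.pow (.v 0) 4)) (.pow (.v 1) 6)) (.pow (.v 2) 23))))))
    (.add (.add (.add (.mul (.mul (.mul (.c (-6157762560000)) (.pow (.v 0) 1)) (.pow (.v 1) 8))
      (.pow (.v 2) 23))
    (.add (.mul (.mul (.mul (.c (5089101159375)) (.pow (.v 0) 12)) (.pow (.v 1) 1))
      (.pow (.v 2) 24))
    (.mul (.mul (.mul (.c (-22687218914400)) (.pow (.v 0) 9)) (.pow (.v 1) 3)) (.pow (.v 2) 24))))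
    (.add (.mul (.mul (.mul (.c (35246094796800)) (.pow (.v 0) 6)) (.pow (.v 1) 5))
      (.pow (.v 2) 24))
    (.add (.mul (.mul (.mul (.c (-22779445248000)) (.pow (.v 0) 3)) (.pow (.v 1) 7))
      (.pow (.v 2) 24))
    (.mul (.mul (.c (5131468800000)) (.pow (.v 1) 9)) (.pow (.v 2) 24)))))
    (.add (.add (.mul (.mul (.c (17627233668750)) (.pow (.v 0) 14)) (.pow (.v 2) 25))
    (.add (.mul (.mul (.mul (.c (-70097953635000)) (.pow (.v 0) 11)) (.pow (.v 1) 2))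
      (.pow (.v 2) 25))
    (.mul (.mul (.mul (.c (105528606261120)) (.pow (.v 0) 8)) (.pow (.v 1) 4)) (.pow (.v 2) 25))))
    (.add (.add (.mul (.mul (.mul (.c (-71274600677376)) (.pow (.v 0) 5)) (.pow (.v 1) 6))
      (.pow (.v 2) 25))
    (.mul (.mul (.mul (.c (18216714240000)) (.pow (.v 0) 2)) (.pow (.v 1) 8)) (.pow (.v 2) 25)))
    (.add (.mul (.mul (.mul (.c (-40985726371875)) (.pow (.v 0) 13)) (.pow (.v 1) 1))
      (.pow (.v 2) 26))
    (.mul (.mul (.mul (.c (163672057566000)) (.pow (.v 0) 10)) (.pow (.v 1) 3))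
      (.pow (.v 2) 26)))))))
    (.add (.add (.add (.add (.mul (.mul (.mul (.c (-245438120632320)) (.pow (.v 0) 7))
      (.pow (.v 1) 5)) (.pow (.v 2) 26))
    (.add (.mul (.mul (.mul (.c (163803539865600)) (.pow (.v 0) 4)) (.pow (.v 1) 7))
      (.pow (.v 2) 26))
    (.mul (.mul (.mul (.c (-41051750400000)) (.pow (.v 0) 1)) (.pow (.v 1) 9)) (.pow (.v 2) 26))))
    (.add (.mul (.mul (.c (9632368125000)) (.pow (.v 0) 15)) (.pow (.v 2) 27))
    (.add (.mul (.mul (.mul (.c (-8104032382500)) (.pow (.v 0) 12)) (.pow (.v 1) 2))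
      (.pow (.v 2) 27))
    (.mul (.mul (.mul (.c (-63806176396800)) (.pow (.v 0) 9)) (.pow (.v 1) 4)) (.pow (.v 2) 27)))))
    (.add (.add (.mul (.mul (.mul (.c (143803576074240)) (.pow (.v 0) 6)) (.pow (.v 1) 6))
      (.pow (.v 2) 27))
    (.add (.mul (.mul (.mul (.c (-111934439424000)) (.pow (.v 0) 3)) (.pow (.v 1) 8))
      (.pow (.v 2) 27))
    (.mul (.mul (.c (30408704000000)) (.pow (.v 1) 10)) (.pow (.v 2) 27))))
    (.add (.add (.mul (.mul (.mul (.c (-21432019078125)) (.pow (.v 0) 14)) (.pow (.v 1) 1))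
      (.pow (.v 2) 28))
    (.mul (.mul (.mul (.c (85719228804000)) (.pow (.v 0) 11)) (.pow (.v 1) 3)) (.pow (.v 2) 28)))
    (.add (.mul (.mul (.mul (.c (-128580522647040)) (.pow (.v 0) 8)) (.pow (.v 1) 5))
      (.pow (.v 2) 28))
    (.mul (.mul (.mul (.c (85731449241600)) (.pow (.v 0) 5)) (.pow (.v 1) 7)) (.pow (.v 2) 28))))))
    (.add (.add (.add (.mul (.mul (.mul (.c (-21438136320000)) (.pow (.v 0) 2)) (.pow (.v 1) 9))
      (.pow (.v 2) 28))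
    (.add (.mul (.mul (.c (11210083593750)) (.pow (.v 0) 16)) (.pow (.v 2) 29))
    (.mul (.mul (.mul (.c (-49873523512500)) (.pow (.v 0) 13)) (.pow (.v 1) 2)) (.pow (.v 2) 29))))
    (.add (.mul (.mul (.mul (.c (87394892457600)) (.pow (.v 0) 10)) (.pow (.v 1) 4))
      (.pow (.v 2) 29))
    (.add (.mul (.mul (.mul (.c (-75042714746880)) (.pow (.v 0) 7)) (.pow (.v 1) 6))
      (.pow (.v 2) 29))
    (.mul (.mul (.mul (.c (31344427008000)) (.pow (.v 0) 4)) (.pow (.v 1) 8)) (.pow (.v 2) 29)))))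
    (.add (.add (.mul (.mul (.mul (.c (-5033164800000)) (.pow (.v 0) 1)) (.pow (.v 1) 10))
      (.pow (.v 2) 29))
    (.add (.mul (.mul (.mul (.c (-4110363984375)) (.pow (.v 0) 15)) (.pow (.v 1) 1))
      (.pow (.v 2) 30))
    (.mul (.mul (.mul (.c (19796866155000)) (.pow (.v 0) 12)) (.pow (.v 1) 3)) (.pow (.v 2) 30))))
    (.add (.add (.mul (.mul (.mul (.c (-38083944628224)) (.pow (.v 0) 9)) (.pow (.v 1) 5))
      (.pow (.v 2) 30))
    (.mul (.mul (.mul (.c (36574189977600)) (.pow (.v 0) 6)) (.pow (.v 1) 7)) (.pow (.v 2) 30)))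
    (.add (.mul (.mul (.mul (.c (-17532190720000)) (.pow (.v 0) 3)) (.pow (.v 1) 9))
      (.pow (.v 2) 30))
    (.mul (.mul (.c (3355443200000)) (.pow (.v 1) 11)) (.pow (.v 2) 30)))))))))

/-- The invariant `c6` of the family. -/
def famC6 {R : Type*} [CommRing R] (c4 c6 t : R) : R := famC6E.ev (env3 c4 c6 t)

/-- The twelve cusps of the family as an expression. -/
def famDE : Px :=
  (.add (.add (.add (.add (.c (1))
    (.mul (.mul (.c (-66)) (.pow (.v 0) 1)) (.pow (.v 2) 2)))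
    (.add (.mul (.mul (.c (440)) (.pow (.v 1) 1)) (.pow (.v 2) 3))
    (.mul (.mul (.c (-1485)) (.pow (.v 0) 2)) (.pow (.v 2) 4))))
    (.add (.add (.mul (.mul (.mul (.c (3168)) (.pow (.v 0) 1)) (.pow (.v 1) 1)) (.pow (.v 2) 5))
    (.mul (.mul (.c (5940)) (.pow (.v 0) 3)) (.pow (.v 2) 6)))
    (.add (.mul (.mul (.c (-10560)) (.pow (.v 1) 2)) (.pow (.v 2) 6))
    (.add (.mul (.mul (.mul (.c (4752)) (.pow (.v 0) 2)) (.pow (.v 1) 1)) (.pow (.v 2) 7))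
    (.mul (.mul (.c (-66825)) (.pow (.v 0) 4)) (.pow (.v 2) 8))))))
    (.add (.add (.add (.mul (.mul (.mul (.c (63360)) (.pow (.v 0) 1)) (.pow (.v 1) 2))
      (.pow (.v 2) 8))
    (.mul (.mul (.mul (.c (142560)) (.pow (.v 0) 3)) (.pow (.v 1) 1)) (.pow (.v 2) 9)))
    (.add (.mul (.mul (.c (-140800)) (.pow (.v 1) 3)) (.pow (.v 2) 9))
    (.add (.mul (.mul (.c (-133650)) (.pow (.v 0) 5)) (.pow (.v 2) 10))
    (.mul (.mul (.mul (.c (133056)) (.pow (.v 0) 2)) (.pow (.v 1) 2)) (.pow (.v 2) 10)))))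
    (.add (.add (.mul (.mul (.mul (.c (61560)) (.pow (.v 0) 4)) (.pow (.v 1) 1)) (.pow (.v 2) 11))
    (.mul (.mul (.mul (.c (-61440)) (.pow (.v 0) 1)) (.pow (.v 1) 3)) (.pow (.v 2) 11)))
    (.add (.mul (.mul (.c (91125)) (.pow (.v 0) 6)) (.pow (.v 2) 12))
    (.add (.mul (.mul (.mul (.c (-193536)) (.pow (.v 0) 3)) (.pow (.v 1) 2)) (.pow (.v 2) 12))
    (.mul (.mul (.c (102400)) (.pow (.v 1) 4)) (.pow (.v 2) 12)))))))

/-- The twelve cusps of the family. -/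
def famD {R : Type*} [CommRing R] (c4 c6 t : R) : R := famDE.ev (env3 c4 c6 t)

/-- First derivative of `famD` in `t` as an expression. -/
def famD1E : Px :=
  (.add (.add (.add (.add (.mul (.mul (.c (-132)) (.pow (.v 0) 1)) (.pow (.v 2) 1))
    (.mul (.mul (.c (1320)) (.pow (.v 1) 1)) (.pow (.v 2) 2)))
    (.add (.mul (.mul (.c (-5940)) (.pow (.v 0) 2)) (.pow (.v 2) 3))
    (.mul (.mul (.mul (.c (15840)) (.pow (.v 0) 1)) (.pow (.v 1) 1)) (.pow (.v 2) 4))))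
    (.add (.add (.mul (.mul (.c (35640)) (.pow (.v 0) 3)) (.pow (.v 2) 5))
    (.mul (.mul (.c (-63360)) (.pow (.v 1) 2)) (.pow (.v 2) 5)))
    (.add (.mul (.mul (.mul (.c (33264)) (.pow (.v 0) 2)) (.pow (.v 1) 1)) (.pow (.v 2) 6))
    (.add (.mul (.mul (.c (-534600)) (.pow (.v 0) 4)) (.pow (.v 2) 7))
    (.mul (.mul (.mul (.c (506880)) (.pow (.v 0) 1)) (.pow (.v 1) 2)) (.pow (.v 2) 7))))))
    (.add (.add (.add (.mul (.mul (.mul (.c (1283040)) (.pow (.v 0) 3)) (.pow (.v 1) 1))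
      (.pow (.v 2) 8))
    (.mul (.mul (.c (-1267200)) (.pow (.v 1) 3)) (.pow (.v 2) 8)))
    (.add (.mul (.mul (.c (-1336500)) (.pow (.v 0) 5)) (.pow (.v 2) 9))
    (.mul (.mul (.mul (.c (1330560)) (.pow (.v 0) 2)) (.pow (.v 1) 2)) (.pow (.v 2) 9))))
    (.add (.add (.mul (.mul (.mul (.c (677160)) (.pow (.v 0) 4)) (.pow (.v 1) 1)) (.pow (.v 2) 10))
    (.mul (.mul (.mul (.c (-675840)) (.pow (.v 0) 1)) (.pow (.v 1) 3)) (.pow (.v 2) 10)))
    (.add (.mul (.mul (.c (1093500)) (.pow (.v 0) 6)) (.pow (.v 2) 11))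
    (.add (.mul (.mul (.mul (.c (-2322432)) (.pow (.v 0) 3)) (.pow (.v 1) 2)) (.pow (.v 2) 11))
    (.mul (.mul (.c (1228800)) (.pow (.v 1) 4)) (.pow (.v 2) 11)))))))

/-- First derivative of `famD` in `t`. -/
def famD1 {R : Type*} [CommRing R] (c4 c6 t : R) : R := famD1E.ev (env3 c4 c6 t)

/-- Second derivative of `famD` in `t` as an expression. -/
def famD2E : Px :=
  (.add (.add (.add (.add (.mul (.c (-132)) (.pow (.v 0) 1))
    (.mul (.mul (.c (2640)) (.pow (.v 1) 1)) (.pow (.v 2) 1)))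
    (.add (.mul (.mul (.c (-17820)) (.pow (.v 0) 2)) (.pow (.v 2) 2))
    (.mul (.mul (.mul (.c (63360)) (.pow (.v 0) 1)) (.pow (.v 1) 1)) (.pow (.v 2) 3))))
    (.add (.add (.mul (.mul (.c (178200)) (.pow (.v 0) 3)) (.pow (.v 2) 4))
    (.mul (.mul (.c (-316800)) (.pow (.v 1) 2)) (.pow (.v 2) 4)))
    (.add (.mul (.mul (.mul (.c (199584)) (.pow (.v 0) 2)) (.pow (.v 1) 1)) (.pow (.v 2) 5))
    (.add (.mul (.mul (.c (-3742200)) (.pow (.v 0) 4)) (.pow (.v 2) 6))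
    (.mul (.mul (.mul (.c (3548160)) (.pow (.v 0) 1)) (.pow (.v 1) 2)) (.pow (.v 2) 6))))))
    (.add (.add (.add (.mul (.mul (.mul (.c (10264320)) (.pow (.v 0) 3)) (.pow (.v 1) 1))
      (.pow (.v 2) 7))
    (.mul (.mul (.c (-10137600)) (.pow (.v 1) 3)) (.pow (.v 2) 7)))
    (.add (.mul (.mul (.c (-12028500)) (.pow (.v 0) 5)) (.pow (.v 2) 8))
    (.mul (.mul (.mul (.c (11975040)) (.pow (.v 0) 2)) (.pow (.v 1) 2)) (.pow (.v 2) 8))))
    (.add (.add (.mul (.mul (.mul (.c (6771600)) (.pow (.v 0) 4)) (.pow (.v 1) 1)) (.pow (.v 2) 9))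
    (.mul (.mul (.mul (.c (-6758400)) (.pow (.v 0) 1)) (.pow (.v 1) 3)) (.pow (.v 2) 9)))
    (.add (.mul (.mul (.c (12028500)) (.pow (.v 0) 6)) (.pow (.v 2) 10))
    (.add (.mul (.mul (.mul (.c (-25546752)) (.pow (.v 0) 3)) (.pow (.v 1) 2)) (.pow (.v 2) 10))
    (.mul (.mul (.c (13516800)) (.pow (.v 1) 4)) (.pow (.v 2) 10)))))))

/-- Second derivative of `famD` in `t`. -/
def famD2 {R : Type*} [CommRing R] (c4 c6 t : R) : R := famD2E.ev (env3 c4 c6 t)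

/-- First Tate coordinate of the family as an expression. -/
def famAE : Px :=
  (.add (.add (.add (.add (.add (.mul (.c (1)) (.pow (.v 0) 1))
    (.mul (.mul (.c (5)) (.pow (.v 0) 3)) (.pow (.v 2) 1)))
    (.add (.mul (.mul (.mul (.c (-66)) (.pow (.v 0) 2)) (.pow (.v 1) 1)) (.pow (.v 2) 1))
    (.mul (.mul (.mul (.c (-7)) (.pow (.v 0) 1)) (.pow (.v 1) 2)) (.pow (.v 2) 1))))
    (.add (.add (.mul (.mul (.c (10)) (.pow (.v 0) 5)) (.pow (.v 2) 2))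
    (.mul (.mul (.mul (.c (-264)) (.pow (.v 0) 4)) (.pow (.v 1) 1)) (.pow (.v 2) 2)))
    (.add (.mul (.mul (.mul (.c (1772)) (.pow (.v 0) 3)) (.pow (.v 1) 2)) (.pow (.v 2) 2))
    (.add (.mul (.mul (.mul (.c (-264)) (.pow (.v 0) 2)) (.pow (.v 1) 3)) (.pow (.v 2) 2))
    (.mul (.mul (.mul (.c (-38)) (.pow (.v 0) 1)) (.pow (.v 1) 4)) (.pow (.v 2) 2))))))
    (.add (.add (.add (.mul (.mul (.c (10)) (.pow (.v 0) 7)) (.pow (.v 2) 3))
    (.mul (.mul (.mul (.c (-396)) (.pow (.v 0) 6)) (.pow (.v 1) 1)) (.pow (.v 2) 3)))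
    (.add (.mul (.mul (.mul (.c (5358)) (.pow (.v 0) 5)) (.pow (.v 1) 2)) (.pow (.v 2) 3))
    (.mul (.mul (.mul (.c (-24552)) (.pow (.v 0) 4)) (.pow (.v 1) 3)) (.pow (.v 2) 3))))
    (.add (.add (.mul (.mul (.mul (.c (966)) (.pow (.v 0) 3)) (.pow (.v 1) 4)) (.pow (.v 2) 3))
    (.mul (.mul (.mul (.c (-396)) (.pow (.v 0) 2)) (.pow (.v 1) 5)) (.pow (.v 2) 3)))
    (.add (.mul (.mul (.mul (.c (-62)) (.pow (.v 0) 1)) (.pow (.v 1) 6)) (.pow (.v 2) 3))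
    (.add (.mul (.mul (.c (5)) (.pow (.v 0) 9)) (.pow (.v 2) 4))
    (.mul (.mul (.mul (.c (-264)) (.pow (.v 0) 8)) (.pow (.v 1) 1)) (.pow (.v 2) 4)))))))
    (.add (.add (.add (.add (.mul (.mul (.mul (.c (5372)) (.pow (.v 0) 7)) (.pow (.v 1) 2))
      (.pow (.v 2) 4))
    (.mul (.mul (.mul (.c (-48312)) (.pow (.v 0) 6)) (.pow (.v 1) 3)) (.pow (.v 2) 4)))
    (.add (.mul (.mul (.mul (.c (164046)) (.pow (.v 0) 5)) (.pow (.v 1) 4)) (.pow (.v 2) 4))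
    (.mul (.mul (.mul (.c (-48312)) (.pow (.v 0) 4)) (.pow (.v 1) 5)) (.pow (.v 2) 4))))
    (.add (.add (.mul (.mul (.mul (.c (-3364)) (.pow (.v 0) 3)) (.pow (.v 1) 6)) (.pow (.v 2) 4))
    (.mul (.mul (.mul (.c (-264)) (.pow (.v 0) 2)) (.pow (.v 1) 7)) (.pow (.v 2) 4)))
    (.add (.mul (.mul (.mul (.c (-43)) (.pow (.v 0) 1)) (.pow (.v 1) 8)) (.pow (.v 2) 4))
    (.add (.mul (.mul (.c (1)) (.pow (.v 0) 11)) (.pow (.v 2) 5))
    (.mul (.mul (.mul (.c (-66)) (.pow (.v 0) 10)) (.pow (.v 1) 1)) (.pow (.v 2) 5))))))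
    (.add (.add (.add (.mul (.mul (.mul (.c (1793)) (.pow (.v 0) 9)) (.pow (.v 1) 2))
      (.pow (.v 2) 5))
    (.mul (.mul (.mul (.c (-24024)) (.pow (.v 0) 8)) (.pow (.v 1) 3)) (.pow (.v 2) 5)))
    (.add (.mul (.mul (.mul (.c (163042)) (.pow (.v 0) 7)) (.pow (.v 1) 4)) (.pow (.v 2) 5))
    (.mul (.mul (.mul (.c (-475596)) (.pow (.v 0) 6)) (.pow (.v 1) 5)) (.pow (.v 2) 5))))
    (.add (.add (.mul (.mul (.mul (.c (80938)) (.pow (.v 0) 5)) (.pow (.v 1) 6)) (.pow (.v 2) 5))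
    (.mul (.mul (.mul (.c (-24024)) (.pow (.v 0) 4)) (.pow (.v 1) 7)) (.pow (.v 2) 5)))
    (.add (.mul (.mul (.mul (.c (-2563)) (.pow (.v 0) 3)) (.pow (.v 1) 8)) (.pow (.v 2) 5))
    (.add (.mul (.mul (.mul (.c (-66)) (.pow (.v 0) 2)) (.pow (.v 1) 9)) (.pow (.v 2) 5))
    (.mul (.mul (.mul (.c (-11)) (.pow (.v 0) 1)) (.pow (.v 1) 10)) (.pow (.v 2) 5))))))))

/-- First Tate coordinate of the family. -/
def famA {R : Type*} [CommRing R] (A B t : R) : R := famAE.ev (env3 A B t)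

/-- Second Tate coordinate of the family as an expression. -/
def famBE : Px :=
  (.add (.add (.add (.add (.add (.mul (.c (1)) (.pow (.v 1) 1))
    (.mul (.mul (.mul (.c (-7)) (.pow (.v 0) 2)) (.pow (.v 1) 1)) (.pow (.v 2) 1)))
    (.add (.mul (.mul (.mul (.c (66)) (.pow (.v 0) 1)) (.pow (.v 1) 2)) (.pow (.v 2) 1))
    (.mul (.mul (.c (5)) (.pow (.v 1) 3)) (.pow (.v 2) 1))))
    (.add (.add (.mul (.mul (.mul (.c (-38)) (.pow (.v 0) 4)) (.pow (.v 1) 1)) (.pow (.v 2) 2))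
    (.mul (.mul (.mul (.c (264)) (.pow (.v 0) 3)) (.pow (.v 1) 2)) (.pow (.v 2) 2)))
    (.add (.mul (.mul (.mul (.c (1772)) (.pow (.v 0) 2)) (.pow (.v 1) 3)) (.pow (.v 2) 2))
    (.add (.mul (.mul (.mul (.c (264)) (.pow (.v 0) 1)) (.pow (.v 1) 4)) (.pow (.v 2) 2))
    (.mul (.mul (.c (10)) (.pow (.v 1) 5)) (.pow (.v 2) 2))))))
    (.add (.add (.add (.mul (.mul (.mul (.c (-62)) (.pow (.v 0) 6)) (.pow (.v 1) 1))
      (.pow (.v 2) 3))
    (.mul (.mul (.mul (.c (396)) (.pow (.v 0) 5)) (.pow (.v 1) 2)) (.pow (.v 2) 3)))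
    (.add (.mul (.mul (.mul (.c (966)) (.pow (.v 0) 4)) (.pow (.v 1) 3)) (.pow (.v 2) 3))
    (.mul (.mul (.mul (.c (24552)) (.pow (.v 0) 3)) (.pow (.v 1) 4)) (.pow (.v 2) 3))))
    (.add (.add (.mul (.mul (.mul (.c (5358)) (.pow (.v 0) 2)) (.pow (.v 1) 5)) (.pow (.v 2) 3))
    (.mul (.mul (.mul (.c (396)) (.pow (.v 0) 1)) (.pow (.v 1) 6)) (.pow (.v 2) 3)))
    (.add (.mul (.mul (.c (10)) (.pow (.v 1) 7)) (.pow (.v 2) 3))
    (.add (.mul (.mul (.mul (.c (-43)) (.pow (.v 0) 8)) (.pow (.v 1) 1)) (.pow (.v 2) 4))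
    (.mul (.mul (.mul (.c (264)) (.pow (.v 0) 7)) (.pow (.v 1) 2)) (.pow (.v 2) 4)))))))
    (.add (.add (.add (.add (.mul (.mul (.mul (.c (-3364)) (.pow (.v 0) 6)) (.pow (.v 1) 3))
      (.pow (.v 2) 4))
    (.mul (.mul (.mul (.c (48312)) (.pow (.v 0) 5)) (.pow (.v 1) 4)) (.pow (.v 2) 4)))
    (.add (.mul (.mul (.mul (.c (164046)) (.pow (.v 0) 4)) (.pow (.v 1) 5)) (.pow (.v 2) 4))
    (.mul (.mul (.mul (.c (48312)) (.pow (.v 0) 3)) (.pow (.v 1) 6)) (.pow (.v 2) 4))))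
    (.add (.add (.mul (.mul (.mul (.c (5372)) (.pow (.v 0) 2)) (.pow (.v 1) 7)) (.pow (.v 2) 4))
    (.mul (.mul (.mul (.c (264)) (.pow (.v 0) 1)) (.pow (.v 1) 8)) (.pow (.v 2) 4)))
    (.add (.mul (.mul (.c (5)) (.pow (.v 1) 9)) (.pow (.v 2) 4))
    (.add (.mul (.mul (.mul (.c (-11)) (.pow (.v 0) 10)) (.pow (.v 1) 1)) (.pow (.v 2) 5))
    (.mul (.mul (.mul (.c (66)) (.pow (.v 0) 9)) (.pow (.v 1) 2)) (.pow (.v 2) 5))))))
    (.add (.add (.add (.mul (.mul (.mul (.c (-2563)) (.pow (.v 0) 8)) (.pow (.v 1) 3))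
      (.pow (.v 2) 5))
    (.mul (.mul (.mul (.c (24024)) (.pow (.v 0) 7)) (.pow (.v 1) 4)) (.pow (.v 2) 5)))
    (.add (.mul (.mul (.mul (.c (80938)) (.pow (.v 0) 6)) (.pow (.v 1) 5)) (.pow (.v 2) 5))
    (.mul (.mul (.mul (.c (475596)) (.pow (.v 0) 5)) (.pow (.v 1) 6)) (.pow (.v 2) 5))))
    (.add (.add (.mul (.mul (.mul (.c (163042)) (.pow (.v 0) 4)) (.pow (.v 1) 7)) (.pow (.v 2) 5))
    (.mul (.mul (.mul (.c (24024)) (.pow (.v 0) 3)) (.pow (.v 1) 8)) (.pow (.v 2) 5)))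
    (.add (.mul (.mul (.mul (.c (1793)) (.pow (.v 0) 2)) (.pow (.v 1) 9)) (.pow (.v 2) 5))
    (.add (.mul (.mul (.mul (.c (66)) (.pow (.v 0) 1)) (.pow (.v 1) 10)) (.pow (.v 2) 5))
    (.mul (.mul (.c (1)) (.pow (.v 1) 11)) (.pow (.v 2) 5))))))))

/-- Second Tate coordinate of the family. -/
def famB {R : Type*} [CommRing R] (A B t : R) : R := famBE.ev (env3 A B t)

/-- The quadratic factor as an expression. -/
def famWE : Px :=
  (.add (.add (.c (1))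
    (.add (.mul (.mul (.c (2)) (.pow (.v 0) 2)) (.pow (.v 2) 1))
    (.mul (.mul (.c (2)) (.pow (.v 1) 2)) (.pow (.v 2) 1))))
    (.add (.mul (.mul (.c (1)) (.pow (.v 0) 4)) (.pow (.v 2) 2))
    (.add (.mul (.mul (.mul (.c (-178)) (.pow (.v 0) 2)) (.pow (.v 1) 2)) (.pow (.v 2) 2))
    (.mul (.mul (.c (1)) (.pow (.v 1) 4)) (.pow (.v 2) 2)))))

/-- The quadratic factor. -/
def famW {R : Type*} [CommRing R] (A B t : R) : R := famWE.ev (env3 A B t)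

/-- `c4` in Tate coordinates as an expression. -/
def tateC4E : Px :=
  (.add (.add (.mul (.c (1)) (.pow (.v 0) 4))
    (.mul (.mul (.c (-12)) (.pow (.v 0) 3)) (.pow (.v 1) 1)))
    (.add (.mul (.mul (.c (14)) (.pow (.v 0) 2)) (.pow (.v 1) 2))
    (.add (.mul (.mul (.c (12)) (.pow (.v 0) 1)) (.pow (.v 1) 3))
    (.mul (.c (1)) (.pow (.v 1) 4)))))

/-- `c4` in Tate coordinates. -/
def tateC4 {R : Type*} [CommRing R] (A B : R) : R := tateC4E.ev (env3 A B 0)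

/-- `c6` in Tate coordinates as an expression. -/
def tateC6E : Px :=
  (.add (.add (.mul (.c (-1)) (.pow (.v 0) 6))
    (.add (.mul (.mul (.c (18)) (.pow (.v 0) 5)) (.pow (.v 1) 1))
    (.mul (.mul (.c (-75)) (.pow (.v 0) 4)) (.pow (.v 1) 2))))
    (.add (.mul (.mul (.c (-75)) (.pow (.v 0) 2)) (.pow (.v 1) 4))
    (.add (.mul (.mul (.c (-18)) (.pow (.v 0) 1)) (.pow (.v 1) 5))
    (.mul (.c (-1)) (.pow (.v 1) 6)))))

/-- `c6` in Tate coordinates. -/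
def tateC6 {R : Type*} [CommRing R] (A B : R) : R := tateC6E.ev (env3 A B 0)

/-- Variables for the specialisation `B = 1`. -/
def atOne : ℕ → Px := env3 (.v 0) (.c 1) (.v 1)

/-- Difference of the two sides of the `c4` identity at `B = 1`. -/
def chkC4 : Px :=
  .sub (tateC4E.subst (env3 (famAE.subst atOne) (famBE.subst atOne) (.c 0)))
    (famC4E.subst (env3 (tateC4E.subst atOne) (tateC6E.subst atOne) (.v 1)))

/-- Difference of the two sides of the `c6` identity at `B = 1`. -/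
def chkC6 : Px :=
  .sub (tateC6E.subst (env3 (famAE.subst atOne) (famBE.subst atOne) (.c 0)))
    (famC6E.subst (env3 (tateC4E.subst atOne) (tateC6E.subst atOne) (.v 1)))

/-- Difference of the two sides of the product identity at `B = 1`. -/
def chkD : Px :=
  .sub (.mul (.mul (famAE.subst atOne) (famBE.subst atOne)) (famWE.subst atOne))
    (.mul (.v 0) (famDE.subst (env3 (tateC4E.subst atOne) (tateC6E.subst atOne) (.v 1))))

theorem chkD_eq_zero {R : Type*} [CommRing R] (a t : R) : chkD.ev (Px.env2 a t) = 0 :=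
  Px.ev_eq_zero_of_check chkD (2 ^ 768) 12 (by decide +kernel) (by decide +kernel) a t

theorem chkC4_eq_zero {R : Type*} [CommRing R] (a t : R) : chkC4.ev (Px.env2 a t) = 0 :=
  Px.ev_eq_zero_of_check chkC4 (2 ^ 768) 20 (by decide +kernel) (by decide +kernel) a t

theorem chkC6_eq_zero {R : Type*} [CommRing R] (a t : R) : chkC6.ev (Px.env2 a t) = 0 :=
  Px.ev_eq_zero_of_check chkC6 (2 ^ 768) 30 (by decide +kernel) (by decide +kernel) a t

end FLTAgent.Switch35
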