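import Fermat.Agent.Switch35.Forms
import Mathlib.FieldTheory.IsAlgClosed.Basic
import Mathlib.Tactic.LinearCombination
import Mathlib.Tactic.FieldSimp
import Mathlib.Algebra.Polynomial.Derivative

/-!
# Properties of the universal forms

Values at `t = 0`, homogeneity, the discriminant identity `famC4_cube_sub_tate` in Tate
coordinates, and the fact that `famC4` and `famD` have no common zero at nondegenerate Tate
coordinates when `2`, `3`, `5` are invertible (`famC4_ne_zero_of_famD_eq_zero`).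
-/

set_option autoImplicit false

namespace FLTAgent.Switch35

section Ring

variable {R : Type*} [CommRing R]

/-- Discriminant factor of the Tate normal form, up to the monomial. -/
def tateQ (A B : R) : R := A ^ 2 - 11 * A * B - B ^ 2

theorem tateC4_eq (A B : R) :
    tateC4 A B = A ^ 4 - 12 * A ^ 3 * B + 14 * A ^ 2 * B ^ 2 + 12 * A * B ^ 3 + B ^ 4 := by
  simp only [tateC4, tateC4E, Px.ev, env3]; push_cast; ring

theorem tateC6_eq (A B : R) :
    tateC6 A B = -A ^ 6 + 18 * A ^ 5 * B - 75 * A ^ 4 * B ^ 2 - 75 * A ^ 2 * B ^ 4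
      - 18 * A * B ^ 5 - B ^ 6 := by
  simp only [tateC6, tateC6E, Px.ev, env3]; push_cast; ring

theorem tateC4_cube_sub (A B : R) :
    tateC4 A B ^ 3 - tateC6 A B ^ 2 = 1728 * ((A * B) ^ 5 * tateQ A B) := by
  rw [tateC4_eq, tateC6_eq, tateQ]; ring

theorem famC4_sq_sub (c4 c6 t : R) :
    12 * (famD c4 c6 t * famD2 c4 c6 t) - 11 * famD1 c4 c6 t ^ 2 = -1584 * famC4 c4 c6 t := by
  simp only [famD, famDE, famD1, famD1E, famD2, famD2E, famC4, famC4E, Px.ev, env3]
  push_cast; ring

theorem famC4_zero (c4 c6 : R) : famC4 c4 c6 0 = c4 := by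
  simp [famC4, famC4E, Px.ev, env3]

theorem famC6_zero (c4 c6 : R) : famC6 c4 c6 0 = c6 := by
  simp [famC6, famC6E, Px.ev, env3]

theorem famD_zero (c4 c6 : R) : famD c4 c6 0 = 1 := by
  simp [famD, famDE, Px.ev, env3]

theorem famA_zero (A B : R) : famA A B 0 = A := by
  simp [famA, famAE, Px.ev, env3]

theorem famB_zero (A B : R) : famB A B 0 = B := by
  simp [famB, famBE, Px.ev, env3]

theorem famW_eq (A B t : R) :
    famW A B t = 1 + 2 * t * (A ^ 2 + B ^ 2) + t ^ 2 * (A ^ 4 - 178 * A ^ 2 * B ^ 2 + B ^ 4) := by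
  simp only [famW, famWE, Px.ev, env3]; push_cast; ring

theorem tateQ_fam (A B t : R) :
    tateQ (famA A B t) (famB A B t) = tateQ A B * famW A B t ^ 5 := by
  rw [famW_eq]
  simp only [tateQ, famA, famAE, famB, famBE, Px.ev, env3]
  push_cast; ring

theorem tateC4_scale (l A B : R) : tateC4 (l * A) (l * B) = l ^ 4 * tateC4 A B := by
  simp only [tateC4_eq]; ring

theorem tateC6_scale (l A B : R) : tateC6 (l * A) (l * B) = l ^ 6 * tateC6 A B := by
  simp only [tateC6_eq]; ring

theorem famA_scale (l A B t : R) : famA (l * A) (l * B) t = l * famA A B (l ^ 2 * t) := by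
  simp only [famA, famAE, Px.ev, env3]; ring

theorem famB_scale (l A B t : R) : famB (l * A) (l * B) t = l * famB A B (l ^ 2 * t) := by
  simp only [famB, famBE, Px.ev, env3]; ring

theorem famA_neg (A B t : R) : famA (-A) (-B) t = -famA A B t := by
  simpa [neg_mul] using famA_scale (-1) A B t

theorem famB_neg (A B t : R) : famB (-A) (-B) t = -famB A B t := by
  simpa [neg_mul] using famB_scale (-1) A B t

theorem famW_scale (l A B t : R) : famW (l * A) (l * B) t = famW A B (l ^ 2 * t) := by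
  simp only [famW_eq]; ring

theorem famC4_scale (l c4 c6 t : R) :
    famC4 (l ^ 4 * c4) (l ^ 6 * c6) t = l ^ 4 * famC4 c4 c6 (l ^ 2 * t) := by
  simp only [famC4, famC4E, Px.ev, env3]; ring

theorem famC6_scale (l c4 c6 t : R) :
    famC6 (l ^ 4 * c4) (l ^ 6 * c6) t = l ^ 6 * famC6 c4 c6 (l ^ 2 * t) := by
  simp only [famC6, famC6E, Px.ev, env3]; ring

theorem famD_scale (l c4 c6 t : R) :
    famD (l ^ 4 * c4) (l ^ 6 * c6) t = famD c4 c6 (l ^ 2 * t) := by
  simp only [famD, famDE, Px.ev, env3]; ring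

theorem env2_comp_atOne (a t : R) : (fun i => (atOne i).ev (Px.env2 a t)) = env3 a 1 t := by
  funext i
  rcases i with _ | _ | _ <;> simp [atOne, env3, Px.ev, Px.env2]

theorem ev_env3_tateC4E (A B t : R) : tateC4E.ev (env3 A B t) = tateC4 A B := by
  simp only [tateC4, tateC4E, Px.ev, env3]

theorem ev_env3_tateC6E (A B t : R) : tateC6E.ev (env3 A B t) = tateC6 A B := by
  simp only [tateC6, tateC6E, Px.ev, env3]

theorem tateC4_fam_one (a t : R) :
    tateC4 (famA a 1 t) (famB a 1 t) = famC4 (tateC4 a 1) (tateC6 a 1) t := by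
  have h := chkC4_eq_zero a t
  simp only [chkC4, Px.ev, Px.ev_subst] at h
  simp only [tateC4, tateC6, famA, famB, famC4]
  rw [sub_eq_zero] at h
  convert h using 2 <;> funext i <;> rcases i with _ | _ | _ <;>
    simp only [env3, Px.ev_subst, env2_comp_atOne, ev_env3_tateC4E, ev_env3_tateC6E] <;>
      simp [Px.ev, Px.env2]

theorem tateC6_fam_one (a t : R) :
    tateC6 (famA a 1 t) (famB a 1 t) = famC6 (tateC4 a 1) (tateC6 a 1) t := by
  have h := chkC6_eq_zero a t
  simp only [chkC6, Px.ev, Px.ev_subst] at h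
  simp only [tateC4, tateC6, famA, famB, famC6]
  rw [sub_eq_zero] at h
  convert h using 2 <;> funext i <;> rcases i with _ | _ | _ <;>
    simp only [env3, Px.ev_subst, env2_comp_atOne, ev_env3_tateC4E, ev_env3_tateC6E] <;>
      simp [Px.ev, Px.env2]

theorem famD_fam_one (a t : R) :
    famA a 1 t * famB a 1 t * famW a 1 t = a * famD (tateC4 a 1) (tateC6 a 1) t := by
  have h := chkD_eq_zero a t
  simp only [chkD, Px.ev, Px.ev_subst] at h
  simp only [tateC4, tateC6, famA, famB, famW, famD]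
  rw [sub_eq_zero] at h
  convert h using 2 <;> (try rw [env2_comp_atOne]) <;> (try simp [Px.env2])
  try
    congr 1; funext i
    rcases i with _ | _ | _ <;>
      simp only [env3, Px.ev_subst, env2_comp_atOne, ev_env3_tateC4E, ev_env3_tateC6E]
    simp [Px.ev, Px.env2]

end Ring

section Field

variable {L : Type*} [Field L] {A B : L}

theorem tateC4_fam (hB : B ≠ 0) (t : L) :
    tateC4 (famA A B t) (famB A B t) = famC4 (tateC4 A B) (tateC6 A B) t := by
  have hA : A = B * (A / B) := by field_simp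
  have hB' : B = B * 1 := (mul_one B).symm
  rw [hA, congrArg (famA (B * (A / B)) · t) hB', congrArg (famB (B * (A / B)) · t) hB',
    congrArg (tateC4 (B * (A / B))) hB', congrArg (tateC6 (B * (A / B))) hB',
    famA_scale, famB_scale, tateC4_scale, tateC4_scale, tateC6_scale, famC4_scale, tateC4_fam_one]

theorem tateC6_fam (hB : B ≠ 0) (t : L) :
    tateC6 (famA A B t) (famB A B t) = famC6 (tateC4 A B) (tateC6 A B) t := by
  have hA : A = B * (A / B) := by field_simp
  have hB' : B = B * 1 := (mul_one B).symm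
  rw [hA, congrArg (famA (B * (A / B)) · t) hB', congrArg (famB (B * (A / B)) · t) hB',
    congrArg (tateC4 (B * (A / B))) hB', congrArg (tateC6 (B * (A / B))) hB',
    famA_scale, famB_scale, tateC6_scale, tateC4_scale, tateC6_scale, famC6_scale, tateC6_fam_one]

theorem famD_fam (hB : B ≠ 0) (t : L) :
    famA A B t * famB A B t * famW A B t = A * B * famD (tateC4 A B) (tateC6 A B) t := by
  have hA : A = B * (A / B) := by field_simp
  have hB' : B = B * 1 := (mul_one B).symm
  have key := famD_fam_one (A / B) (B ^ 2 * t)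
  calc famA A B t * famB A B t * famW A B t
      = famA (B * (A / B)) (B * 1) t * famB (B * (A / B)) (B * 1) t *
          famW (B * (A / B)) (B * 1) t := by rw [← hA, ← hB']
    _ = B * B * (A / B * famD (tateC4 (A / B) 1) (tateC6 (A / B) 1) (B ^ 2 * t)) := by
        rw [famA_scale, famB_scale, famW_scale, ← key]; ring
    _ = A * B * famD (tateC4 (B * (A / B)) (B * 1)) (tateC6 (B * (A / B)) (B * 1)) t := by
        rw [tateC4_scale, tateC6_scale, famD_scale]; field_simp
    _ = A * B * famD (tateC4 A B) (tateC6 A B) t := by rw [← hA, ← hB']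

theorem famC4_cube_sub_tate (_hA : A ≠ 0) (hB : B ≠ 0) (t : L) :
    famC4 (tateC4 A B) (tateC6 A B) t ^ 3 - famC6 (tateC4 A B) (tateC6 A B) t ^ 2 =
      (tateC4 A B ^ 3 - tateC6 A B ^ 2) * famD (tateC4 A B) (tateC6 A B) t ^ 5 := by
  rw [← tateC4_fam hB, ← tateC6_fam hB, tateC4_cube_sub, tateC4_cube_sub, tateQ_fam]
  linear_combination 1728 * tateQ A B * congrArg (· ^ 5) (famD_fam (A := A) hB t)

theorem not_both_zero_tate (_h2 : (2 : L) ≠ 0) (h5 : (5 : L) ≠ 0)
    (h : tateC4 A B = 0) (h' : (A * B) ^ 5 * tateQ A B = 0) : A = 0 ∧ B = 0 := by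
  rw [tateC4_eq] at h
  rcases mul_eq_zero.1 h' with hAB | hQ
  · rcases mul_eq_zero.1 (pow_eq_zero_iff (n := 5) (by norm_num) |>.1 hAB) with hA | hB
    · subst hA; exact ⟨rfl, by simpa using h⟩
    · subst hB; exact ⟨by simpa using h, rfl⟩
  · rw [tateQ] at hQ
    have key : 5 * (B ^ 3 * (11 * A + B)) = 0 := by
      linear_combination h - (A ^ 2 - A * B + 4 * B ^ 2) * hQ
    rcases mul_eq_zero.1 ((mul_eq_zero.1 key).resolve_left h5) with hB | hB
    · have hB : B = 0 := pow_eq_zero_iff (n := 3) (by norm_num) |>.1 hB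
      subst hB
      exact ⟨by simpa using hQ, rfl⟩
    · have hB : B = -(11 * A) := by linear_combination hB
      subst hB
      have hA : A = 0 := by
        have : A ^ 2 = 0 := by linear_combination hQ
        simpa using this
      exact ⟨hA, by rw [hA]; ring⟩

theorem fam_coords_ne_zero [IsAlgClosed L] (h2 : (2 : L) ≠ 0) (h3 : (3 : L) ≠ 0) (h5 : (5 : L) ≠ 0)
    (hA : A ≠ 0) (hB : B ≠ 0) (hQ : tateQ A B ≠ 0) (t : L) (h : famA A B t = 0)
    (h' : famB A B t = 0) : False := by
  obtain ⟨r, hr⟩ := IsAlgClosed.exists_pow_nat_eq (5 : L) (n := 2) two_pos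
  have r3 : r ^ 3 = 5 * r := by linear_combination r * hr
  have r4 : r ^ 4 = 25 := by linear_combination (r ^ 2 + 5) * hr
  have r5 : r ^ 5 = 25 * r := by linear_combination r * r4
  have r6 : r ^ 6 = 125 := by linear_combination r ^ 2 * r4 + 25 * hr
  have e1 : (11 - 5 * r) * famA A B t + 2 * famB A B t =
      ((11 - 5 * r) * A + 2 * B) * (1 + t * (A ^ 2 + 6 * r * A * B + B ^ 2)) ^ 5 := by
    simp only [famA, famAE, famB, famBE, Px.ev, env3]
    push_cast
    ring_nf
    simp only [hr, r3, r4, r5, r6]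
    ring_nf
  have e2 : 2 * famA A B t - (11 - 5 * r) * famB A B t =
      (2 * A - (11 - 5 * r) * B) * (1 + t * (A ^ 2 - 6 * r * A * B + B ^ 2)) ^ 5 := by
    simp only [famA, famAE, famB, famBE, Px.ev, env3]
    push_cast
    ring_nf
    simp only [hr, r3, r4, r5, r6]
    ring_nf
  rw [h, h', mul_zero, mul_zero, add_zero] at e1
  rw [h, h', mul_zero, mul_zero, sub_zero] at e2
  have hne : ((11 - 5 * r) * A + 2 * B) * (2 * A - (11 - 5 * r) * B) ≠ 0 := by
    have he : ((11 - 5 * r) * A + 2 * B) * (2 * A - (11 - 5 * r) * B) =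
        2 * (11 - 5 * r) * tateQ A B := by
      rw [tateQ]
      linear_combination (-25) * A * B * hr
    rw [he]
    refine mul_ne_zero (mul_ne_zero h2 fun h0 => ?_) hQ
    have : (2 : L) * 2 = 0 := by
      linear_combination -((11 + 5 * r) * h0) - 25 * hr
    exact mul_ne_zero h2 h2 this
  have u1 := eq_zero_of_pow_eq_zero ((mul_eq_zero.1 e1.symm).resolve_left (left_ne_zero_of_mul hne))
  have u2 :=
    eq_zero_of_pow_eq_zero ((mul_eq_zero.1 e2.symm).resolve_left (right_ne_zero_of_mul hne))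
  have key : 2 * 2 * 3 * (t * A * B * r) = 0 := by linear_combination u1 - u2
  have hr0 : r ≠ 0 := fun h0 => h5 (by rw [← hr, h0]; ring)
  have ht : t = 0 := by
    simpa [h2, h3, hA, hB, hr0] using key
  subst ht
  simp at u1

/-- `famC4` and `famD` have no common zero. -/
theorem famC4_ne_zero_of_famD_eq_zero [IsAlgClosed L] (h2 : (2 : L) ≠ 0) (h3 : (3 : L) ≠ 0)
    (h5 : (5 : L) ≠ 0) (hA : A ≠ 0) (hB : B ≠ 0) (hQ : tateQ A B ≠ 0) (t : L)
    (hD : famD (tateC4 A B) (tateC6 A B) t = 0) : famC4 (tateC4 A B) (tateC6 A B) t ≠ 0 := by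
  intro hC
  have h0 : (famA A B t * famB A B t) ^ 5 * tateQ (famA A B t) (famB A B t) = 0 := by
    rw [tateQ_fam]
    have := famD_fam (A := A) hB t
    rw [hD, mul_zero] at this
    linear_combination (famA A B t * famB A B t) ^ 4 * famW A B t ^ 4 * tateQ A B * this
  rw [← tateC4_fam hB] at hC
  obtain ⟨ha, hb⟩ := not_both_zero_tate h2 h5 hC h0
  exact fam_coords_ne_zero h2 h3 h5 hA hB hQ t ha hb

end Field

section Derivative

open Polynomial

variable {R : Type*} [CommRing R]

theorem derivative_famD (c4 c6 : R) :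
    derivative (famD (C c4) (C c6) (X : R[X])) = famD1 (C c4) (C c6) X := by
  simp only [famD, famDE, famD1, famD1E, Px.ev, env3]
  simp [derivative_pow, map_ofNat]
  ring

end Derivative

end FLTAgent.Switch35
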