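import Mathlib.Algebra.Polynomial.Roots
import Mathlib.Tactic.Ring

/-!
# Checking polynomial identities in two variables on a grid

`Px` is the type of polynomial expressions with integer constants. `ev_eq_zero_of_check`: such
an expression vanishes in every ring if a decidable test at enough integer points succeeds.
-/

set_option autoImplicit false

open Polynomial

namespace FLTAgent.Switch35

/-- Polynomial expressions with integer constants. -/
inductive Px where
  | v : ℕ → Px
  | c : ℤ → Px
  | add : Px → Px → Px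
  | sub : Px → Px → Px
  | mul : Px → Px → Px
  | pow : Px → ℕ → Px

namespace Px

/-- Evaluation. -/
def ev {R : Type*} [CommRing R] (env : ℕ → R) : Px → R
  | .v i => env i
  | .c z => (z : R)
  | .add p q => p.ev env + q.ev env
  | .sub p q => p.ev env - q.ev env
  | .mul p q => p.ev env * q.ev env
  | .pow p n => p.ev env ^ n

/-- Evaluation at integers. -/
def evZ (env : ℕ → ℤ) : Px → ℤ
  | .v i => env i
  | .c z => z
  | .add p q => Int.add (p.evZ env) (q.evZ env)
  | .sub p q => Int.sub (p.evZ env) (q.evZ env)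
  | .mul p q => Int.mul (p.evZ env) (q.evZ env)
  | .pow p n => Int.pow (p.evZ env) n

/-- Degree bound for the given degrees of the variables. -/
def dg (ds : ℕ → ℕ) : Px → ℕ
  | .v i => ds i
  | .c _ => 0
  | .add p q => max (p.dg ds) (q.dg ds)
  | .sub p q => max (p.dg ds) (q.dg ds)
  | .mul p q => p.dg ds + q.dg ds
  | .pow p n => n * p.dg ds

theorem evZ_eq (env : ℕ → ℤ) : ∀ p : Px, p.evZ env = p.ev env
  | .v _ => rfl
  | .c _ => rfl
  | .add p q => by rw [evZ, ev, evZ_eq env p, evZ_eq env q]; rfl
  | .sub p q => by rw [evZ, ev, evZ_eq env p, evZ_eq env q]; rfl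
  | .mul p q => by rw [evZ, ev, evZ_eq env p, evZ_eq env q]; rfl
  | .pow p n => by rw [evZ, ev, evZ_eq env p]; rfl

theorem map_ev {R S : Type*} [CommRing R] [CommRing S] (φ : R →+* S) (env : ℕ → R) :
    ∀ p : Px, φ (p.ev env) = p.ev (φ ∘ env)
  | .v _ => rfl
  | .c z => map_intCast φ z
  | .add p q => by rw [ev, ev, map_add, map_ev φ env p, map_ev φ env q]
  | .sub p q => by rw [ev, ev, map_sub, map_ev φ env p, map_ev φ env q]
  | .mul p q => by rw [ev, ev, map_mul, map_ev φ env p, map_ev φ env q]
  | .pow p n => by rw [ev, ev, map_pow, map_ev φ env p]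

theorem natDegree_ev_le {R : Type*} [CommRing R] (env : ℕ → R[X]) (ds : ℕ → ℕ)
    (h : ∀ i, (env i).natDegree ≤ ds i) : ∀ p : Px, (p.ev env).natDegree ≤ p.dg ds
  | .v i => h i
  | .c z => by simp [ev]
  | .add p q => (natDegree_add_le _ _).trans
      (max_le_max (natDegree_ev_le env ds h p) (natDegree_ev_le env ds h q))
  | .sub p q => (natDegree_sub_le _ _).trans
      (max_le_max (natDegree_ev_le env ds h p) (natDegree_ev_le env ds h q))
  | .mul p q => natDegree_mul_le.trans
      (add_le_add (natDegree_ev_le env ds h p) (natDegree_ev_le env ds h q))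
  | .pow p n => natDegree_pow_le.trans (Nat.mul_le_mul_left n (natDegree_ev_le env ds h p))

/-- Substitution of expressions for variables. -/
def subst (f : ℕ → Px) : Px → Px
  | .v i => f i
  | .c z => .c z
  | .add p q => .add (p.subst f) (q.subst f)
  | .sub p q => .sub (p.subst f) (q.subst f)
  | .mul p q => .mul (p.subst f) (q.subst f)
  | .pow p n => .pow (p.subst f) n

theorem ev_subst {R : Type*} [CommRing R] (env : ℕ → R) (f : ℕ → Px) :
    ∀ p : Px, (p.subst f).ev env = p.ev (fun i => (f i).ev env)
  | .v _ => rfl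
  | .c _ => rfl
  | .add p q => by rw [subst, ev, ev, ev_subst env f p, ev_subst env f q]
  | .sub p q => by rw [subst, ev, ev, ev_subst env f p, ev_subst env f q]
  | .mul p q => by rw [subst, ev, ev, ev_subst env f p, ev_subst env f q]
  | .pow p n => by rw [subst, ev, ev, ev_subst env f p]

/-- The environment of two variables. -/
def env2 {R : Type*} (a t : R) : ℕ → R := fun i => if i = 0 then a else t

theorem comp_env2 {R S : Type*} (φ : R → S) (a t : R) : φ ∘ env2 a t = env2 (φ a) (φ t) := by
  funext i; simp only [Function.comp_apply, env2]; split <;> rfl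

/-- The expression with all constants replaced by their absolute values and all signs by `+`. -/
def absPx : Px → Px
  | .v i => .v i
  | .c z => .c (Int.natAbs z)
  | .add p q => .add p.absPx q.absPx
  | .sub p q => .add p.absPx q.absPx
  | .mul p q => .mul p.absPx q.absPx
  | .pow p n => .pow p.absPx n

/-- Coefficientwise domination. -/
def Dom (p q : ℤ[X]) : Prop := ∀ i, |p.coeff i| ≤ q.coeff i

theorem Dom.add {p q p' q' : ℤ[X]} (h : Dom p q) (h' : Dom p' q') : Dom (p + p') (q + q') :=
  fun i => by
    rw [coeff_add, coeff_add]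
    exact (abs_add_le _ _).trans (add_le_add (h i) (h' i))

theorem Dom.sub {p q p' q' : ℤ[X]} (h : Dom p q) (h' : Dom p' q') : Dom (p - p') (q + q') :=
  fun i => by
    rw [coeff_sub, coeff_add]
    exact (abs_sub _ _).trans (add_le_add (h i) (h' i))

theorem Dom.mul {p q p' q' : ℤ[X]} (h : Dom p q) (h' : Dom p' q') : Dom (p * p') (q * q') :=
  fun i => by
    rw [coeff_mul, coeff_mul]
    refine (Finset.abs_sum_le_sum_abs _ _).trans (Finset.sum_le_sum fun x _ => ?_)
    rw [abs_mul]
    exact mul_le_mul (h _) (h' _) (abs_nonneg _) ((abs_nonneg _).trans (h _))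

theorem Dom.one : Dom 1 1 := fun i => by rw [coeff_one]; split <;> simp

theorem Dom.pow {p q : ℤ[X]} (h : Dom p q) : ∀ n : ℕ, Dom (p ^ n) (q ^ n)
  | 0 => by simpa using Dom.one
  | n + 1 => by simpa only [pow_succ] using (h.pow n).mul h

theorem dom_ev (env : ℕ → ℤ[X]) (h : ∀ i, Dom (env i) (env i)) :
    ∀ p : Px, Dom (p.ev env) (p.absPx.ev env)
  | .v i => h i
  | .c z => fun i => by
      simp only [ev, absPx]
      rw [← C_eq_intCast, ← C_eq_intCast, coeff_C, coeff_C]
      split <;> simp
  | .add p q => (dom_ev env h p).add (dom_ev env h q)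
  | .sub p q => (dom_ev env h p).sub (dom_ev env h q)
  | .mul p q => (dom_ev env h p).mul (dom_ev env h q)
  | .pow p n => (dom_ev env h p).pow n

/-- A polynomial with a root bigger than all of its coefficients vanishes. -/
theorem eq_zero_of_eval_big {p : ℤ[X]} {N : ℤ} (hN : p.eval N = 0)
    (hb : ∀ i, |p.coeff i| < N) : p = 0 := by
  by_contra hp
  obtain ⟨q, hpq, hq⟩ := p.exists_eq_pow_rootMultiplicity_mul_and_not_dvd hp 0
  rw [C_0, sub_zero] at hpq hq
  set k := p.rootMultiplicity 0
  have hN0 : N ≠ 0 := (lt_of_le_of_lt (abs_nonneg _) (hb 0)).ne'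
  have hq0 : q.eval N = 0 := by
    rw [hpq, eval_mul, eval_pow, eval_X] at hN
    exact (mul_eq_zero.1 hN).resolve_left (pow_ne_zero _ hN0)
  have hdvd : N ∣ q.coeff 0 := by
    have h1 : (N - 0) ∣ q.eval N - q.eval 0 := sub_dvd_eval_sub N 0 q
    rwa [sub_zero, hq0, zero_sub, dvd_neg, ← coeff_zero_eq_eval_zero] at h1
  have hc : q.coeff 0 = p.coeff k := by
    conv_rhs => rw [hpq, coeff_X_pow_mul', if_pos le_rfl, Nat.sub_self]
  have h0 : q.coeff 0 = 0 := Int.eq_zero_of_abs_lt_dvd hdvd (hc ▸ hb k)
  exact hq (X_dvd_iff.2 h0)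

/-- An expression in two variables vanishes identically if, for enough values of the second
variable, it vanishes at a value of the first one exceeding all possible coefficients. -/
theorem ev_eq_zero_of_check (p : Px) (N : ℤ) (n : ℕ) (hn : p.dg (env2 0 1) ≤ n)
    (h : (List.range (n + 1)).all (fun j => p.evZ (env2 N (j : ℤ)) == 0 &&
      decide (p.absPx.evZ (env2 1 (j : ℤ)) < N)) = true)
    {R : Type*} [CommRing R] (a t : R) : p.ev (env2 a t) = 0 := by
  simp only [List.all_eq_true, List.mem_range, Bool.and_eq_true, beq_iff_eq, decide_eq_true_eq,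
    evZ_eq, Nat.lt_succ_iff] at h
  have hrow : ∀ j ≤ n, p.ev (env2 (X : ℤ[X]) (C (j : ℤ))) = 0 := by
    intro j hj
    obtain ⟨h0, h1⟩ := h j hj
    refine eq_zero_of_eval_big (N := N) ?_ fun i => lt_of_le_of_lt ?_ h1
    · rw [← coe_evalRingHom, map_ev, comp_env2]
      simpa using h0
    · have hd : ∀ i, Dom (env2 (X : ℤ[X]) (C (j : ℤ)) i) (env2 (X : ℤ[X]) (C (j : ℤ)) i) := by
        intro i k
        simp only [env2]
        split
        · rw [coeff_X]; split <;> simp
        · rw [coeff_C]; split <;> simp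
      refine (dom_ev _ hd p i).trans ?_
      have hq : (p.absPx.ev (env2 (X : ℤ[X]) (C (j : ℤ)))).eval 1 =
          p.absPx.ev (env2 1 (j : ℤ)) := by
        rw [← coe_evalRingHom, map_ev, comp_env2]
        simp
      have hpos : ∀ k, 0 ≤ (p.absPx.ev (env2 (X : ℤ[X]) (C (j : ℤ)))).coeff k := fun k =>
        (abs_nonneg _).trans (dom_ev _ hd p k)
      rw [← hq]
      generalize p.absPx.ev (env2 (X : ℤ[X]) (C (j : ℤ))) = q at hpos ⊢
      rw [eval_eq_sum, Polynomial.sum]
      simp only [one_pow, mul_one]
      by_cases hi : i ∈ q.support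
      · exact Finset.single_le_sum (f := fun k => q.coeff k) (fun k _ => hpos k) hi
      · rw [notMem_support_iff.1 hi]
        exact Finset.sum_nonneg fun k _ => hpos k
  have hP : p.ev (env2 (C X : ℤ[X][X]) X) = 0 := by
    refine eq_zero_of_natDegree_lt_card_of_eval_eq_zero' _
      ((Finset.range (n + 1)).map ⟨fun j : ℕ => (C (j : ℤ) : ℤ[X]),
        C_injective.comp Nat.cast_injective⟩) ?_ ?_
    · intro x hx
      obtain ⟨j, hj, rfl⟩ := Finset.mem_map.1 hx
      rw [← coe_evalRingHom, map_ev, comp_env2]
      simpa using hrow j (Nat.lt_succ_iff.1 (Finset.mem_range.1 hj))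
    · rw [Finset.card_map, Finset.card_range, Nat.lt_succ_iff]
      refine le_trans (natDegree_ev_le _ _ (fun i => ?_) p) hn
      simp only [env2]; split
      · exact (natDegree_C _).le
      · exact natDegree_X_le
  have := congrArg (eval₂RingHom (eval₂RingHom (Int.castRingHom R) a) t) hP
  rw [map_ev, comp_env2, map_zero] at this
  simpa using this

end Px

end FLTAgent.Switch35
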