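import Mathlib.AlgebraicGeometry.EllipticCurve.Affine.Point
import Mathlib.Tactic.LinearCombination
import Mathlib.Tactic.FieldSimp

/-!
# Addition on short Weierstrass curves

The curve `shortW a b`, the predicate `IsShort`, and explicit formulas for negation, addition
and doubling of its affine points.
-/

set_option autoImplicit false

open WeierstrassCurve

namespace FLTAgent.Switch35

/-- The curve `y ^ 2 = x ^ 3 + a * x + b`. -/
def shortW {R : Type*} [CommRing R] (a b : R) : WeierstrassCurve.Affine R :=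
  ⟨0, 0, 0, a, b⟩

/-- `E` is a nonsingular short Weierstrass curve with coefficients `a`, `b`. -/
structure IsShort {L : Type*} [Field L] (E : WeierstrassCurve.Affine L) (a b : L) : Prop where
  h₁ : E.a₁ = 0
  h₂ : E.a₂ = 0
  h₃ : E.a₃ = 0
  h₄ : E.a₄ = a
  h₆ : E.a₆ = b
  disc : 4 * a ^ 3 + 27 * b ^ 2 ≠ 0
  two : (2 : L) ≠ 0

theorem IsShort.shortW {L : Type*} [Field L] {a b : L} (hd : 4 * a ^ 3 + 27 * b ^ 2 ≠ 0)
    (h2 : (2 : L) ≠ 0) : IsShort (FLTAgent.Switch35.shortW a b) a b :=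
  ⟨rfl, rfl, rfl, rfl, rfl, hd, h2⟩

theorem IsShort.baseChange {R : Type*} [Field R] {L : Type*} [Field L] [Algebra R L] {a b : R}
    {E : WeierstrassCurve.Affine R} (h : IsShort E a b) :
    IsShort (Affine.baseChange E L) (algebraMap R L a) (algebraMap R L b) := by
  refine ⟨?_, ?_, ?_, ?_, ?_, ?_, ?_⟩
  · simp [Affine.baseChange, WeierstrassCurve.baseChange, h.h₁]
  · simp [Affine.baseChange, WeierstrassCurve.baseChange, h.h₂]
  · simp [Affine.baseChange, WeierstrassCurve.baseChange, h.h₃]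
  · simp [Affine.baseChange, WeierstrassCurve.baseChange, h.h₄]
  · simp [Affine.baseChange, WeierstrassCurve.baseChange, h.h₆]
  · have := (map_ne_zero (algebraMap R L)).2 h.disc
    simpa [map_add, map_mul, map_pow, map_ofNat] using this
  · have := (map_ne_zero (algebraMap R L)).2 h.two
    simpa [map_ofNat] using this

variable {L : Type*} [Field L] {E : WeierstrassCurve.Affine L} {a b : L}

/-- The right hand side of the equation. -/
def rhs (a b x : L) : L := x ^ 3 + a * x + b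

theorem IsShort.equation_iff (h : IsShort E a b) {x y : L} :
    E.Equation x y ↔ y ^ 2 = rhs a b x := by
  rw [Affine.equation_iff, h.h₁, h.h₂, h.h₃, h.h₄, h.h₆, rhs]
  constructor <;> intro e <;> linear_combination e

theorem IsShort.deriv_ne_zero (h : IsShort E a b) {x : L} (hx : rhs a b x = 0) :
    3 * x ^ 2 + a ≠ 0 := by
  intro hd
  apply h.disc
  simp only [rhs] at hx
  linear_combination (27 * b - 27 * x ^ 3 - 27 * a * x) * hx
    + (9 * x ^ 4 + 15 * a * x ^ 2 + 4 * a ^ 2) * hd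

theorem IsShort.nonsingular_iff (h : IsShort E a b) {x y : L} :
    E.Nonsingular x y ↔ y ^ 2 = rhs a b x := by
  rw [Affine.nonsingular_iff', h.equation_iff]
  refine ⟨fun e => e.1, fun e => ⟨e, ?_⟩⟩
  rw [h.h₁, h.h₂, h.h₃, h.h₄]
  by_cases hy : y = 0
  · left
    intro hc
    exact h.deriv_ne_zero (x := x) (by rw [← e, hy]; ring) (by linear_combination -hc)
  · right
    simpa using mul_ne_zero h.two hy

/-- The point with coordinates `(x, y)`. -/
def IsShort.mkPt (h : IsShort E a b) {x y : L} (hy : y ^ 2 = rhs a b x) : E.Point :=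
  .some x y (h.nonsingular_iff.2 hy)

theorem IsShort.negY (h : IsShort E a b) (x y : L) : E.negY x y = -y := by
  simp [Affine.negY, h.h₁, h.h₃]

theorem IsShort.addX (h : IsShort E a b) (x₁ x₂ l : L) : E.addX x₁ x₂ l = l ^ 2 - x₁ - x₂ := by
  simp [Affine.addX, h.h₁, h.h₂]

theorem IsShort.addY (h : IsShort E a b) (x₁ x₂ y₁ l : L) :
    E.addY x₁ x₂ y₁ l = -(l * (l ^ 2 - x₁ - x₂ - x₁) + y₁) := by
  simp [Affine.addY, Affine.negY, Affine.negAddY, Affine.addX, h.h₁, h.h₂, h.h₃]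

theorem IsShort.neg_some (h : IsShort E a b) {x y : L} (hP : E.Nonsingular x y) :
    -(Affine.Point.some x y hP) = .some x (-y) (h.nonsingular_iff.2 (by
      rw [neg_sq]; exact h.nonsingular_iff.1 hP)) := by
  rw [Affine.Point.neg_some]
  simp [Affine.negY, h.h₁, h.h₃]


variable [DecidableEq L] in
theorem IsShort.add_of_ne (h : IsShort E a b) {x₁ y₁ x₂ y₂ : L} (h₁ : E.Nonsingular x₁ y₁)
    (h₂ : E.Nonsingular x₂ y₂) (hx : x₁ ≠ x₂) :
    ∃ (x₃ y₃ : L) (h₃ : E.Nonsingular x₃ y₃),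
      Affine.Point.some x₁ y₁ h₁ + .some x₂ y₂ h₂ = .some x₃ y₃ h₃ ∧
      x₃ = ((y₁ - y₂) / (x₁ - x₂)) ^ 2 - x₁ - x₂ ∧
      y₃ = -((y₁ - y₂) / (x₁ - x₂) * (x₃ - x₁) + y₁) := by
  refine ⟨_, _, _, Affine.Point.add_of_X_ne hx, ?_, ?_⟩
  · rw [Affine.slope_of_X_ne hx, h.addX]
  · rw [Affine.slope_of_X_ne hx, h.addY, h.addX]

variable [DecidableEq L] in
theorem IsShort.add_self (h : IsShort E a b) {x y : L} (hP : E.Nonsingular x y) (hy : y ≠ 0) :
    ∃ (x₃ y₃ : L) (h₃ : E.Nonsingular x₃ y₃),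
      Affine.Point.some x y hP + .some x y hP = .some x₃ y₃ h₃ ∧
      x₃ = ((3 * x ^ 2 + a) / (2 * y)) ^ 2 - 2 * x ∧
      y₃ = -((3 * x ^ 2 + a) / (2 * y) * (x₃ - x) + y) := by
  have hne : y ≠ E.negY x y := by
    rw [h.negY]
    intro e
    exact mul_ne_zero h.two hy (by linear_combination e)
  have hs : E.slope x x y y = (3 * x ^ 2 + a) / (2 * y) := by
    rw [Affine.slope_of_Y_ne rfl hne, h.negY, h.h₁, h.h₂, h.h₄]
    ring
  refine ⟨_, _, _, Affine.Point.add_self_of_Y_ne hne, ?_, ?_⟩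
  · rw [hs, h.addX]; ring
  · rw [hs, h.addY, h.addX]

theorem IsShort.eq_or_neg_of_x_eq (h : IsShort E a b) {x y₁ y₂ : L} (h₁ : E.Nonsingular x y₁)
    (h₂ : E.Nonsingular x y₂) : y₂ = y₁ ∨ y₂ = -y₁ := by
  refine sq_eq_sq_iff_eq_or_eq_neg.1 ?_
  rw [h.nonsingular_iff.1 h₁, h.nonsingular_iff.1 h₂]

end FLTAgent.Switch35
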