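import Fermat.Agent.Switch35.PolyVec
import Fermat.Agent.Switch35.Short
import Mathlib.Tactic.Ring

/-!
# The naive height on `E(F(z))` for a constant curve

For a constant curve `y ^ 2 = x ^ 3 + A * x + B` over `F` and a transcendental `z`, the degree of
the `x`-coordinate as a rational function of `z` (`HasHt`) satisfies the parallelogram law exactly
(`HasHt.parallelogram`). `twistPts` is the subgroup of points rational on the twist.
-/

set_option autoImplicit false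

open Polynomial WeierstrassCurve
open scoped WeierstrassCurve.Affine IntermediateField

namespace FLTAgent.Switch35

/-- The map `(x x', x + x', 1) ↦ (x(P+Q) x(P-Q), x(P+Q) + x(P-Q), 1)`. -/
def qMap {R : Type*} [CommRing R] (A B : R) (v : Fin 3 → R) : Fin 3 → R :=
  ![v 0 * v 0 - 2 * A * (v 0 * v 2) - 4 * B * (v 1 * v 2) + A * A * (v 2 * v 2),
    2 * (v 1 * v 0) + 2 * A * (v 1 * v 2) + 4 * B * (v 2 * v 2),
    v 1 * v 1 - 4 * (v 0 * v 2)]

theorem qMap_map {R S : Type*} [CommRing R] [CommRing S] (φ : R →+* S) (A B : R)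
    (v : Fin 3 → R) (i : Fin 3) : φ (qMap A B v i) = qMap (φ A) (φ B) (φ ∘ v) i := by
  fin_cases i <;> simp [qMap, map_ofNat]

theorem qMap_smul {R : Type*} [CommRing R] (A B c : R) (v : Fin 3 → R) (i : Fin 3) :
    qMap A B (c • v) i = c ^ 2 * qMap A B v i := by
  fin_cases i <;> simp [qMap] <;> ring

theorem qMap_ne_zero {L : Type*} [Field L] {A B : L} (hd : 4 * A ^ 3 + 27 * B ^ 2 ≠ 0)
    (h2 : (2 : L) ≠ 0) {v : Fin 3 → L} (hv : ∃ i, v i ≠ 0) : ∃ i, qMap A B v i ≠ 0 := by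
  by_contra h
  push Not at h
  have h0 := h 0
  have h1 := h 1
  have h3 := h 2
  simp only [qMap, Matrix.cons_val_zero, Matrix.cons_val_one, Matrix.cons_val] at h0 h1 h3
  by_cases hu : v 2 = 0
  · rw [hu] at h3 h0
    have ht : v 1 = 0 := by simpa using h3
    rw [ht] at h0
    have hs : v 0 = 0 := by simpa using h0
    obtain ⟨i, hi⟩ := hv
    fin_cases i <;> simp_all
  · set x := v 1 / (2 * v 2) with hx
    have e1 : v 1 = 2 * v 2 * x := by rw [hx]; field_simp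
    have e0 : v 0 = v 2 * x ^ 2 := by
      have h4 : (2 : L) * 2 * v 2 ≠ 0 := mul_ne_zero (mul_ne_zero h2 h2) hu
      refine mul_left_cancel₀ h4 ?_
      rw [e1] at h3
      linear_combination -h3
    rw [e0, e1] at h0 h1
    have f0 : x ^ 3 + A * x + B = 0 := by
      have h4 : (2 : L) * 2 * v 2 ^ 2 ≠ 0 := mul_ne_zero (mul_ne_zero h2 h2) (pow_ne_zero 2 hu)
      refine mul_left_cancel₀ h4 ?_
      linear_combination h1
    have f1 : 3 * x ^ 2 + A = 0 := by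
      have : (3 * x ^ 2 + A) ^ 2 = 0 := by
        refine mul_left_cancel₀ (pow_ne_zero 2 hu) ?_
        linear_combination h0 + 8 * x * v 2 ^ 2 * f0
      simpa using this
    apply hd
    linear_combination (27 * B - 27 * x ^ 3 - 27 * A * x) * f0
      + (9 * x ^ 4 + 15 * A * x ^ 2 + 4 * A ^ 2) * f1

variable {F : Type} [Field F] {A B : F}

theorem PrimVec.qMap {v : Fin 3 → F[X]} (hd : 4 * A ^ 3 + 27 * B ^ 2 ≠ 0) (h2 : (2 : F) ≠ 0)
    (hv : PrimVec v) : PrimVec (FLTAgent.Switch35.qMap (C A) (C B) v) := by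
  intro L _ φ
  have hd' : 4 * φ (C A) ^ 3 + 27 * φ (C B) ^ 2 ≠ 0 := by
    have := (map_ne_zero (φ.comp C)).2 hd
    simpa [map_ofNat] using this
  have h2' : (2 : L) ≠ 0 := by
    have := (map_ne_zero (φ.comp C)).2 h2
    simpa [map_ofNat] using this
  obtain ⟨i, hi⟩ := qMap_ne_zero (v := φ ∘ v) hd' h2' (hv L φ)
  exact ⟨i, by rwa [qMap_map]⟩

theorem VecDeg.qMap {v : Fin 3 → F[X]} {k : ℕ} (hd : 4 * A ^ 3 + 27 * B ^ 2 ≠ 0)
    (h2 : (2 : F) ≠ 0) (hv : VecDeg v k) :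
    VecDeg (FLTAgent.Switch35.qMap (C A) (C B) v) (2 * k) := by
  have hp : ∀ i j, (v i * v j).natDegree ≤ 2 * k ∧
      (v i * v j).coeff (2 * k) = (v i).coeff k * (v j).coeff k := fun i j =>
    ⟨natDegree_mul_le.trans (by have := hv.1 i; have := hv.1 j; omega),
      by rw [two_mul, coeff_mul_add_eq_of_natDegree_le (hv.1 i) (hv.1 j)]⟩
  have hc : ∀ (a : F) i j, (C a * (v i * v j)).natDegree ≤ 2 * k := fun a i j =>
    (natDegree_C_mul_le _ _).trans (hp i j).1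
  have e0 : FLTAgent.Switch35.qMap (C A) (C B) v = ![v 0 * v 0 - C (2 * A) * (v 0 * v 2)
      - C (4 * B) * (v 1 * v 2) + C (A * A) * (v 2 * v 2),
      C 2 * (v 1 * v 0) + C (2 * A) * (v 1 * v 2) + C (4 * B) * (v 2 * v 2),
      v 1 * v 1 - C 4 * (v 0 * v 2)] := by
    simp [FLTAgent.Switch35.qMap, map_ofNat]
  rw [e0]
  refine ⟨fun i => ?_, ?_⟩
  · fin_cases i <;> simp only [Fin.mk_one, Fin.zero_eta, Fin.reduceFinMk, Matrix.cons_val_zero,
      Matrix.cons_val_one, Matrix.cons_val]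
    · exact natDegree_add_le_of_degree_le (natDegree_sub_le_of_le (natDegree_sub_le_of_le
        (hp 0 0).1 (hc _ 0 2)) (hc _ 1 2) |>.trans (by simp)) (hc _ 2 2)
    · exact natDegree_add_le_of_degree_le (natDegree_add_le_of_degree_le (hc _ 1 0) (hc _ 1 2))
        (hc _ 2 2)
    · exact (natDegree_sub_le_of_le (hp 1 1).1 (hc _ 0 2)).trans (by simp)
  · obtain ⟨i, hi⟩ := qMap_ne_zero (v := fun i => (v i).coeff k) hd h2 hv.2
    refine ⟨i, ?_⟩
    fin_cases i <;> simpa [FLTAgent.Switch35.qMap, coeff_C_mul, (hp _ _).2, mul_assoc] using hi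

variable {Ω : Type} [Field Ω] [Algebra F Ω] {E : WeierstrassCurve.Affine F}
  {z : Ω}

/-- `P` has `x`-coordinate `v 0 / v 1` as a function of `z`. -/
def HasRep (z : Ω) (P : (E⁄Ω).Point) (v : Fin 2 → F[X]) : Prop :=
  PrimVec v ∧ ∃ c : Ω, c ≠ 0 ∧ ∀ i, P.xRep i = c * aeval z (v i)

/-- `P` has height `k`. -/
def HasHt (z : Ω) (P : (E⁄Ω).Point) (k : ℕ) : Prop :=
  ∃ v, HasRep z P v ∧ VecDeg v k

theorem HasHt.unique (hz : Transcendental F z) {P : (E⁄Ω).Point} {k l : ℕ} (h : HasHt z P k)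
    (h' : HasHt z P l) : k = l := by
  obtain ⟨v, ⟨hv, c, hc, hcv⟩, hk⟩ := h
  obtain ⟨w, ⟨hw, d, hd, hdw⟩, hl⟩ := h'
  refine VecDeg.eq_of_aeval hz hv hw hk hl (c / d) fun i => ?_
  have := (hcv i).symm.trans (hdw i)
  field_simp
  linear_combination -this

theorem xRep_some_some {L : Type*} [Field L] {W : WeierstrassCurve.Affine L} {x y x' y' : L}
    (h : W.Nonsingular x y) (h' : W.Nonsingular x' y') :
    symProd (Affine.Point.some x y h).xRep (Affine.Point.some x' y' h').xRep =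
      ![x * x', x + x', 1] := by
  ext i; fin_cases i <;> simp [symProd]

variable [DecidableEq Ω]

theorem symProd_add_sub {a b : Ω} {W : WeierstrassCurve.Affine Ω} (hE : IsShort W a b)
    (P Q : W.Point) : ∃ c : Ω, c ≠ 0 ∧ ∀ i,
      symProd (P + Q).xRep (P - Q).xRep i = c * qMap a b (symProd P.xRep Q.xRep) i := by
  rcases P with _ | ⟨x₁, y₁, h₁⟩
  · rw [← Affine.Point.zero_def]
    rcases Q with _ | ⟨x₂, y₂, h₂⟩
    · rw [← Affine.Point.zero_def]
      exact ⟨1, one_ne_zero, fun i => by fin_cases i <;> simp [symProd, qMap]⟩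
    · exact ⟨1, one_ne_zero, fun i => by fin_cases i <;> simp [symProd, qMap]; ring⟩
  rcases Q with _ | ⟨x₂, y₂, h₂⟩
  · rw [← Affine.Point.zero_def]
    exact ⟨1, one_ne_zero, fun i => by fin_cases i <;> simp [symProd, qMap]; ring⟩
  have e₁ := hE.nonsingular_iff.1 h₁
  have e₂ := hE.nonsingular_iff.1 h₂
  simp only [rhs] at e₁ e₂
  rw [sub_eq_add_neg, hE.neg_some h₂, xRep_some_some]
  by_cases hx : x₁ = x₂
  · subst hx
    have key : qMap a b ![x₁ * x₁, x₁ + x₁, 1] =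
        ![(3 * x₁ ^ 2 + a) ^ 2 - 8 * x₁ * y₁ ^ 2, 4 * y₁ ^ 2, 0] := by
      ext i; fin_cases i <;> simp [qMap, e₁] <;> ring
    rw [key]
    by_cases hy : y₁ = 0
    · have hy₂ : y₂ = 0 := by
        rcases hE.eq_or_neg_of_x_eq h₁ h₂ with h | h <;> simp [h, hy]
      have hd : 3 * x₁ ^ 2 + a ≠ 0 :=
        hE.deriv_ne_zero (by simp only [rhs]; rw [← e₁, hy]; ring)
      subst hy; subst hy₂
      refine ⟨((3 * x₁ ^ 2 + a) ^ 2)⁻¹, inv_ne_zero (pow_ne_zero 2 hd), fun i => ?_⟩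
      rw [Affine.Point.add_self_of_Y_eq (by rw [hE.negY]; simp),
        Affine.Point.add_of_Y_eq rfl (by rw [hE.negY]; simp)]
      fin_cases i <;> simp [symProd, inv_mul_cancel₀ (pow_ne_zero 2 hd)]
    · obtain ⟨x₃, y₃, h₃, hadd, hx₃, -⟩ := hE.add_self h₁ hy
      have hne : (4 : Ω) * y₁ ^ 2 ≠ 0 := by
        have := mul_ne_zero (mul_ne_zero hE.two hE.two) (pow_ne_zero 2 hy)
        convert this using 1; ring
      have hx4 : x₃ = ((4 : Ω) * y₁ ^ 2)⁻¹ * ((3 * x₁ ^ 2 + a) ^ 2 - 8 * x₁ * y₁ ^ 2) := by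
        rw [hx₃]
        have := hE.two
        have : (4 : Ω) ≠ 0 := left_ne_zero_of_mul hne
        field_simp
        ring
      refine ⟨((4 : Ω) * y₁ ^ 2)⁻¹, inv_ne_zero hne, fun i => ?_⟩
      rcases hE.eq_or_neg_of_x_eq h₁ h₂ with h | h
      · subst h
        rw [hadd, Affine.Point.add_of_Y_eq rfl (by rw [hE.negY, neg_neg])]
        fin_cases i
        · simpa [symProd] using hx4
        · simpa [symProd] using (inv_mul_cancel₀ hne).symm
        · simp [symProd]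
      · subst h
        simp only [neg_neg]
        rw [hadd, Affine.Point.add_of_Y_eq rfl (by rw [hE.negY, neg_neg])]
        fin_cases i
        · simpa [symProd] using hx4
        · simpa [symProd] using (inv_mul_cancel₀ hne).symm
        · simp [symProd]
  · obtain ⟨x₃, y₃, h₃, hadd, hx₃, -⟩ := hE.add_of_ne h₁ h₂ hx
    obtain ⟨x₄, y₄, h₄, hsub, hx₄, -⟩ :=
      hE.add_of_ne h₁ (hE.nonsingular_iff.2 (by rw [neg_sq]; exact hE.nonsingular_iff.1 h₂)) hx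
        (y₂ := -y₂)
    rw [hadd, hsub, xRep_some_some]
    have hne : x₁ - x₂ ≠ 0 := sub_ne_zero.2 hx
    refine ⟨((x₁ - x₂) ^ 2)⁻¹, inv_ne_zero (pow_ne_zero 2 hne), fun i => ?_⟩
    subst hx₃ hx₄
    fin_cases i <;> simp [qMap]
    · field_simp
      linear_combination
        (y₁ ^ 2 + (x₁ ^ 3 + a * x₁ + b) - 2 * y₂ ^ 2
          + 2 * (x₁ * x₂ ^ 2 + x₁ ^ 2 * x₂ - x₁ ^ 3 - x₂ ^ 3)) * e₁
        + (y₂ ^ 2 + (x₂ ^ 3 + a * x₂ + b) - 2 * (x₁ ^ 3 + a * x₁ + b)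
          + 2 * (x₁ * x₂ ^ 2 + x₁ ^ 2 * x₂ - x₁ ^ 3 - x₂ ^ 3)) * e₂
    · field_simp
      linear_combination 2 * e₁ + 2 * e₂
    · field_simp
      ring

theorem HasHt.parallelogram (hz : Transcendental F z) (hE : IsShort E A B)
    {P Q : (E⁄Ω).Point} {k l m n : ℕ} (hP : HasHt z P k) (hQ : HasHt z Q l)
    (hS : HasHt z (P + Q) m) (hD : HasHt z (P - Q) n) : m + n = 2 * (k + l) := by
  obtain ⟨v, ⟨hv, cv, hcv, ev⟩, dv⟩ := hP
  obtain ⟨w, ⟨hw, cw, hcw, ew⟩, dw⟩ := hQ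
  obtain ⟨v', ⟨hv', cv', hcv', ev'⟩, dv'⟩ := hS
  obtain ⟨w', ⟨hw', cw', hcw', ew'⟩, dw'⟩ := hD
  obtain ⟨c, hc, hs⟩ := symProd_add_sub (hE.baseChange (L := Ω)) P Q
  refine (VecDeg.eq_of_aeval hz ((hv.symProd hw).qMap hE.disc hE.two) (hv'.symProd hw')
    ((dv.symProd dw).qMap hE.disc hE.two) (dv'.symProd dw') (c * (cv * cw) ^ 2 / (cv' * cw'))
    fun i => ?_).symm
  have key : ∀ (p q : Fin 2 → F[X]) (P' Q' : (E⁄Ω).Point) (d e : Ω),
      (∀ i, P'.xRep i = d * aeval z (p i)) → (∀ i, Q'.xRep i = e * aeval z (q i)) →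
      symProd P'.xRep Q'.xRep = (d * e) • fun j => aeval z (symProd p q j) := by
    intro p q P' Q' d e hp hq
    funext j
    rw [show P'.xRep = d • fun i => aeval z (p i) from funext hp,
      show Q'.xRep = e • fun i => aeval z (q i) from funext hq, symProd_smul, Pi.smul_apply,
      smul_eq_mul]
    congr 1
    exact (symProd_map (aeval z).toRingHom p q j).symm
  have h := hs i
  rw [key _ _ _ _ _ _ ev' ew', key _ _ _ _ _ _ ev ew, qMap_smul, Pi.smul_apply, smul_eq_mul] at h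
  have hq : qMap (algebraMap F Ω A) (algebraMap F Ω B) (fun j => aeval z (symProd v w j)) i =
      aeval z (qMap (C A) (C B) (symProd v w) i) := by
    have := qMap_map (aeval z).toRingHom (C A) (C B) (symProd v w) i
    simpa [Function.comp_def] using this.symm
  rw [hq] at h
  field_simp
  linear_combination h

/-! ### The subgroup of rational points of the twist -/

omit [DecidableEq Ω] in
theorem hasHt_of_mem (hz : Transcendental F z) {x y : Ω} (h : (E⁄Ω).Nonsingular x y)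
    (hx : x ∈ F⟮z⟯) : ∃ k, HasHt z (Affine.Point.some x y h) k := by
  obtain ⟨r, s, rfl⟩ := IntermediateField.mem_adjoin_simple_iff F x |>.1 hx
  obtain ⟨p, q, hpq, hq, hval⟩ : ∃ p q : F[X], IsCoprime p q ∧ q ≠ 0 ∧
      aeval z r / aeval z s = aeval z p / aeval z q := by
    by_cases hs : s = 0
    · exact ⟨0, 1, isCoprime_zero_left.2 isUnit_one, one_ne_zero, by simp [hs]⟩
    obtain ⟨p, q, c, hpq, hr, hs'⟩ := UniqueFactorizationMonoid.exists_reduced_factors' r s hs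
    have hq : q ≠ 0 := fun h => hs (by rw [← hs', h, mul_zero])
    have hc : c ≠ 0 := fun h => hs (by rw [← hs', h, zero_mul])
    refine ⟨p, q, hpq.isCoprime, hq, ?_⟩
    rw [← hr, ← hs', map_mul, map_mul,
      mul_div_mul_left _ _ (aeval_ne_zero_of_transcendental hz hc)]
  obtain ⟨k, hk⟩ := exists_vecDeg (PrimVec.of_coprime hpq)
  have hne := aeval_ne_zero_of_transcendental hz hq
  refine ⟨k, ![p, q], ⟨PrimVec.of_coprime hpq, (aeval z q)⁻¹, inv_ne_zero hne, fun i => ?_⟩, hk⟩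
  fin_cases i
  · simp [hval, div_eq_inv_mul]
  · simp [hne]

omit [DecidableEq Ω] in
theorem hasHt_zero : HasHt z (0 : (E⁄Ω).Point) 0 := by
  refine ⟨![1, 0], ⟨PrimVec.of_coprime isCoprime_one_left, 1, one_ne_zero, fun i => ?_⟩,
    fun i => ?_, 0, by simp⟩ <;> fin_cases i <;> simp

/-- The points with `x ∈ F(z)` and `y ∈ y₀ F(z)`, where `y₀ ^ 2 = f(z)`. -/
def twistPts (hE : IsShort E A B) (z y₀ : Ω)
    (hy₀ : y₀ ^ 2 = rhs (algebraMap F Ω A) (algebraMap F Ω B) z) (h0 : y₀ ≠ 0) :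
    AddSubgroup (E⁄Ω).Point where
  carrier := {P | P = 0 ∨ ∃ (x y : Ω) (h : (E⁄Ω).Nonsingular x y),
    P = .some x y h ∧ x ∈ F⟮z⟯ ∧ y / y₀ ∈ F⟮z⟯}
  zero_mem' := .inl rfl
  neg_mem' := by
    rintro P (rfl | ⟨x, y, h, rfl, hx, hy⟩)
    · exact .inl neg_zero
    · exact .inr
        ⟨_, _, _, (hE.baseChange (L := Ω)).neg_some h, hx, by rw [neg_div]; exact neg_mem hy⟩
  add_mem' := by
    rintro P Q (rfl | ⟨x₁, y₁, h₁, rfl, hx₁, hy₁⟩) hQ
    · rwa [zero_add]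
    rcases hQ with rfl | ⟨x₂, y₂, h₂, rfl, hx₂, hy₂⟩
    · rw [add_zero]; exact .inr ⟨_, _, _, rfl, hx₁, hy₁⟩
    have hS := hE.baseChange (L := Ω)
    have hzK : z ∈ F⟮z⟯ := IntermediateField.mem_adjoin_simple_self F z
    have hc : ∀ a : F, algebraMap F Ω a ∈ F⟮z⟯ := IntermediateField.algebraMap_mem _
    have hy0K : y₀ ^ 2 ∈ F⟮z⟯ := by
      rw [hy₀]; exact add_mem (add_mem (pow_mem hzK 3) (mul_mem (hc A) hzK)) (hc B)
    have fin : ∀ (l x₃ y₃ : Ω) (h₃ : (E⁄Ω).Nonsingular x₃ y₃), l / y₀ ∈ F⟮z⟯ →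
        x₃ = l ^ 2 - x₁ - x₂ → y₃ = -(l * (x₃ - x₁) + y₁) →
        x₃ ∈ F⟮z⟯ ∧ y₃ / y₀ ∈ F⟮z⟯ := by
      intro l x₃ y₃ h₃ hl hx₃ hy₃
      have hxm : x₃ ∈ F⟮z⟯ := by
        have : l ^ 2 = (l / y₀) ^ 2 * y₀ ^ 2 := by field_simp
        rw [hx₃, this]
        exact sub_mem (sub_mem (mul_mem (pow_mem hl 2) hy0K) hx₁) hx₂
      refine ⟨hxm, ?_⟩
      have : y₃ / y₀ = -((l / y₀) * (x₃ - x₁) + y₁ / y₀) := by rw [hy₃]; field_simp
      rw [this]
      exact neg_mem (add_mem (mul_mem hl (sub_mem hxm hx₁)) hy₁)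
    by_cases hx : x₁ = x₂
    · subst hx
      by_cases hy : y₁ = (E⁄Ω).negY x₁ y₂
      · exact .inl (Affine.Point.add_of_Y_eq rfl hy)
      rw [hS.negY] at hy
      have hyy : y₂ = y₁ := (hS.eq_or_neg_of_x_eq h₁ h₂).resolve_right
        fun e => hy (by rw [e, neg_neg])
      subst hyy
      have hy1 : y₂ ≠ 0 := fun e => hy (by rw [e, neg_zero])
      obtain ⟨x₃, y₃, h₃, hadd, e₃, e₄⟩ := hS.add_self h₁ hy1
      refine .inr ⟨x₃, y₃, h₃, hadd, fin _ x₃ y₃ h₃ ?_ (by rw [e₃]; ring) e₄⟩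
      have : (3 * x₁ ^ 2 + algebraMap F Ω A) / (2 * y₂) / y₀ =
          (3 * x₁ ^ 2 + algebraMap F Ω A) / (2 * (y₂ / y₀) * y₀ ^ 2) := by
        rw [div_div]; congr 1; field_simp
      rw [this]
      exact div_mem (add_mem (mul_mem (natCast_mem _ 3) (pow_mem hx₁ 2)) (hc A))
        (mul_mem (mul_mem (natCast_mem _ 2) hy₁) hy0K)
    · obtain ⟨x₃, y₃, h₃, hadd, e₃, e₄⟩ := hS.add_of_ne h₁ h₂ hx
      refine .inr ⟨x₃, y₃, h₃, hadd, fin _ x₃ y₃ h₃ ?_ e₃ e₄⟩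
      have : (y₁ - y₂) / (x₁ - x₂) / y₀ = (y₁ / y₀ - y₂ / y₀) / (x₁ - x₂) := by
        rw [← sub_div, div_right_comm]
      rw [this]
      exact div_mem (sub_mem hy₁ hy₂) (sub_mem hx₁ hx₂)

end FLTAgent.Switch35
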