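import Fermat.Prelude.Def_FLTPrelim_ModularRep
import Fermat.Prelude.Def_FLTPrelim_GaloisRep
import Mathlib.FieldTheory.Galois.Infinite
import Mathlib.FieldTheory.IsAlgClosed.AlgebraicClosure
import Mathlib.Algebra.Polynomial.Roots
import Mathlib.Tactic.LinearCombination
import Mathlib.Tactic.FieldSimp
import Mathlib.Tactic.Module
import Mathlib.Tactic.ComputeDegree

/-!
# A reducible mod 3 representation gives a rational three-division root

`exists_psi3Mon_root`: if the mod 3 representation of an integral model is reducible, the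
normalised three-division polynomial `psi3Mon c₄ c₆` has an integer root.
-/

set_option autoImplicit false

open WeierstrassCurve Polynomial
open scoped WeierstrassCurve.Affine

namespace FLTAgent.Switch35

/-- The monic normalisation of the three-division polynomial, in the variable `108 x + 9 b₂`. -/
def psi3Mon {R : Type*} [CommRing R] (c4 c6 y : R) : R :=
  y ^ 4 - 486 * c4 * y ^ 2 - 5832 * c6 * y - 19683 * c4 ^ 2

section Field

variable {L : Type*} [Field L] {E : WeierstrassCurve.Affine L}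

/-- The relation `x(2 P) = x(P)` times the square of `2 y + a₁ x + a₃`. -/
theorem psi3Mon_eq (X : L) :
    psi3Mon E.c₄ E.c₆ (108 * X + 9 * E.b₂) =
      11337408 * ((12 * X + E.b₂) * (4 * X ^ 3 + E.b₂ * X ^ 2 + 2 * E.b₄ * X + E.b₆) -
        (6 * X ^ 2 + E.b₂ * X + E.b₄) ^ 2) := by
  simp only [psi3Mon, WeierstrassCurve.c₄, WeierstrassCurve.c₆]
  ring

theorem sq_twoY_eq {X Y : L} (h : E.Equation X Y) :
    (2 * Y + E.a₁ * X + E.a₃) ^ 2 = 4 * X ^ 3 + E.b₂ * X ^ 2 + 2 * E.b₄ * X + E.b₆ := by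
  rw [Affine.equation_iff] at h
  simp only [WeierstrassCurve.b₂, WeierstrassCurve.b₄, WeierstrassCurve.b₆]
  linear_combination 4 * h

variable [DecidableEq L]

theorem three_zsmul_iff (h2 : (2 : L) ≠ 0) (h3 : (3 : L) ≠ 0) {X Y : L}
    (h : E.Nonsingular X Y) :
    (3 : ℤ) • Affine.Point.some X Y h = 0 ↔ psi3Mon E.c₄ E.c₆ (108 * X + 9 * E.b₂) = 0 := by
  have hk : (11337408 : L) ≠ 0 := by
    have := mul_ne_zero (pow_ne_zero 6 h2) (pow_ne_zero 11 h3)
    convert this using 1; norm_num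
  set P := Affine.Point.some X Y h with hP
  have hPne : P ≠ 0 := Affine.Point.some_ne_zero h
  have hD2 := sq_twoY_eq ((Affine.nonsingular_iff' ..).1 h).1
  rw [psi3Mon_eq, mul_eq_zero, or_iff_right hk, sub_eq_zero, ← hD2]
  have hnum : (6 * X ^ 2 + E.b₂ * X + E.b₄) =
      2 * (3 * X ^ 2 + 2 * E.a₂ * X + E.a₄ - E.a₁ * Y) + E.a₁ * (2 * Y + E.a₁ * X + E.a₃) := by
    simp only [WeierstrassCurve.b₂, WeierstrassCurve.b₄]; ring
  by_cases hy : Y = E.negY X Y
  · have hD : 2 * Y + E.a₁ * X + E.a₃ = 0 := by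
      rw [Affine.negY] at hy; linear_combination hy
    have hN : 3 * X ^ 2 + 2 * E.a₂ * X + E.a₄ - E.a₁ * Y ≠ 0 := by
      rcases ((Affine.nonsingular_iff' ..).1 h).2 with h' | h'
      · exact fun e => h' (by linear_combination -e)
      · exact absurd hD h'
    constructor
    · intro h3P
      exfalso
      refine hPne ?_
      calc P = (3 : ℤ) • P - (P + P) := by module
        _ = 0 := by rw [h3P, Affine.Point.add_self_of_Y_eq hy, sub_zero]
    · intro e
      exfalso
      rw [hD, hnum, hD] at e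
      refine pow_ne_zero 2 (mul_ne_zero h2 hN) ?_
      linear_combination -e
  · have hD : 2 * Y + E.a₁ * X + E.a₃ ≠ 0 := by
      intro e; exact hy (by rw [Affine.negY]; linear_combination e)
    set l := E.slope X X Y Y with hldef
    have hl : l * (2 * Y + E.a₁ * X + E.a₃) =
        3 * X ^ 2 + 2 * E.a₂ * X + E.a₄ - E.a₁ * Y := by
      rw [hldef, Affine.slope_of_Y_ne rfl hy,
        show Y - E.negY X Y = 2 * Y + E.a₁ * X + E.a₃ by rw [Affine.negY]; ring,
        div_mul_cancel₀ _ hD]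
    have hfact : ((12 * X + E.b₂) * (2 * Y + E.a₁ * X + E.a₃) ^ 2 -
        (6 * X ^ 2 + E.b₂ * X + E.b₄) ^ 2) =
        4 * (2 * Y + E.a₁ * X + E.a₃) ^ 2 * (X - E.addX X X l) := by
      rw [hnum, ← hl, Affine.addX, WeierstrassCurve.b₂]; ring
    have e2 := Affine.Point.add_self_of_Y_ne (h₁ := h) hy
    rw [← hP] at e2
    constructor
    · intro h3P
      have : P + P = -P := by
        calc P + P = (3 : ℤ) • P - P := by module
          _ = -P := by rw [h3P, zero_sub]
      rw [e2, hP, Affine.Point.neg_some, Affine.Point.some.injEq] at this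
      rw [← sub_eq_zero, hfact, this.1, sub_self, mul_zero]
    · intro e
      rw [← sub_eq_zero, hfact] at e
      have h4 : (4 : L) ≠ 0 := by
        have := mul_ne_zero h2 h2
        convert this using 1; norm_num
      have hx := ((mul_eq_zero.1 e).resolve_left (mul_ne_zero h4 (pow_ne_zero 2 hD)))
      rw [sub_eq_zero] at hx
      have hxr : (P + P).xRep = P.xRep := by
        rw [e2, hP, Affine.Point.xRep_some, Affine.Point.xRep_some, ← hldef, ← hx]
      rcases Affine.Point.eq_or_eq_neg_of_xRep_eq_xRep hxr with h' | h'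
      · exact absurd (add_eq_left.1 h') hPne
      · calc (3 : ℤ) • P = (P + P) + P := by module
          _ = 0 := by rw [h', neg_add_cancel]

end Field

noncomputable local instance instDecEqQbarSwitch : DecidableEq (AlgebraicClosure ℚ) :=
  Classical.decEq _

/-- If the mod 3 representation is reducible then the three-division polynomial has an
integer root. -/
theorem exists_psi3Mon_root (W : WeierstrassCurve ℤ) (hΔ : W.Δ ≠ 0)
    (h : ¬ W.ModRepIsIrreducible 3) : ∃ y : ℤ, psi3Mon W.c₄ W.c₆ y = 0 := by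
  classical
  set E0 : WeierstrassCurve.Affine ℚ := W.map (Int.castRingHom ℚ) with hE0
  set E : WeierstrassCurve.Affine (AlgebraicClosure ℚ) := E0⁄(AlgebraicClosure ℚ) with hE
  have hc4 : E.c₄ = (W.c₄ : (AlgebraicClosure ℚ)) := by
    simp [E, E0, WeierstrassCurve.baseChange]
  have hc6 : E.c₆ = (W.c₆ : (AlgebraicClosure ℚ)) := by
    simp [E, E0, WeierstrassCurve.baseChange]
  have hΔK : E.Δ ≠ 0 := by
    simp [E, E0, WeierstrassCurve.baseChange, hΔ]
  have h2 : (2 : (AlgebraicClosure ℚ)) ≠ 0 := two_ne_zero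
  have h3 : (3 : (AlgebraicClosure ℚ)) ≠ 0 := three_ne_zero
  -- the roots
  let G : (AlgebraicClosure ℚ)[X] := X ^ 4 - C (486 * (W.c₄ : (AlgebraicClosure ℚ))) * X ^ 2 -
      C (5832 * (W.c₆ : (AlgebraicClosure ℚ))) * X -
    C (19683 * (W.c₄ : (AlgebraicClosure ℚ)) ^ 2)
  have hGev : ∀ y, G.eval y = psi3Mon E.c₄ E.c₆ y := fun y => by
    simp [G, psi3Mon, hc4, hc6]
  have hGdeg : G.natDegree = 4 := by simp only [G]; compute_degree!
  have hG0 : G ≠ 0 := fun e => by rw [e, natDegree_zero] at hGdeg; omega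
  obtain ⟨y₀, hy₀⟩ := IsAlgClosed.exists_root G (by
    rw [degree_eq_natDegree hG0, hGdeg]
    exact_mod_cast (by norm_num : (4 : ℕ) ≠ 0))
  rw [IsRoot, hGev] at hy₀
  let X₀ : (AlgebraicClosure ℚ) := (y₀ - 9 * E.b₂) / 108
  have hX₀ : 108 * X₀ + 9 * E.b₂ = y₀ := by simp only [X₀]; field_simp; ring
  obtain ⟨s, hs⟩ := IsAlgClosed.exists_pow_nat_eq
    (4 * X₀ ^ 3 + E.b₂ * X₀ ^ 2 + 2 * E.b₄ * X₀ + E.b₆) (n := 2) two_pos
  let Y₀ : (AlgebraicClosure ℚ) := (s - E.a₁ * X₀ - E.a₃) / 2
  have hns : E.Nonsingular X₀ Y₀ := by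
    rw [← Affine.equation_iff_nonsingular_of_Δ_ne_zero hΔK, Affine.equation_iff]
    simp only [WeierstrassCurve.b₂, WeierstrassCurve.b₄, WeierstrassCurve.b₆] at hs
    simp only [Y₀]
    field_simp
    linear_combination hs
  let P₀ : E.Point := .some X₀ Y₀ hns
  have hP₀ : P₀ ∈ Submodule.torsionBy ℤ E.Point (3 : ℕ) := by
    rw [Submodule.mem_torsionBy_iff]
    exact (three_zsmul_iff h2 h3 hns).2 (by rw [hX₀]; exact hy₀)
  let T := Submodule.torsionBy ℤ E.Point (3 : ℕ)
  have hnt : Nontrivial T :=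
    ⟨⟨P₀, hP₀⟩, 0, fun e => Affine.Point.some_ne_zero hns (congrArg Subtype.val e)⟩
  -- at most nine points
  have hroot : ∀ {X Y : (AlgebraicClosure ℚ)} (hh : E.Nonsingular X Y),
      (3 : ℤ) • Affine.Point.some X Y hh = 0 → 108 * X + 9 * E.b₂ ∈ G.roots := by
    intro X Y hh h3P
    rw [mem_roots', IsRoot, hGev]
    exact ⟨hG0, (three_zsmul_iff h2 h3 hh).1 h3P⟩
  let R := G.roots.toFinset
  let code : T → Option (R × Bool) := fun P =>
    match P with
    | ⟨.zero, _⟩ => none
    | ⟨.some X Y hh, hP⟩ => Option.some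
        (⟨108 * X + 9 * E.b₂, Multiset.mem_toFinset.2 (hroot hh hP)⟩,
          decide (2 * Y + E.a₁ * X + E.a₃ = (IsAlgClosed.exists_pow_nat_eq
            (4 * X ^ 3 + E.b₂ * X ^ 2 + 2 * E.b₄ * X + E.b₆) (n := 2) two_pos).choose))
  have hcode : Function.Injective code := by
    rintro ⟨_ | ⟨X, Y, hh⟩, hP⟩ ⟨_ | ⟨X', Y', hh'⟩, hP'⟩ e <;>
      simp only [code, reduceCtorEq, Option.some.injEq, Prod.mk.injEq, Subtype.mk.injEq,
        decide_eq_decide] at e
    · rfl
    obtain ⟨e1, e2⟩ := e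
    have hXX : X = X' := by linear_combination e1 / 108
    subst hXX
    have hs := (IsAlgClosed.exists_pow_nat_eq
      (4 * X ^ 3 + E.b₂ * X ^ 2 + 2 * E.b₄ * X + E.b₆) (n := 2) two_pos).choose_spec
    set s' := (IsAlgClosed.exists_pow_nat_eq
      (4 * X ^ 3 + E.b₂ * X ^ 2 + 2 * E.b₄ * X + E.b₆) (n := 2) two_pos).choose
    have a1 := sq_eq_sq_iff_eq_or_eq_neg.1
      ((sq_twoY_eq ((Affine.nonsingular_iff' ..).1 hh).1).trans hs.symm)
    have a2 := sq_eq_sq_iff_eq_or_eq_neg.1
      ((sq_twoY_eq ((Affine.nonsingular_iff' ..).1 hh').1).trans hs.symm)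
    have hYY : Y = Y' := by
      rcases a1 with a1 | a1 <;> rcases a2 with a2 | a2
      · linear_combination (a1 - a2) / 2
      · linear_combination (a1 - e2.1 a1) / 2
      · linear_combination (e2.2 a2 - a2) / 2
      · linear_combination (a1 - a2) / 2
    subst hYY
    rfl
  have hcardT : Finite T ∧ Nat.card T ≤ 9 := by
    refine ⟨Finite.of_injective code hcode, (Nat.card_le_card_of_injective code hcode).trans ?_⟩
    rw [Finite.card_option, Nat.card_prod, Nat.card_eq_fintype_card (α := R), Fintype.card_coe,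
      Nat.card_eq_fintype_card (α := Bool), Fintype.card_bool]
    have : R.card ≤ 4 := hGdeg ▸ (Multiset.toFinset_card_le _).trans (card_roots' G)
    omega
  -- a stable line
  rw [WeierstrassCurve.ModRepIsIrreducible, Affine.Point.GaloisRepIsIrreducible] at h
  obtain ⟨N, hst, hbot, htop⟩ : ∃ N : Submodule (ZMod 3) T,
      Affine.Point.IsGaloisStable ℚ N ∧ N ≠ ⊥ ∧ N ≠ ⊤ := by
    by_contra hc
    refine h ⟨hnt, fun N hN => ?_⟩
    by_contra hne
    rw [not_or] at hne
    exact hc ⟨N, hN, hne.1, hne.2⟩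
  obtain ⟨P, hPN, hPne⟩ := (Submodule.ne_bot_iff N).1 hbot
  obtain ⟨P, hP⟩ := P
  rcases P with _ | ⟨X, Y, hh⟩
  · exact absurd rfl hPne
  set P : T := ⟨.some X Y hh, hP⟩ with hPdef
  -- all conjugates of `P` are `±P`
  have hfix : ∀ σ : (AlgebraicClosure ℚ) ≃ₐ[ℚ] (AlgebraicClosure ℚ), σ X = X := by
    intro σ
    by_contra hσ
    refine htop (eq_top_iff.2 fun Q _ => ?_)
    have hσN : σ • P ∈ N := hst σ P hPN
    let g : ZMod 3 × ZMod 3 →ₗ[ZMod 3] N :=
      (LinearMap.toSpanSingleton (ZMod 3) N ⟨P, hPN⟩).coprod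
        (LinearMap.toSpanSingleton (ZMod 3) N ⟨σ • P, hσN⟩)
    have hσP : ∀ c : ZMod 3, c • P ≠ σ • P := by
      intro c e
      have hval : ((σ • P : T) : E.Point) = .some (σ X) (σ Y) _ := Affine.Point.map_some _ hh
      have e' := congrArg Subtype.val e
      rw [hval] at e'
      fin_cases c
      · simp only [Fin.zero_eta] at e'
        exact Affine.Point.some_ne_zero _ e'.symm
      · change ((1 : ZMod 3) • P : T).1 = _ at e'
        rw [one_smul] at e'
        exact hσ (Affine.Point.some.inj e').1.symm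
      · change ((-1 : ZMod 3) • P : T).1 = _ at e'
        rw [neg_smul, one_smul, Submodule.coe_neg, hPdef, Affine.Point.neg_some] at e'
        exact hσ (Affine.Point.some.inj e').1.symm
    have hginj : Function.Injective g := by
      rw [← LinearMap.ker_eq_bot, LinearMap.ker_eq_bot']
      rintro ⟨i, j⟩ e
      have e' : i • P + j • (σ • P) = 0 := congrArg Subtype.val e
      have : Fact (Nat.Prime 3) := ⟨Nat.prime_three⟩
      by_cases hj : j = 0
      · subst hj
        rw [zero_smul, add_zero, smul_eq_zero] at e'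
        rw [e'.resolve_right hPne]
        rfl
      · refine absurd ?_ (hσP (-(j⁻¹ * i)))
        rw [neg_smul, mul_smul, eq_neg_of_add_eq_zero_left e', smul_neg, neg_neg, smul_smul,
          inv_mul_cancel₀ hj, one_smul]
    have := hcardT.1
    have h9 : 9 ≤ Nat.card N := by
      have := Nat.card_le_card_of_injective g hginj
      simpa [Nat.card_prod] using this
    have hsurj : Function.Surjective (Subtype.val : N → T) :=
      ((Nat.bijective_iff_injective_and_card _).2 ⟨Subtype.val_injective,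
        le_antisymm (Nat.card_le_card_of_injective _ Subtype.val_injective)
          (hcardT.2.trans h9)⟩).2
    obtain ⟨⟨Q', hQ'⟩, rfl⟩ := hsurj Q
    exact hQ'
  have hcl : IsAlgClosure ℚ (AlgebraicClosure ℚ) :=
    ⟨inferInstance, AlgebraicClosure.isAlgebraic ℚ⟩
  have : IsGalois ℚ (AlgebraicClosure ℚ) :=
    @IsAlgClosure.isGalois ℚ (AlgebraicClosure ℚ) _ _ _ hcl _
  obtain ⟨r, hr⟩ := (InfiniteGalois.mem_range_algebraMap_iff_fixed X).2 hfix
  have hb2 : E.b₂ = algebraMap ℚ (AlgebraicClosure ℚ) ((W.b₂ : ℤ) : ℚ) := by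
    simp [E, E0, WeierstrassCurve.baseChange]
  have hroot := (three_zsmul_iff h2 h3 hh).1 hP
  have hq : psi3Mon (W.c₄ : ℚ) (W.c₆ : ℚ) (108 * r + 9 * W.b₂) = 0 := by
    apply (algebraMap ℚ (AlgebraicClosure ℚ)).injective
    rw [map_zero, ← hroot, hc4, hc6, hb2, ← hr]
    simp [psi3Mon]
  obtain ⟨y, hy⟩ : ∃ y : ℤ, (y : ℚ) = 108 * r + 9 * W.b₂ := by
    refine IsIntegrallyClosed.isIntegral_iff.1 ⟨(Polynomial.X ^ 4 -
      C (486 * W.c₄) * Polynomial.X ^ 2 - C (5832 * W.c₆) * Polynomial.X -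
      C (19683 * W.c₄ ^ 2) : ℤ[X]), ?_, ?_⟩
    · monicity!
    · simp only [psi3Mon] at hq
      simp only [eval₂_sub, eval₂_mul, eval₂_X_pow, eval₂_X, eval₂_C]
      simpa using hq
  refine ⟨y, ?_⟩
  rw [← hy] at hq
  simp only [psi3Mon] at hq ⊢
  exact_mod_cast hq

end FLTAgent.Switch35
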