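import Fermat.Agent.Switch35.Congruence
import Fermat.Prelude.Def_FLTPrelim_Modularity
import Mathlib.Tactic.IntervalCases

/-!
# The integral model of a member of the family

`member W t`, for `t` divisible by `familyBase W`, is an integral model with invariants
`famC4`, `famC6` at `t`. It is semistable with `W` (`member_semistable`) and has the same `a_ℓ`
mod 5 at common good primes (`apOfModel_congr`).
-/

set_option autoImplicit false

open WeierstrassCurve Polynomial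
open scoped WeierstrassCurve.Affine

namespace FLTAgent.Switch35

section Closed

variable {K : Type*} [Field K] [IsAlgClosed K] {c4 c6 : K}

theorem exists_tate_coords (h2 : (2 : K) ≠ 0) (h3 : (3 : K) ≠ 0) (h5 : (5 : K) ≠ 0)
    (hd : c4 ^ 3 - c6 ^ 2 ≠ 0) :
    ∃ A B : K, A ≠ 0 ∧ B ≠ 0 ∧ tateQ A B ≠ 0 ∧ tateC4 A B = c4 ∧ tateC6 A B = c6 := by
  have hdisc : 4 * (-27 * c4) ^ 3 + 27 * (-54 * c6) ^ 2 ≠ 0 := by
    have h : (78732 : K) ≠ 0 := by
      have := mul_ne_zero (mul_ne_zero h2 h2) (pow_ne_zero 9 h3)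
      convert this using 1; norm_num
    intro e
    exact mul_ne_zero h hd (by linear_combination -e)
  have hE := IsShort.shortW hdisc h2
  obtain ⟨hdeg, -, -⟩ := hE.card_psi5_roots h3 h5
  obtain ⟨x, hx⟩ := IsAlgClosed.exists_root (psi5Poly (-27 * c4) (-54 * c6)) (by
    rw [degree_eq_natDegree (psi5Poly_ne_zero h5 _ _), hdeg]
    exact_mod_cast (by norm_num : (12 : ℕ) ≠ 0))
  rw [IsRoot, psi5Poly_eval] at hx
  obtain ⟨y, hy⟩ := IsAlgClosed.exists_pow_nat_eq (rhs (-27 * c4) (-54 * c6) x) (n := 2) two_pos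
  obtain ⟨hA, hB, -, -, e4, e6⟩ := IsFive.mk' h2 h3 hy (hE.fiveRel_of_psi5 hy hx)
  refine ⟨_, _, hA, hB, fun hQ => hd ?_, e4.symm, e6.symm⟩
  rw [e4, e6, tateC4_cube_sub, hQ, mul_zero, mul_zero]

theorem famC4_ne_zero_of_root (h2 : (2 : K) ≠ 0) (h3 : (3 : K) ≠ 0) (h5 : (5 : K) ≠ 0)
    (hd : c4 ^ 3 - c6 ^ 2 ≠ 0) {t : K} (hD : famD c4 c6 t = 0) : famC4 c4 c6 t ≠ 0 := by
  obtain ⟨A, B, hA, hB, hQ, rfl, rfl⟩ := exists_tate_coords h2 h3 h5 hd
  exact famC4_ne_zero_of_famD_eq_zero h2 h3 h5 hA hB hQ t hD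

theorem famC4_cube_sub_closed (h2 : (2 : K) ≠ 0) (h3 : (3 : K) ≠ 0) (h5 : (5 : K) ≠ 0)
    (hd : c4 ^ 3 - c6 ^ 2 ≠ 0) (t : K) :
    famC4 c4 c6 t ^ 3 - famC6 c4 c6 t ^ 2 = (c4 ^ 3 - c6 ^ 2) * famD c4 c6 t ^ 5 := by
  obtain ⟨A, B, hA, hB, hQ, rfl, rfl⟩ := exists_tate_coords h2 h3 h5 hd
  exact famC4_cube_sub_tate hA hB t

end Closed

theorem famC4_cube_sub_int {c4 c6 : ℤ} (hd : c4 ^ 3 - c6 ^ 2 ≠ 0) (t : ℤ) :
    famC4 c4 c6 t ^ 3 - famC6 c4 c6 t ^ 2 = (c4 ^ 3 - c6 ^ 2) * famD c4 c6 t ^ 5 := by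
  let f := Int.castRingHom (AlgebraicClosure ℚ)
  have hf : Function.Injective f := Int.cast_injective
  apply hf
  simp only [map_sub, map_mul, map_pow, famC4_map, famC6_map, famD_map]
  refine famC4_cube_sub_closed two_ne_zero three_ne_zero (by norm_num) ?_ _
  rw [← map_pow, ← map_pow, ← map_sub]
  exact (map_ne_zero_iff f hf).2 hd

theorem dvd_famC4_sub {c4 c6 t m : ℤ} (h : m ∣ t) : m ∣ famC4 c4 c6 t - c4 := by
  have ht : (Ideal.Quotient.mk (Ideal.span {m})) t = 0 := by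
    rwa [Ideal.Quotient.eq_zero_iff_mem, Ideal.mem_span_singleton]
  rw [← Ideal.mem_span_singleton, ← Ideal.Quotient.eq_zero_iff_mem, map_sub, famC4_map, ht,
    famC4_zero, sub_self]

theorem dvd_famC6_sub {c4 c6 t m : ℤ} (h : m ∣ t) : m ∣ famC6 c4 c6 t - c6 := by
  have ht : (Ideal.Quotient.mk (Ideal.span {m})) t = 0 := by
    rwa [Ideal.Quotient.eq_zero_iff_mem, Ideal.mem_span_singleton]
  rw [← Ideal.mem_span_singleton, ← Ideal.Quotient.eq_zero_iff_mem, map_sub, famC6_map, ht,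
    famC6_zero, sub_self]

theorem dvd_famD_sub {c4 c6 t m : ℤ} (h : m ∣ t) : m ∣ famD c4 c6 t - 1 := by
  have ht : (Ideal.Quotient.mk (Ideal.span {m})) t = 0 := by
    rwa [Ideal.Quotient.eq_zero_iff_mem, Ideal.mem_span_singleton]
  rw [← Ideal.mem_span_singleton, ← Ideal.Quotient.eq_zero_iff_mem, map_sub, famD_map, ht,
    famD_zero, map_one, sub_self]

/-- Change of `a₄` in the family. -/
def deltaFour (W : WeierstrassCurve ℤ) (t : ℤ) : ℤ := -((famC4 W.c₄ W.c₆ t - W.c₄) / 48)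

/-- Change of `a₆` in the family. -/
def deltaSix (W : WeierstrassCurve ℤ) (t : ℤ) : ℤ :=
  (72 * W.b₂ * deltaFour W t - (famC6 W.c₄ W.c₆ t - W.c₆)) / 864

/-- The member of the family of `W` at `t` (meant for `t` divisible by `familyBase W`). -/
def member (W : WeierstrassCurve ℤ) (t : ℤ) : WeierstrassCurve ℤ :=
  ⟨W.a₁, W.a₂, W.a₃, W.a₄ + deltaFour W t, W.a₆ + deltaSix W t⟩

variable {W : WeierstrassCurve ℤ} {t : ℤ}

theorem deltaFour_eq (h : (41472 : ℤ) ∣ t) :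
    48 * deltaFour W t = -(famC4 W.c₄ W.c₆ t - W.c₄) := by
  rw [deltaFour, mul_neg, Int.mul_ediv_cancel']
  exact (dvd_trans (by norm_num) h).trans (dvd_refl t) |> dvd_famC4_sub

theorem dvd_deltaSix_num (h : (41472 : ℤ) ∣ t) :
    (864 : ℤ) ∣ 72 * W.b₂ * deltaFour W t - (famC6 W.c₄ W.c₆ t - W.c₆) := by
  refine dvd_sub ?_ (dvd_famC6_sub (dvd_trans (by norm_num) h))
  refine Dvd.dvd.mul_left ?_ _
  have h1 : (48 : ℤ) * 864 ∣ 48 * deltaFour W t := by
    rw [deltaFour_eq h]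
    exact (dvd_famC4_sub (by norm_num; exact h)).neg_right
  exact (mul_dvd_mul_iff_left (by norm_num)).1 h1

theorem deltaSix_eq (h : (41472 : ℤ) ∣ t) :
    864 * deltaSix W t = 72 * W.b₂ * deltaFour W t - (famC6 W.c₄ W.c₆ t - W.c₆) := by
  rw [deltaSix, Int.mul_ediv_cancel' (dvd_deltaSix_num h)]

theorem member_c₄ (h : (41472 : ℤ) ∣ t) : (member W t).c₄ = famC4 W.c₄ W.c₆ t := by
  have := deltaFour_eq (W := W) h
  simp only [member, WeierstrassCurve.c₄, WeierstrassCurve.b₂, WeierstrassCurve.b₄] at this ⊢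
  linear_combination -this

theorem member_c₆ (h : (41472 : ℤ) ∣ t) : (member W t).c₆ = famC6 W.c₄ W.c₆ t := by
  have := deltaSix_eq (W := W) h
  simp only [member, WeierstrassCurve.c₆, WeierstrassCurve.b₂, WeierstrassCurve.b₄,
    WeierstrassCurve.b₆] at this ⊢
  linear_combination -this

theorem member_Δ (hΔ : W.Δ ≠ 0) (h : (41472 : ℤ) ∣ t) :
    (member W t).Δ = W.Δ * famD W.c₄ W.c₆ t ^ 5 := by
  have e := (member W t).c_relation
  rw [member_c₄ h, member_c₆ h] at e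
  have hd : W.c₄ ^ 3 - W.c₆ ^ 2 ≠ 0 := by
    rw [← W.c_relation]; exact mul_ne_zero (by norm_num) hΔ
  rw [famC4_cube_sub_int hd, ← W.c_relation] at e
  linarith

theorem member_map_eq {n : ℤ} (hn : 41472 * n ∣ t) (R : Type*) [CommRing R]
    (hR : (n : R) = 0) :
    (member W t).map (Int.castRingHom R) = W.map (Int.castRingHom R) := by
  have h : (41472 : ℤ) ∣ t := (dvd_mul_right _ _).trans hn
  have h4 : n ∣ deltaFour W t := by
    have h1 : 48 * (864 * n) ∣ 48 * deltaFour W t := by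
      rw [deltaFour_eq h, ← mul_assoc]
      exact (dvd_famC4_sub (by norm_num; exact hn)).neg_right
    exact (dvd_mul_left n 864).trans ((mul_dvd_mul_iff_left (by norm_num)).1 h1)
  have h6 : n ∣ deltaSix W t := by
    have h1 : 864 * n ∣ 864 * deltaSix W t := by
      rw [deltaSix_eq h]
      refine dvd_sub (Dvd.dvd.mul_left ?_ _)
        (dvd_famC6_sub ((mul_dvd_mul_right (by norm_num) n).trans hn))
      have h2 : 48 * (864 * n) ∣ 48 * deltaFour W t := by
        rw [deltaFour_eq h, ← mul_assoc]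
        exact (dvd_famC4_sub (by norm_num; exact hn)).neg_right
      exact (mul_dvd_mul_iff_left (by norm_num)).1 h2
    exact (mul_dvd_mul_iff_left (by norm_num)).1 h1
  obtain ⟨k4, hk4⟩ := h4
  obtain ⟨k6, hk6⟩ := h6
  ext <;> simp [member, hk4, hk6, hR]

/-- All parameters are taken divisible by this. -/
def familyBase (W : WeierstrassCurve ℤ) : ℤ := 41472 * (30 * W.Δ)

theorem member_map_of_prime_dvd (hb : familyBase W ∣ t) {p : ℕ} (hp : (p : ℤ) ∣ 30 * W.Δ)
    (R : Type*) [CommRing R] [CharP R p] :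
    (member W t).map (Int.castRingHom R) = W.map (Int.castRingHom R) :=
  member_map_eq ((mul_dvd_mul_left _ hp).trans hb) R (by simp)

theorem int_ne_zero_of_not_dvd {p : ℕ} [Fact p.Prime] {n : ℤ} (h : ¬(p : ℤ) ∣ n) :
    (n : ZMod p) ≠ 0 := fun e => h ((ZMod.intCast_zmod_eq_zero_iff_dvd n p).1 e)

theorem famD_ne_zero_of_dvd_base (hb : familyBase W ∣ t) : famD W.c₄ W.c₆ t ≠ 0 := by
  intro e
  have h5 : (5 : ℤ) ∣ t := (Dvd.intro (41472 * 6 * W.Δ) (by rw [familyBase]; ring)).trans hb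
  have := dvd_famD_sub (c4 := W.c₄) (c6 := W.c₆) h5
  rw [e] at this
  norm_num at this

theorem member_semistable (hΔ : W.Δ ≠ 0) (hW : W.IsSemistableModel) (hb : familyBase W ∣ t) :
    (member W t).Δ ≠ 0 ∧ (member W t).IsSemistableModel := by
  have h41 : (41472 : ℤ) ∣ t := (dvd_mul_right _ _).trans hb
  refine ⟨by
    rw [member_Δ hΔ h41]; exact mul_ne_zero hΔ (pow_ne_zero 5 (famD_ne_zero_of_dvd_base hb)),
    fun p hp hdvd => ?_⟩
  have hpI := Nat.prime_iff_prime_int.1 hp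
  by_cases hbad : (p : ℤ) ∣ 30 * W.Δ
  · have ht : (p : ℤ) ∣ t := (hbad.mul_left 41472).trans hb
    have hD : ¬(p : ℤ) ∣ famD W.c₄ W.c₆ t := fun h => hpI.not_dvd_one (by
      simpa using dvd_sub h (dvd_famD_sub (c4 := W.c₄) (c6 := W.c₆) ht))
    rw [member_Δ hΔ h41] at hdvd
    have hpΔ : (p : ℤ) ∣ W.Δ :=
      (hpI.dvd_or_dvd hdvd).resolve_right fun h => hD (hpI.dvd_of_dvd_pow h)
    rw [member_c₄ h41]
    intro hc
    exact hW p hp hpΔ (by simpa using dvd_sub hc (dvd_famC4_sub (c4 := W.c₄) (c6 := W.c₆) ht))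
  · have : Fact p.Prime := ⟨hp⟩
    rw [member_Δ hΔ h41] at hdvd
    have hpD : (p : ℤ) ∣ famD W.c₄ W.c₆ t := by
      refine hpI.dvd_of_dvd_pow ((hpI.dvd_or_dvd hdvd).resolve_left fun h => hbad ?_)
      exact h.mul_left 30
    rw [member_c₄ h41]
    intro hc
    let f := (algebraMap (ZMod p) (AlgebraicClosure (ZMod p))).comp (Int.castRingHom (ZMod p))
    have hf : ∀ n : ℤ, ¬(p : ℤ) ∣ n → f n ≠ 0 := fun n hn =>
      (map_ne_zero (algebraMap (ZMod p) (AlgebraicClosure (ZMod p)))).2 (int_ne_zero_of_not_dvd hn)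
    have hf0 : ∀ n : ℤ, (p : ℤ) ∣ n → f n = 0 := fun n hn => by
      change algebraMap (ZMod p) (AlgebraicClosure (ZMod p)) (n : ZMod p) = 0
      rw [(ZMod.intCast_zmod_eq_zero_iff_dvd n p).2 hn, map_zero]
    have hne : ∀ k : ℤ, k ∣ 30 → f k ≠ 0 := fun k hk => hf k fun h =>
      hbad ((h.trans hk).mul_right _)
    have h2 := hne 2 (by norm_num)
    have h3 := hne 3 (by norm_num)
    have h5 := hne 5 (by norm_num)
    rw [map_ofNat] at h2 h3 h5
    refine famC4_ne_zero_of_root (c4 := f W.c₄) (c6 := f W.c₆) (t := f t) h2 h3 h5 ?_ ?_ ?_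
    · rw [← map_pow, ← map_pow, ← map_sub, ← W.c_relation, map_mul]
      refine mul_ne_zero ?_ (hf _ fun h => hbad (h.mul_left 30))
      have := mul_ne_zero (pow_ne_zero 6 h2) (pow_ne_zero 3 h3)
      norm_num at this ⊢
      exact this
    · rw [← famD_map]; exact hf0 _ hpD
    · rw [← famC4_map]; exact hf0 _ hc

section Count

variable {F : Type} [Field F] [Fintype F]

omit [Fintype F] in
/-- Points of a general Weierstrass curve and of its short model. -/
theorem natCard_point_short {W : WeierstrassCurve F} (h2 : (2 : F) ≠ 0) (h3 : (3 : F) ≠ 0)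
    (hΔ : W.Δ ≠ 0) (hd : 4 * (-27 * W.c₄) ^ 3 + 27 * (-54 * W.c₆) ^ 2 ≠ 0) :
    Nat.card W.toAffine.Point = Nat.card (shortW (-27 * W.c₄) (-54 * W.c₆)).Point := by
  classical
  have hS := IsShort.shortW hd h2
  have h36 : (36 : F) ≠ 0 := by
    have := mul_ne_zero (pow_ne_zero 2 h2) (pow_ne_zero 2 h3)
    convert this using 1; norm_num
  have h216 : (216 : F) ≠ 0 := by
    have := mul_ne_zero (pow_ne_zero 3 h2) (pow_ne_zero 3 h3)
    convert this using 1; norm_num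
  let e : F × F ≃ F × F :=
    { toFun := fun p => (36 * p.1 + 3 * W.b₂, 108 * (2 * p.2 + W.a₁ * p.1 + W.a₃))
      invFun := fun p => ((p.1 - 3 * W.b₂) / 36,
        (p.2 - 108 * (W.a₁ * ((p.1 - 3 * W.b₂) / 36) + W.a₃)) / 216)
      left_inv := fun p => by
        have hx : (36 * p.1 + 3 * W.b₂ - 3 * W.b₂) / 36 = p.1 := by field_simp; ring
        simp only [hx]
        refine Prod.ext rfl ?_
        field_simp
        ring
      right_inv := fun p => by
        refine Prod.ext ?_ ?_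
        · dsimp only; field_simp; ring
        · dsimp only; field_simp; ring }
  refine Nat.card_congr ((W.toAffine.nonsingularPointEquiv).trans
    ((Equiv.optionCongr (e.subtypeEquiv fun p => ?_)).trans
      (shortW (-27 * W.c₄) (-54 * W.c₆)).nonsingularPointEquiv.symm))
  rw [← Affine.equation_iff_nonsingular_of_Δ_ne_zero (W := W.toAffine) hΔ, hS.nonsingular_iff,
    Affine.equation_iff']
  simp only [e, Equiv.coe_fn_mk, rhs, WeierstrassCurve.c₄, WeierstrassCurve.c₆, WeierstrassCurve.b₂,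
    WeierstrassCurve.b₄, WeierstrassCurve.b₆]
  constructor
  · intro h
    linear_combination 46656 * h
  · intro h
    refine (mul_eq_zero.1 (?_ : (46656 : F) * _ = 0)).resolve_left ?_
    · linear_combination h
    · have := mul_ne_zero (pow_ne_zero 6 h2) (pow_ne_zero 6 h3)
      convert this using 1; norm_num

end Count

theorem apOfModel_congr (_hΔ : W.Δ ≠ 0) (hb : familyBase W ∣ t) {ℓ : ℕ}
    (hℓ : ℓ.Prime) (hg : W.IsGoodPrimeFor ℓ) (hg' : (member W t).IsGoodPrimeFor ℓ) :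
    (5 : ℤ) ∣ (member W t).apOfModel ℓ - W.apOfModel ℓ := by
  by_cases hbad : (ℓ : ℤ) ∣ 30 * W.Δ
  · have : Fact ℓ.Prime := ⟨hℓ⟩
    have e : (member W t).reductionMod ℓ = W.reductionMod ℓ :=
      member_map_of_prime_dvd hb hbad (ZMod ℓ)
    rw [WeierstrassCurve.apOfModel, WeierstrassCurve.apOfModel, e, sub_self]
    exact dvd_zero _
  have : Fact ℓ.Prime := ⟨hℓ⟩
  have h41 : (41472 : ℤ) ∣ t := (dvd_mul_right _ _).trans hb
  let f := Int.castRingHom (ZMod ℓ)
  have hne : ∀ k : ℤ, k ∣ 30 → f k ≠ 0 := fun k hk =>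
    int_ne_zero_of_not_dvd fun h => hbad ((h.trans hk).mul_right _)
  have h2 := hne 2 (by norm_num)
  have h3 := hne 3 (by norm_num)
  have h5 := hne 5 (by norm_num)
  rw [map_ofNat] at h2 h3 h5
  have hΔℓ : (W.reductionMod ℓ).Δ ≠ 0 := by
    rw [WeierstrassCurve.reductionMod, WeierstrassCurve.map_Δ]
    exact int_ne_zero_of_not_dvd hg
  have hΔℓ' : ((member W t).reductionMod ℓ).Δ ≠ 0 := by
    rw [WeierstrassCurve.reductionMod, WeierstrassCurve.map_Δ]
    exact int_ne_zero_of_not_dvd hg'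
  have hdisc : ∀ V : WeierstrassCurve (ZMod ℓ), V.Δ ≠ 0 →
      4 * (-27 * V.c₄) ^ 3 + 27 * (-54 * V.c₆) ^ 2 ≠ 0 := by
    intro V hV
    have e : 4 * (-27 * V.c₄) ^ 3 + 27 * (-54 * V.c₆) ^ 2 = -(2 ^ 8 * 3 ^ 12) * V.Δ := by
      linear_combination (2 ^ 2 * 3 ^ 9 : ZMod ℓ) * V.c_relation
    rw [e]
    exact mul_ne_zero (neg_ne_zero.2 (mul_ne_zero (pow_ne_zero _ h2) (pow_ne_zero _ h3))) hV
  have hE := IsShort.shortW (hdisc _ hΔℓ) h2
  have hE' := IsShort.shortW (hdisc _ hΔℓ') h2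
  have ec4 : ((member W t).reductionMod ℓ).c₄ =
      famC4 (W.reductionMod ℓ).c₄ (W.reductionMod ℓ).c₆ (f t) := by
    simp only [WeierstrassCurve.reductionMod, WeierstrassCurve.map_c₄, WeierstrassCurve.map_c₆,
      member_c₄ h41, famC4_map]
    rfl
  have ec6 : ((member W t).reductionMod ℓ).c₆ =
      famC6 (W.reductionMod ℓ).c₄ (W.reductionMod ℓ).c₆ (f t) := by
    simp only [WeierstrassCurve.reductionMod, WeierstrassCurve.map_c₄, WeierstrassCurve.map_c₆,
      member_c₆ h41, famC6_map]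
    rfl
  have hcnt := natCard_point_short h2 h3 hΔℓ (hdisc _ hΔℓ)
  have hcnt' := natCard_point_short h2 h3 hΔℓ' (hdisc _ hΔℓ')
  rw [WeierstrassCurve.apOfModel, WeierstrassCurve.apOfModel, WeierstrassCurve.traceOfFrobenius,
    WeierstrassCurve.traceOfFrobenius, WeierstrassCurve.card, WeierstrassCurve.card, hcnt, hcnt',
    Nat.card_eq_fintype_card (α := ZMod ℓ)]
  refine five_dvd_trace_sub (t := f t) hE ?_ h3 h5
  have e4 : famCoeffA (W.reductionMod ℓ).c₄ (W.reductionMod ℓ).c₆ (f t) =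
      -27 * ((member W t).reductionMod ℓ).c₄ := by rw [ec4]; rfl
  have e6 : famCoeffB (W.reductionMod ℓ).c₄ (W.reductionMod ℓ).c₆ (f t) =
      -54 * ((member W t).reductionMod ℓ).c₆ := by rw [ec6]; rfl
  rw [e4, e6]
  exact hE'

end FLTAgent.Switch35
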