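import Mathlib.Algebra.Polynomial.Basic
import Mathlib.RingTheory.Polynomial.Basic
import Mathlib.RingTheory.Ideal.Quotient.Basic
import Mathlib.Algebra.Polynomial.Eval.SMul
import Mathlib.FieldTheory.IntermediateField.Adjoin.Basic
import Mathlib.FieldTheory.RatFunc.AsPolynomial
import Mathlib.Tactic.LinearCombination
import Mathlib.Tactic.FieldSimp
import Mathlib.Tactic.FinCases

/-!
# Primitive vectors of polynomials and their degree

`PrimVec` and `VecDeg`, with their behaviour under the symmetric product `symProd` and the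
composition `compPair` of pairs. This is the arithmetic behind the naive height on `E(F(X))`.
-/

set_option autoImplicit false

open Polynomial

namespace FLTAgent.Switch35

variable {F : Type} [Field F] {m : ℕ}

/-- The entries do not vanish simultaneously under any map to a field. -/
def PrimVec (v : Fin m → F[X]) : Prop :=
  ∀ (L : Type) [Field L] (φ : F[X] →+* L), ∃ i, φ (v i) ≠ 0

/-- All entries have degree at most `k`, one of them exactly `k`. -/
def VecDeg (v : Fin m → F[X]) (k : ℕ) : Prop :=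
  (∀ i, (v i).natDegree ≤ k) ∧ ∃ i, (v i).coeff k ≠ 0

theorem PrimVec.exists_comb {v : Fin m → F[X]} (h : PrimVec v) :
    ∃ u : Fin m → F[X], ∑ i, u i * v i = 1 := by
  have htop : Ideal.span (Set.range v) = ⊤ := by
    by_contra hne
    obtain ⟨M, hM, hle⟩ := Ideal.exists_le_maximal _ hne
    let := Ideal.Quotient.field M
    obtain ⟨i, hi⟩ := h (F[X] ⧸ M) (Ideal.Quotient.mk M)
    exact hi (Ideal.Quotient.eq_zero_iff_mem.2 (hle (Ideal.subset_span ⟨i, rfl⟩)))
  have h1 : (1 : F[X]) ∈ Ideal.span (Set.range v) := by rw [htop]; trivial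
  rw [Ideal.mem_span_range_iff_exists_fun] at h1
  exact h1

theorem VecDeg.exists_natDegree_eq {v : Fin m → F[X]} {k : ℕ} (h : VecDeg v k) :
    ∃ i, v i ≠ 0 ∧ (v i).natDegree = k := by
  obtain ⟨i, hi⟩ := h.2
  refine ⟨i, fun hz => hi (by simp [hz]), le_antisymm (h.1 i) (le_natDegree_of_ne_zero hi)⟩

theorem VecDeg.eq_of_proportional {v w : Fin m → F[X]} {k l : ℕ} (hv : PrimVec v) (hw : PrimVec w)
    (hk : VecDeg v k) (hl : VecDeg w l) (h : ∀ i j, v i * w j = v j * w i) : k = l := by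
  obtain ⟨u, hu⟩ := hv.exists_comb
  obtain ⟨u', hu'⟩ := hw.exists_comb
  set c := ∑ i, u i * w i with hc
  have hwv : ∀ j, w j = c * v j := by
    intro j
    calc w j = (∑ i, u i * v i) * w j := by rw [hu, one_mul]
      _ = c * v j := by
        rw [hc, Finset.sum_mul, Finset.sum_mul]
        refine Finset.sum_congr rfl fun i _ => ?_
        linear_combination u i * h i j
  have hcu : IsUnit c := by
    refine IsUnit.of_mul_eq_one (∑ i, u' i * v i) ?_
    rw [← hu', Finset.mul_sum]
    exact Finset.sum_congr rfl fun i _ => by rw [hwv i]; ring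
  obtain ⟨a, ha, hca⟩ := Polynomial.isUnit_iff.1 hcu
  have hdeg : ∀ j, (w j).natDegree = (v j).natDegree := by
    intro j
    rw [hwv j, ← hca, natDegree_C_mul ha.ne_zero]
  obtain ⟨i, -, hi⟩ := hk.exists_natDegree_eq
  obtain ⟨j, -, hj⟩ := hl.exists_natDegree_eq
  have h1 := hl.1 i
  have h2 := hk.1 j
  rw [hdeg] at h1 hj
  omega

section aeval

variable {Ω : Type} [Field Ω] [Algebra F Ω] {z : Ω}

theorem aeval_ne_zero_of_transcendental (hz : Transcendental F z) {p : F[X]} (hp : p ≠ 0) :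
    aeval z p ≠ 0 := fun h => hz ⟨p, hp, h⟩

theorem VecDeg.eq_of_aeval {v w : Fin m → F[X]} {k l : ℕ} (hz : Transcendental F z)
    (hv : PrimVec v) (hw : PrimVec w)
    (hk : VecDeg v k) (hl : VecDeg w l) (c : Ω) (h : ∀ i, aeval z (w i) = c * aeval z (v i)) :
    k = l := by
  refine VecDeg.eq_of_proportional hv hw hk hl fun i j => ?_
  by_contra hne
  refine aeval_ne_zero_of_transcendental hz (sub_ne_zero.2 hne) ?_
  rw [map_sub, map_mul, map_mul, h i, h j]
  ring

end aeval

/-! ### Pairs -/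

/-- The symmetric product of two pairs. -/
def symProd {R : Type*} [CommRing R] (v w : Fin 2 → R) : Fin 3 → R :=
  ![v 0 * w 0, v 0 * w 1 + v 1 * w 0, v 1 * w 1]

theorem symProd_map {R S : Type*} [CommRing R] [CommRing S] (φ : R →+* S) (v w : Fin 2 → R)
    (i : Fin 3) : φ (symProd v w i) = symProd (φ ∘ v) (φ ∘ w) i := by
  fin_cases i <;> simp [symProd]

theorem symProd_smul {R : Type*} [CommRing R] (c d : R) (v w : Fin 2 → R) (i : Fin 3) :
    symProd (c • v) (d • w) i = c * d * symProd v w i := by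
  fin_cases i <;> simp [symProd] <;> ring

theorem symProd_ne_zero {L : Type*} [Field L] {v w : Fin 2 → L} (hv : ∃ i, v i ≠ 0)
    (hw : ∃ i, w i ≠ 0) : ∃ i, symProd v w i ≠ 0 := by
  by_contra h
  push Not at h
  have h0 := h 0
  have h1 := h 1
  have h2 := h 2
  simp only [symProd, Matrix.cons_val_zero, Matrix.cons_val_one, Matrix.cons_val] at h0 h1 h2
  obtain ⟨i, hi⟩ := hv
  obtain ⟨j, hj⟩ := hw
  fin_cases i <;> fin_cases j <;> simp_all

theorem PrimVec.symProd {v w : Fin 2 → F[X]} (hv : PrimVec v) (hw : PrimVec w) :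
    PrimVec (FLTAgent.Switch35.symProd v w) := by
  intro L _ φ
  obtain ⟨i, hi⟩ := symProd_ne_zero (v := φ ∘ v) (w := φ ∘ w) (hv L φ) (hw L φ)
  exact ⟨i, by rwa [symProd_map]⟩

theorem VecDeg.symProd {v w : Fin 2 → F[X]} {k l : ℕ} (hv : VecDeg v k) (hw : VecDeg w l) :
    VecDeg (FLTAgent.Switch35.symProd v w) (k + l) := by
  have hd : ∀ i j, (v i * w j).natDegree ≤ k + l := fun i j =>
    natDegree_mul_le.trans (add_le_add (hv.1 i) (hw.1 j))
  have hcf : ∀ i j, (v i * w j).coeff (k + l) = (v i).coeff k * (w j).coeff l := fun i j =>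
    coeff_mul_add_eq_of_natDegree_le (hv.1 i) (hw.1 j)
  refine ⟨fun i => ?_, ?_⟩
  · fin_cases i <;> simp [FLTAgent.Switch35.symProd, hd, natDegree_add_le_of_degree_le]
  · obtain ⟨i, hi⟩ := symProd_ne_zero (v := fun i => (v i).coeff k) (w := fun i => (w i).coeff l)
      hv.2 hw.2
    refine ⟨i, ?_⟩
    fin_cases i <;> simp_all [FLTAgent.Switch35.symProd]

theorem PrimVec.of_coprime {n d : F[X]} (h : IsCoprime n d) : PrimVec ![n, d] := by
  intro L _ φ
  by_contra hne
  push Not at hne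
  obtain ⟨a, b, hab⟩ := h
  have h0 := hne 0
  have h1 := hne 1
  simp only [Matrix.cons_val_zero, Matrix.cons_val_one] at h0 h1
  have := congrArg φ hab
  rw [map_add, map_mul, map_mul, h0, h1, map_one, mul_zero, mul_zero, add_zero] at this
  exact zero_ne_one this

theorem exists_vecDeg {v : Fin 2 → F[X]} (h : PrimVec v) : ∃ k, VecDeg v k := by
  by_cases h01 : (v 0).natDegree ≤ (v 1).natDegree
  · by_cases hz : v 1 = 0
    · refine ⟨0, fun i => ?_, ?_⟩
      · fin_cases i <;> simp_all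
      · refine ⟨0, ?_⟩
        rw [hz, natDegree_zero, Nat.le_zero] at h01
        intro h0
        have : v 0 = 0 := by rw [eq_C_of_natDegree_eq_zero h01, h0, C_0]
        obtain ⟨i, hi⟩ := h (RatFunc F) (algebraMap F[X] (RatFunc F))
        fin_cases i <;> simp_all
    · refine ⟨(v 1).natDegree, fun i => ?_, 1, leadingCoeff_ne_zero.2 hz⟩
      fin_cases i <;> simp_all
  · have hz : v 0 ≠ 0 := fun hz => h01 (by simp [hz])
    refine ⟨(v 0).natDegree, fun i => ?_, 0, leadingCoeff_ne_zero.2 hz⟩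
    fin_cases i
    · simp
    · simp only [Fin.mk_one]; omega

/-- Composition of two pairs, as maps of the projective line. -/
noncomputable def compPair {R : Type*} [CommRing R] (k : ℕ) (v : Fin 2 → F[X])
    (ψ : F →+* R) (w : Fin 2 → R) : Fin 2 → R :=
  fun j => ∑ i ∈ Finset.range (k + 1), ψ ((v j).coeff i) * (w 0 ^ i * w 1 ^ (k - i))

theorem compPair_ne_zero {L : Type} [Field L] {k : ℕ} {v : Fin 2 → F[X]} (hv : PrimVec v)
    (hk : VecDeg v k) (ψ : F →+* L) {w : Fin 2 → L} (hw : ∃ i, w i ≠ 0) :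
    ∃ j, compPair k v ψ w j ≠ 0 := by
  by_cases h1 : w 1 = 0
  · have h0 : w 0 ≠ 0 := by
      obtain ⟨i, hi⟩ := hw
      fin_cases i <;> simp_all
    obtain ⟨j, hj⟩ := hk.2
    refine ⟨j, ?_⟩
    simp only [compPair]
    rw [Finset.sum_eq_single k (fun i hi hik => ?_)
      (fun h => absurd (Finset.self_mem_range_succ k) h)]
    · simp [h0, hj]
    · have : k - i ≠ 0 := by
        have := Finset.mem_range.1 hi
        omega
      simp [h1, zero_pow this]
  · obtain ⟨j, hj⟩ := hv L (eval₂RingHom ψ (w 0 / w 1))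
    refine ⟨j, ?_⟩
    have : compPair k v ψ w j = w 1 ^ k * eval₂ ψ (w 0 / w 1) (v j) := by
      simp only [compPair]
      rw [eval₂_eq_sum_range' ψ (Nat.lt_succ_of_le (hk.1 j)), Finset.mul_sum]
      refine Finset.sum_congr rfl fun i hi => ?_
      have hik : i ≤ k := Nat.lt_succ_iff.1 (Finset.mem_range.1 hi)
      have hsplit : w 1 ^ k = w 1 ^ (k - i) * w 1 ^ i := by rw [← pow_add, Nat.sub_add_cancel hik]
      rw [hsplit, div_pow]
      field_simp
    rw [this]
    exact mul_ne_zero (pow_ne_zero _ h1) hj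

theorem compPair_map {R S : Type*} [CommRing R] [CommRing S] (φ : R →+* S) (k : ℕ)
    (v : Fin 2 → F[X]) (ψ : F →+* R) (w : Fin 2 → R) (j : Fin 2) :
    φ (compPair k v ψ w j) = compPair k v (φ.comp ψ) (φ ∘ w) j := by
  simp [compPair, map_sum]

theorem compPair_smul {R : Type*} [CommRing R] (k : ℕ) (v : Fin 2 → F[X]) (ψ : F →+* R)
    (c : R) (w : Fin 2 → R) (j : Fin 2) :
    compPair k v ψ (c • w) j = c ^ k * compPair k v ψ w j := by
  simp only [compPair, Finset.mul_sum]
  refine Finset.sum_congr rfl fun i hi => ?_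
  have hik : i ≤ k := Nat.lt_succ_iff.1 (Finset.mem_range.1 hi)
  have hsplit : c ^ k = c ^ i * c ^ (k - i) := by rw [← pow_add, Nat.add_sub_cancel' hik]
  simp only [Pi.smul_apply, smul_eq_mul, hsplit]
  ring

theorem PrimVec.compPair {k : ℕ} {v w : Fin 2 → F[X]} (hv : PrimVec v) (hk : VecDeg v k)
    (hw : PrimVec w) : PrimVec (FLTAgent.Switch35.compPair k v C w) := by
  intro L _ φ
  obtain ⟨j, hj⟩ := compPair_ne_zero hv hk (φ.comp C) (w := φ ∘ w) (hw L φ)
  exact ⟨j, by rwa [compPair_map]⟩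

theorem VecDeg.compPair {k l : ℕ} {v w : Fin 2 → F[X]} (hv : PrimVec v) (hk : VecDeg v k)
    (hl : VecDeg w l) : VecDeg (FLTAgent.Switch35.compPair k v C w) (k * l) := by
  have hterm : ∀ i ≤ k, (w 0 ^ i * w 1 ^ (k - i)).natDegree ≤ k * l ∧
      (w 0 ^ i * w 1 ^ (k - i)).coeff (k * l) = (w 0).coeff l ^ i * (w 1).coeff l ^ (k - i) := by
    intro i hi
    have e : k * l = i * l + (k - i) * l := by rw [← add_mul, Nat.add_sub_cancel' hi]
    have h1 : (w 0 ^ i).natDegree ≤ i * l := natDegree_pow_le_of_le i (hl.1 0)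
    have h2 : (w 1 ^ (k - i)).natDegree ≤ (k - i) * l := natDegree_pow_le_of_le (k - i) (hl.1 1)
    refine ⟨natDegree_mul_le.trans (e ▸ add_le_add h1 h2), ?_⟩
    rw [e, coeff_mul_add_eq_of_natDegree_le h1 h2, coeff_pow_of_natDegree_le (hl.1 0),
      coeff_pow_of_natDegree_le (hl.1 1)]
  refine ⟨fun j => natDegree_sum_le_of_forall_le _ _ fun i hi => ?_, ?_⟩
  · exact (natDegree_C_mul_le _ _).trans (hterm i (Nat.lt_succ_iff.1 (Finset.mem_range.1 hi))).1
  · obtain ⟨j, hj⟩ := compPair_ne_zero hv hk (RingHom.id F)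
      (w := fun i => (w i).coeff l) hl.2
    refine ⟨j, ?_⟩
    have : (FLTAgent.Switch35.compPair k v C w j).coeff (k * l) =
        FLTAgent.Switch35.compPair k v (RingHom.id F) (fun i => (w i).coeff l) j := by
      simp only [FLTAgent.Switch35.compPair, finsetSum_coeff, coeff_C_mul, RingHom.id_apply]
      exact Finset.sum_congr rfl fun i hi => by
        rw [(hterm i (Nat.lt_succ_iff.1 (Finset.mem_range.1 hi))).2]
    rwa [this]

end FLTAgent.Switch35
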