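import Fermat.Agent.Switch35.Model
import Fermat.Agent.Switch35.Mod3
import Mathlib.RingTheory.Localization.Integer
import Mathlib.Algebra.Polynomial.Inductions

/-!
# Some member of the family has irreducible mod 3 representation

If `q ^ 5` exactly divides the discriminant and the three-division polynomial has an integer
root, then at parameters highly divisible by `q` an integer root of the three-division
polynomial of the member would have to follow a polynomial in the parameter, which is impossible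
(`exists_member_irreducible`).
-/

set_option autoImplicit false

open WeierstrassCurve Polynomial

namespace FLTAgent.Switch35

/-- The difference quotient of `psi3Mon`. -/
def psi3Slope {R : Type*} [CommRing R] (c4 c6 y z : R) : R :=
  (y + z) * (y ^ 2 + z ^ 2) - 486 * c4 * (y + z) - 5832 * c6

theorem psi3Mon_sub {R : Type*} [CommRing R] (c4 c6 y z : R) :
    psi3Mon c4 c6 y - psi3Mon c4 c6 z = (y - z) * psi3Slope c4 c6 y z := by
  simp only [psi3Mon, psi3Slope]; ring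

theorem psi3Mon_map {R S : Type*} [CommRing R] [CommRing S] (φ : R →+* S) (c4 c6 y : R) :
    φ (psi3Mon c4 c6 y) = psi3Mon (φ c4) (φ c6) (φ y) := by
  simp [psi3Mon, map_ofNat]

theorem psi3Slope_map {R S : Type*} [CommRing R] [CommRing S] (φ : R →+* S) (c4 c6 y z : R) :
    φ (psi3Slope c4 c6 y z) = psi3Slope (φ c4) (φ c6) (φ y) (φ z) := by
  simp [psi3Slope, map_ofNat]

theorem psi3_cube_identity {R : Type*} [CommRing R] {c4 c6 y : R} (h : psi3Mon c4 c6 y = 0) :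
    (y ^ 2 - 81 * c4) ^ 3 * (y ^ 2 - 729 * c4) = -34012224 * y ^ 2 * (c4 ^ 3 - c6 ^ 2) := by
  simp only [psi3Mon] at h
  linear_combination (y ^ 4 - 486 * c4 * y ^ 2 - 19683 * c4 ^ 2 + 5832 * c6 * y) * h

section Local

variable {q : ℕ} {c4 c6 y : ℤ}

theorem prime_five_le (hq : q.Prime) (h6 : ¬ (q : ℤ) ∣ 6) : ∀ (a b : ℕ) (n : ℤ),
    (q : ℤ) ∣ 2 ^ a * 3 ^ b * n → (q : ℤ) ∣ n := by
  intro a b n h
  have hI := Nat.prime_iff_prime_int.1 hq
  rcases hI.dvd_or_dvd h with h | h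
  · rcases hI.dvd_or_dvd h with h | h
    · exact absurd ((hI.dvd_of_dvd_pow h).trans (by norm_num)) h6
    · exact absurd ((hI.dvd_of_dvd_pow h).trans (by norm_num)) h6
  · exact h

/-- At a prime of multiplicative reduction with discriminant valuation five the integer roots
lie in one residue class and are simple. -/
theorem psi3_root_mod (hq : q.Prime) (h6 : ¬ (q : ℤ) ∣ 6) (hc : ¬ (q : ℤ) ∣ c4)
    (h5 : (q : ℤ) ^ 5 ∣ c4 ^ 3 - c6 ^ 2) (h5' : ¬ (q : ℤ) ^ 6 ∣ c4 ^ 3 - c6 ^ 2)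
    (hy : psi3Mon c4 c6 y = 0) :
    (q : ℤ) ∣ y ^ 2 - 729 * c4 ∧ ¬ (q : ℤ) ∣ psi3Slope c4 c6 y y ∧
      (q : ℤ) ∣ 5832 * c6 * y - 157464 * c4 ^ 2 ∧ ¬ (q : ℤ) ∣ 5832 * c6 := by
  have hI := Nat.prime_iff_prime_int.1 hq
  have h23 := prime_five_le hq h6
  have hny : ¬ (q : ℤ) ∣ y := by
    intro h
    refine hc (hI.dvd_of_dvd_pow (n := 2) (h23 0 9 _ ?_))
    have e : 2 ^ 0 * 3 ^ 9 * c4 ^ 2 = y * (y ^ 3 - 486 * c4 * y - 5832 * c6) := by
      simp only [psi3Mon] at hy; linear_combination -hy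
    rw [e]; exact h.mul_right _
  have hid := psi3_cube_identity hy
  have hq5 : (q : ℤ) ∣ c4 ^ 3 - c6 ^ 2 := (dvd_pow_self _ (by norm_num)).trans h5
  have hdiff : (q : ℤ) ∣ y ^ 2 - 81 * c4 → (q : ℤ) ∣ y ^ 2 - 729 * c4 → False := fun h h' =>
    hc (h23 3 4 c4 (by
      have e : (2 : ℤ) ^ 3 * 3 ^ 4 * c4 = y ^ 2 - 81 * c4 - (y ^ 2 - 729 * c4) := by ring
      rw [e]; exact dvd_sub h h'))
  have hN : ¬ (q : ℤ) ∣ y ^ 2 - 81 * c4 := by
    intro h
    have hM : ¬ (q : ℤ) ∣ y ^ 2 - 729 * c4 := fun h' => hdiff h h'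
    obtain ⟨k, hk⟩ := h
    have h52 : (q : ℤ) ^ 5 ∣ (y ^ 2 - 81 * c4) ^ 3 := by
      refine (hI.pow_dvd_of_dvd_mul_right 5 hM) ?_
      rw [mul_comm, mul_comm] at *
      rw [hid]; exact h5.mul_left _
    have hkk : (q : ℤ) ∣ k := by
      rw [hk, mul_pow, show (5 : ℕ) = 3 + 2 from rfl, pow_add,
        mul_dvd_mul_iff_left (pow_ne_zero 3 hI.ne_zero)] at h52
      exact hI.dvd_of_dvd_pow ((dvd_pow_self _ (by norm_num)).trans h52)
    obtain ⟨l, hl⟩ := hkk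
    refine h5' (hI.pow_dvd_of_dvd_mul_left 6 (a := -34012224 * y ^ 2) ?_ ?_)
    · intro h
      rcases hI.dvd_or_dvd h with h | h
      · exact h6 ((h23 6 12 1 (by norm_num at h ⊢; exact h)).trans (one_dvd _))
      · exact hny (hI.dvd_of_dvd_pow h)
    · rw [← hid, hk, hl]
      exact ⟨l ^ 3 * (y ^ 2 - 729 * c4), by ring⟩
  have hM : (q : ℤ) ∣ y ^ 2 - 729 * c4 := by
    have : (q : ℤ) ∣ (y ^ 2 - 81 * c4) ^ 3 * (y ^ 2 - 729 * c4) := by
      rw [hid]; exact hq5.mul_left _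
    exact (hI.dvd_or_dvd this).resolve_left fun h => hN (hI.dvd_of_dvd_pow h)
  refine ⟨hM, ?_, ?_, ?_⟩
  · intro h
    refine hN (hI.dvd_of_dvd_pow (n := 2) (h23 0 1 _ ?_))
    have e : 2 ^ 0 * 3 ^ 1 * (y ^ 2 - 81 * c4) ^ 2 = y * psi3Slope c4 c6 y y := by
      simp only [psi3Mon] at hy
      simp only [psi3Slope]
      linear_combination -hy
    rw [e]; exact h.mul_left _
  · obtain ⟨k, hk⟩ := hM
    refine ⟨k * (q * k + 972 * c4), ?_⟩
    simp only [psi3Mon] at hy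
    linear_combination -hy + (y ^ 2 + 243 * c4) * hk + (q : ℤ) * k * hk
  · intro h
    have h' : (q : ℤ) ∣ c6 := h23 3 6 _ (by norm_num; exact h)
    refine hc (hI.dvd_of_dvd_pow (n := 3) ?_)
    have := dvd_add hq5 (dvd_pow h' (n := 2) (by norm_num))
    simpa using this

end Local

section Closed

variable {K : Type} [Field K] [IsAlgClosed K] [CharZero K] {c4 c6 : K}

omit [IsAlgClosed K] [CharZero K] in
theorem eval_fam (c4 c6 τ : K) :
    (famC4 (C c4) (C c6) (X : K[X])).eval τ = famC4 c4 c6 τ ∧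
    (famC6 (C c4) (C c6) (X : K[X])).eval τ = famC6 c4 c6 τ ∧
    (famD (C c4) (C c6) (X : K[X])).eval τ = famD c4 c6 τ := by
  refine ⟨?_, ?_, ?_⟩
  · rw [← coe_evalRingHom, famC4_map]; simp
  · rw [← coe_evalRingHom, famC6_map]; simp
  · rw [← coe_evalRingHom, famD_map]; simp

theorem fam_disc_poly (hd : c4 ^ 3 - c6 ^ 2 ≠ 0) :
    famC4 (C c4) (C c6) (X : K[X]) ^ 3 - famC6 (C c4) (C c6) X ^ 2 =
      C (c4 ^ 3 - c6 ^ 2) * famD (C c4) (C c6) X ^ 5 := by
  apply Polynomial.funext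
  intro τ
  simp only [eval_sub, eval_pow, eval_mul, eval_C, (eval_fam c4 c6 τ).1, (eval_fam c4 c6 τ).2.1,
    (eval_fam c4 c6 τ).2.2]
  exact famC4_cube_sub_closed two_ne_zero three_ne_zero (by norm_num) hd τ

omit [IsAlgClosed K] [CharZero K] in
theorem famD_poly_ne_zero (c4 c6 : K) : famD (C c4) (C c6) (X : K[X]) ≠ 0 := fun e => by
  have := (eval_fam c4 c6 0).2.2
  rw [e, famD_zero, eval_zero] at this
  exact zero_ne_one this

theorem famD_root_simple (hd : c4 ^ 3 - c6 ^ 2 ≠ 0) {τ : K}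
    (hτ : (famD (C c4) (C c6) (X : K[X])).IsRoot τ) :
    (famD (C c4) (C c6) (X : K[X])).rootMultiplicity τ = 1 ∧
      (famC4 (C c4) (C c6) (X : K[X])).eval τ ≠ 0 := by
  have hC : famC4 c4 c6 τ ≠ 0 := by
    refine famC4_ne_zero_of_root two_ne_zero three_ne_zero (by norm_num) hd ?_
    rw [← (eval_fam c4 c6 τ).2.2]; exact hτ
  refine ⟨le_antisymm ?_ ((rootMultiplicity_pos (famD_poly_ne_zero c4 c6)).2 hτ),
    by rwa [(eval_fam c4 c6 τ).1]⟩
  by_contra hlt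
  push Not at hlt
  obtain ⟨-, hder⟩ := (one_lt_rootMultiplicity_iff_isRoot (famD_poly_ne_zero c4 c6)).1 hlt
  rw [derivative_famD] at hder
  have := congrArg (eval τ) (famC4_sq_sub (C c4) (C c6) (X : K[X]))
  rw [eval_sub, eval_mul, eval_mul, eval_mul, eval_mul, eval_pow, hτ.eq_zero, hder.eq_zero,
    (eval_fam c4 c6 τ).1] at this
  exact hC (by simpa using this.symm)

omit [IsAlgClosed K] in
theorem five_le_natDegree_famD (hd : c4 ^ 3 - c6 ^ 2 ≠ 0) :
    5 ≤ (famD (C c4) (C c6) (X : K[X])).natDegree := by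
  by_contra hlt
  push Not at hlt
  have h5 : (famD (C c4) (C c6) (X : K[X])).coeff 5 = 3168 * c4 * c6 := by
    simp only [famD, famDE, Px.ev, env3]
    simp [coeff_X_pow, coeff_one, mul_assoc, ← map_pow, ← map_mul]
  have h6 : (famD (C c4) (C c6) (X : K[X])).coeff 6 = 5940 * c4 ^ 3 - 10560 * c6 ^ 2 := by
    simp only [famD, famDE, Px.ev, env3]
    simp [coeff_X_pow, coeff_one, mul_assoc, ← map_pow, ← map_mul]
    ring
  rw [coeff_eq_zero_of_natDegree_lt (by omega)] at h5 h6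
  rcases mul_eq_zero.1 h5.symm with h | h
  · have h4 : c4 = 0 := by simpa using h
    apply hd
    subst h4
    linear_combination (1 / 10560 : K) * (-h6)
  · subst h
    apply hd
    linear_combination (-1 / 5940 : K) * h6

omit [IsAlgClosed K] [CharZero K] in
theorem rootMultiplicity_pow' {p : K[X]} (hp : p ≠ 0) (τ : K) (k : ℕ) :
    (p ^ k).rootMultiplicity τ = k * p.rootMultiplicity τ := by
  induction k with
  | zero => simp
  | succ k ih =>
    rw [pow_succ, rootMultiplicity_mul (mul_ne_zero (pow_ne_zero k hp) hp), ih]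
    ring

omit [IsAlgClosed K] in
theorem five_dvd_of_root_identity {U R D N M : K[X]} {a : K} {τ : K} (hN : N = R ^ 2 - 81 * U)
    (hM : M = R ^ 2 - 729 * U) (ha : a ≠ 0) (hD1 : D.rootMultiplicity τ = 1)
    (hUτ : U.eval τ ≠ 0) (hRτ : R.eval τ ≠ 0)
    (hid : N ^ 3 * M = C a * R ^ 2 * D ^ 5) : 5 ≤ M.rootMultiplicity τ := by
  have hD0 : D ≠ 0 := fun e => by simp [e] at hD1
  have hR0 : R ≠ 0 := fun e => by simp [e] at hRτ
  have hr : C a * R ^ 2 * D ^ 5 ≠ 0 :=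
    mul_ne_zero (mul_ne_zero (C_ne_zero.2 ha) (pow_ne_zero 2 hR0)) (pow_ne_zero 5 hD0)
  have hl : N ^ 3 * M ≠ 0 := hid ▸ hr
  have hm := congrArg (rootMultiplicity τ) hid
  rw [rootMultiplicity_mul hl, rootMultiplicity_mul hr,
    rootMultiplicity_mul (left_ne_zero_of_mul hr), rootMultiplicity_C,
    rootMultiplicity_pow' (ne_zero_pow (by norm_num) (left_ne_zero_of_mul hl)),
    rootMultiplicity_pow' hR0, rootMultiplicity_pow' hD0, hD1,
    rootMultiplicity_eq_zero (p := R) hRτ] at hm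
  by_cases hNτ : N.IsRoot τ
  · have hMτ : ¬ M.IsRoot τ := by
      intro hMτ
      apply hUτ
      simp only [hN, hM, IsRoot, eval_sub, eval_mul, eval_pow, eval_ofNat] at hNτ hMτ
      linear_combination (1 / 648 : K) * hNτ - (1 / 648 : K) * hMτ
    rw [rootMultiplicity_eq_zero hMτ] at hm
    omega
  · rw [rootMultiplicity_eq_zero hNτ] at hm
    omega

theorem natDegree_famC4_le {S : Type} [CommRing S] (c4 c6 : S) (p : S[X])
    (hp : p.natDegree ≤ 1) : (famC4 (C c4) (C c6) p).natDegree ≤ 20 := by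
  refine le_trans (Px.natDegree_ev_le _ (env3 0 0 1) (fun i => ?_) famC4E) (by decide)
  rcases i with _ | _ | _ <;> simp [env3, hp]

theorem natDegree_famC6_le {S : Type} [CommRing S] (c4 c6 : S) (p : S[X])
    (hp : p.natDegree ≤ 1) : (famC6 (C c4) (C c6) p).natDegree ≤ 30 := by
  refine le_trans (Px.natDegree_ev_le _ (env3 0 0 1) (fun i => ?_) famC6E) (by decide)
  rcases i with _ | _ | _ <;> simp [env3, hp]

/-- A root of the three-division polynomial over `K[X]` cannot follow the family. -/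
theorem no_polynomial_root (hd : c4 ^ 3 - c6 ^ 2 ≠ 0) (R : K[X]) (hR : R.natDegree ≤ 10)
    (h : psi3Mon (famC4 (C c4) (C c6) X) (famC6 (C c4) (C c6) X) R = 0) : False := by
  classical
  have hid := psi3_cube_identity h
  rw [fam_disc_poly hd] at hid
  have hid' : (R ^ 2 - 81 * famC4 (C c4) (C c6) X) ^ 3 * (R ^ 2 - 729 * famC4 (C c4) (C c6) X) =
      C (-34012224 * (c4 ^ 3 - c6 ^ 2)) * R ^ 2 * famD (C c4) (C c6) X ^ 5 := by
    rw [hid, map_mul, map_neg, map_ofNat]; ring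
  have hD0 := famD_poly_ne_zero c4 c6
  have hrne : ∀ τ, (famD (C c4) (C c6) (X : K[X])).IsRoot τ → R.eval τ ≠ 0 := by
    intro τ hτ e
    have := congrArg (eval τ) h
    simp only [psi3Mon, eval_sub, eval_mul, eval_pow, eval_ofNat, eval_zero, e] at this
    exact (famD_root_simple hd hτ).2 (by simpa using this)
  have hdvd : ∏ τ ∈ (famD (C c4) (C c6) (X : K[X])).roots.toFinset, (X - C τ) ^ 5 ∣
      R ^ 2 - 729 * famC4 (C c4) (C c6) X := by
    refine Finset.prod_dvd_of_coprime (fun a _ b _ hab => (pairwise_coprime_X_sub_C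
      Function.injective_id hab).pow) fun τ hτ => ?_
    rw [Multiset.mem_toFinset, mem_roots hD0] at hτ
    obtain ⟨h1, h2⟩ := famD_root_simple hd hτ
    by_cases hM0 : R ^ 2 - 729 * famC4 (C c4) (C c6) X = 0
    · rw [hM0]; exact dvd_zero _
    rw [← le_rootMultiplicity_iff hM0]
    exact five_dvd_of_root_identity rfl rfl (mul_ne_zero (by norm_num) hd) h1 h2 (hrne τ hτ) hid'
  have hM0 : R ^ 2 - 729 * famC4 (C c4) (C c6) X ≠ 0 := by
    intro e
    rw [e, mul_zero, eq_comm, mul_eq_zero, mul_eq_zero] at hid'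
    have hR0 : R = 0 := by
      rcases hid' with (h | h) | h
      · exact absurd (C_eq_zero.1 h) (mul_ne_zero (by norm_num) hd)
      · exact eq_zero_of_pow_eq_zero h
      · exact absurd (eq_zero_of_pow_eq_zero h) hD0
    obtain ⟨τ, hτ⟩ := IsAlgClosed.exists_root (famD (C c4) (C c6) (X : K[X])) (by
      rw [degree_eq_natDegree hD0]
      exact_mod_cast (by have := five_le_natDegree_famD hd; omega :
        (famD (C c4) (C c6) (X : K[X])).natDegree ≠ 0))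
    exact hrne τ hτ (by simp [hR0])
  have hcard : (famD (C c4) (C c6) (X : K[X])).roots.toFinset.card =
      (famD (C c4) (C c6) (X : K[X])).natDegree := by
    rw [Multiset.toFinset_card_of_nodup, IsAlgClosed.card_roots_eq_natDegree]
    refine Multiset.nodup_iff_count_le_one.2 fun τ => ?_
    rw [count_roots]
    by_cases hτ : (famD (C c4) (C c6) (X : K[X])).IsRoot τ
    · rw [(famD_root_simple hd hτ).1]
    · rw [rootMultiplicity_eq_zero hτ]; exact zero_le_one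
  have hdeg := natDegree_le_of_dvd hdvd hM0
  rw [natDegree_prod_of_monic _ _ fun τ _ => (monic_X_sub_C τ).pow 5] at hdeg
  simp only [(monic_X_sub_C _).natDegree_pow, natDegree_X_sub_C, mul_one, Finset.sum_const,
    smul_eq_mul, hcard] at hdeg
  have hUd := natDegree_famC4_le c4 c6 (X : K[X]) natDegree_X_le
  have hMd : (R ^ 2 - 729 * famC4 (C c4) (C c6) X).natDegree ≤ 20 := by
    refine (natDegree_sub_le _ _).trans (max_le (natDegree_pow_le.trans (by omega)) ?_)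
    rw [← C_ofNat]
    exact (natDegree_C_mul_le _ _).trans hUd
  have := five_le_natDegree_famD hd
  omega

end Closed

theorem abs_eval_le (p : ℤ[X]) {d : ℕ} (hd : p.natDegree ≤ d) {s : ℤ} (hs : 1 ≤ s) :
    |p.eval s| ≤ (∑ i ∈ Finset.range (d + 1), |p.coeff i|) * s ^ d := by
  rw [eval_eq_sum_range' (Nat.lt_succ_of_le hd), Finset.sum_mul]
  refine (Finset.abs_sum_le_sum_abs _ _).trans (Finset.sum_le_sum fun i hi => ?_)
  rw [abs_mul, abs_of_nonneg (pow_nonneg (by omega : (0 : ℤ) ≤ s) i)]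
  exact mul_le_mul_of_nonneg_left
    (pow_le_pow_right₀ hs (Nat.lt_succ_iff.1 (Finset.mem_range.1 hi))) (abs_nonneg _)

theorem le_mul_pow_of_le {K a s x : ℤ} {j : ℕ} (hK : 1 ≤ K) (ha : a ≤ K) (hs : 1 ≤ s)
    (hj : j ≠ 0) (hx : x ≤ a * s ^ (10 * j)) : x ≤ (K * s ^ 10) ^ j := by
  rw [mul_pow, ← pow_mul]
  exact hx.trans (mul_le_mul_of_nonneg_right (ha.trans (le_self_pow₀ hK hj))
    (pow_nonneg (by omega) _))

theorem abs_root_le {c4 c6 y m : ℤ} (hm : 1 ≤ m) (h4 : |c4| ≤ m ^ 2) (h6 : |c6| ≤ m ^ 3)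
    (hy : psi3Mon c4 c6 y = 0) : |y| ≤ 1000 * m := by
  by_contra h
  push Not at h
  simp only [psi3Mon] at hy
  have e : y ^ 4 = 486 * c4 * y ^ 2 + 5832 * c6 * y + 19683 * c4 ^ 2 := by linear_combination hy
  have a4 : |y| ^ 4 ≤ 486 * m ^ 2 * |y| ^ 2 + 5832 * m ^ 3 * |y| + 19683 * m ^ 4 := by
    rw [← abs_pow, e]
    refine (abs_add_le _ _).trans (add_le_add ((abs_add_le _ _).trans (add_le_add ?_ ?_)) ?_)
    · rw [abs_mul, abs_mul, abs_pow]
      have : |(486 : ℤ)| = 486 := by norm_num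
      rw [this]; gcongr
    · rw [abs_mul, abs_mul]
      have : |(5832 : ℤ)| = 5832 := by norm_num
      rw [this]; gcongr
    · rw [abs_mul, abs_pow]
      have : |(19683 : ℤ)| = 19683 := by norm_num
      rw [this, show m ^ 4 = (m ^ 2) ^ 2 by ring]; gcongr
  have hpos : 0 < m := by omega
  nlinarith [mul_pos hpos hpos, pow_pos hpos 3, pow_pos hpos 4,
    mul_lt_mul'' h h (by positivity) (by positivity),
    pow_lt_pow_left₀ h (by positivity) (by norm_num : (3 : ℕ) ≠ 0),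
    pow_lt_pow_left₀ h (by positivity) (by norm_num : (4 : ℕ) ≠ 0)]

/-- Truncated power series root of the three-division polynomial. -/
theorem exists_approx_root {c4 c6 y₀ : ℚ} (h0 : psi3Mon c4 c6 y₀ = 0)
    (hs : psi3Slope c4 c6 y₀ y₀ ≠ 0) (k : ℕ) :
    ∃ R : ℚ[X], R.natDegree ≤ k ∧ R.coeff 0 = y₀ ∧ ∀ i ≤ k,
      (psi3Mon (famC4 (C c4) (C c6) X) (famC6 (C c4) (C c6) X) R).coeff i = 0 := by
  set U := famC4 (C c4) (C c6) (X : ℚ[X]) with hU
  set V := famC6 (C c4) (C c6) (X : ℚ[X]) with hV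
  have hU0 : evalRingHom 0 U = c4 := by rw [hU, famC4_map]; simp [famC4_zero]
  have hV0 : evalRingHom 0 V = c6 := by rw [hV, famC6_map]; simp [famC6_zero]
  induction k with
  | zero =>
    refine ⟨C y₀, (natDegree_C _).le, coeff_C_zero, fun i hi => ?_⟩
    obtain rfl : i = 0 := by omega
    rw [coeff_zero_eq_eval_zero, ← coe_evalRingHom, psi3Mon_map, hU0, hV0]
    simpa using h0
  | succ k ih =>
    obtain ⟨R, hd, hR0, hR⟩ := ih
    set p := (psi3Mon U V R).coeff (k + 1)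
    set h : ℚ[X] := C (-p / psi3Slope c4 c6 y₀ y₀) * X ^ (k + 1) with hh
    refine ⟨R + h, (natDegree_add_le _ _).trans
      (max_le (hd.trans k.le_succ) (natDegree_C_mul_X_pow_le _ _)), ?_, fun i hi => ?_⟩
    · simp [hh, hR0, coeff_X_pow]
    have e : psi3Mon U V (R + h) = psi3Mon U V R + h * psi3Slope U V (R + h) R := by
      linear_combination psi3Mon_sub U V (R + h) R
    have hS0 : (psi3Slope U V (R + h) R).coeff 0 = psi3Slope c4 c6 y₀ y₀ := by
      rw [coeff_zero_eq_eval_zero, ← coe_evalRingHom, psi3Slope_map, hU0, hV0, map_add]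
      simp [hh, ← coeff_zero_eq_eval_zero, hR0]
    rw [e, coeff_add, hh, mul_assoc, coeff_C_mul, coeff_X_pow_mul']
    rcases Nat.lt_or_eq_of_le hi with hlt | heq
    · rw [hR i (Nat.lt_succ_iff.1 hlt), if_neg (by omega), mul_zero, add_zero]
    · subst heq
      rw [if_pos le_rfl, Nat.sub_self, hS0, div_mul_cancel₀ _ hs]
      exact add_neg_cancel _

/-- Integer polynomials in a rescaled parameter: the two invariants and a truncated root. -/
theorem exists_scaled_root {c4 c6 y₀ : ℤ} (h0 : psi3Mon c4 c6 y₀ = 0)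
    (hs : psi3Slope c4 c6 y₀ y₀ ≠ 0) :
    ∃ (L : ℤ) (R : ℚ[X]) (Rz : ℤ[X]), L ≠ 0 ∧ R.natDegree ≤ 10 ∧
      Rz.natDegree ≤ 10 ∧ Rz.eval 0 = y₀ ∧
      (X : ℤ[X]) ^ 11 ∣ psi3Mon (famC4 (C c4) (C c6) (C L * X)) (famC6 (C c4) (C c6) (C L * X)) Rz ∧
      (psi3Mon (famC4 (C c4) (C c6) (C L * X)) (famC6 (C c4) (C c6) (C L * X)) Rz = 0 →
        psi3Mon (famC4 (C (c4 : ℚ)) (C (c6 : ℚ)) X) (famC6 (C (c4 : ℚ)) (C (c6 : ℚ)) X) R = 0) := by
  classical
  have hs0 : psi3Slope (c4 : ℚ) (c6 : ℚ) (y₀ : ℚ) (y₀ : ℚ) ≠ 0 := by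
    simp only [psi3Slope] at hs ⊢
    exact_mod_cast hs
  have h0' : psi3Mon (c4 : ℚ) (c6 : ℚ) (y₀ : ℚ) = 0 := by
    simp only [psi3Mon] at h0 ⊢
    exact_mod_cast h0
  obtain ⟨R, hRd, hR0, hR⟩ := exists_approx_root h0' hs0 10
  obtain ⟨⟨L, hLmem⟩, hL⟩ := IsLocalization.exist_integer_multiples_of_finset (nonZeroDivisors ℤ)
    ((Finset.range 11).image R.coeff)
  have hL0 : L ≠ 0 := nonZeroDivisors.ne_zero hLmem
  have hint : ∀ i, ∃ z : ℤ, (L : ℚ) ^ i * R.coeff i = z := by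
    intro i
    rcases i with _ | i
    · exact ⟨y₀, by simpa using hR0⟩
    by_cases hi : i + 1 ≤ 10
    · obtain ⟨z, hz⟩ := hL _ (Finset.mem_image.2 ⟨i + 1, Finset.mem_range.2 (by omega), rfl⟩)
      refine ⟨L ^ i * z, ?_⟩
      simp only [eq_intCast, Algebra.smul_def] at hz
      push_cast
      rw [pow_succ, mul_assoc, hz]
    · exact ⟨0, by rw [coeff_eq_zero_of_natDegree_lt (by omega)]; simp⟩
  choose z hz using hint
  let Rz : ℤ[X] := ∑ i ∈ Finset.range 11, C (z i) * X ^ i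
  have hRz : Rz.map (Int.castRingHom ℚ) = R.comp (C (L : ℚ) * X) := by
    conv_rhs => rw [R.as_sum_range' 11 (Nat.lt_succ_of_le hRd)]
    simp only [Rz, Polynomial.map_sum, sum_comp, monomial_comp, Polynomial.map_mul,
      Polynomial.map_pow, map_C, map_X]
    refine Finset.sum_congr rfl fun i _ => ?_
    rw [mul_pow, ← map_pow, ← mul_assoc, ← map_mul, mul_comm (R.coeff i), hz i]
    rfl
  set Pz := psi3Mon (famC4 (C c4) (C c6) (C L * X)) (famC6 (C c4) (C c6) (C L * X)) Rz with hPz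
  have hPmap : Pz.map (Int.castRingHom ℚ) = (psi3Mon (famC4 (C (c4 : ℚ)) (C (c6 : ℚ)) X)
      (famC6 (C (c4 : ℚ)) (C (c6 : ℚ)) X) R).comp (C (L : ℚ) * X) := by
    change mapRingHom (Int.castRingHom ℚ) Pz = compRingHom (C (L : ℚ) * X) _
    simp only [hPz, psi3Mon_map, famC4_map, famC6_map, coe_mapRingHom, coe_compRingHom_apply,
      map_X, Polynomial.map_mul, X_comp, eq_intCast, hRz, Polynomial.map_intCast, map_intCast]
  refine ⟨L, R, Rz, hL0, hRd, natDegree_sum_le_of_forall_le _ _ fun i hi =>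
    (natDegree_C_mul_X_pow_le _ _).trans (Nat.lt_succ_iff.1 (Finset.mem_range.1 hi)), ?_, ?_, ?_⟩
  · rw [← coeff_zero_eq_eval_zero]
    have := congrArg (fun p => p.coeff 0) hRz
    simp only [coeff_map, comp_C_mul_X_coeff, pow_zero, mul_one, hR0] at this
    exact Int.cast_injective this
  · rw [X_pow_dvd_iff]
    intro i hi
    have hci := congrArg (fun p => p.coeff i) hPmap
    simp only [coeff_map, comp_C_mul_X_coeff, hR i (by omega), zero_mul] at hci
    exact (map_eq_zero_iff (Int.castRingHom ℚ) Int.cast_injective).1 hci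
  · intro hz0
    rw [show Pz = 0 from hz0, Polynomial.map_zero] at hPmap
    refine (comp_eq_zero_iff.1 hPmap.symm).resolve_right fun ⟨_, e⟩ => ?_
    have := congrArg (fun p => p.coeff 1) e
    simp [hL0] at this

/-- An integer root at a large parameter is the value of the truncated root. -/
theorem scaled_root_eq {c4 c6 y₀ : ℤ} {L : ℤ} {Rz : ℤ[X]} {q : ℕ} (hq : q.Prime)
    (h6 : ¬ (q : ℤ) ∣ 6) (hc : ¬ (q : ℤ) ∣ c4) (h5 : (q : ℤ) ^ 5 ∣ c4 ^ 3 - c6 ^ 2)
    (h5' : ¬ (q : ℤ) ^ 6 ∣ c4 ^ 3 - c6 ^ 2) (hy₀ : psi3Mon c4 c6 y₀ = 0)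
    (hdR : Rz.natDegree ≤ 10) (hR0 : Rz.eval 0 = y₀)
    (hP : (X : ℤ[X]) ^ 11 ∣
      psi3Mon (famC4 (C c4) (C c6) (C L * X)) (famC6 (C c4) (C c6) (C L * X)) Rz)
    (b : ℤ) (hb : 1 ≤ b) (hqb : (q : ℤ) ∣ b) :
    ∃ B : ℤ, ∀ n : ℕ, B < (q : ℤ) ^ n → ∀ y : ℤ,
      psi3Mon (famC4 c4 c6 (L * (b * (q : ℤ) ^ n))) (famC6 c4 c6 (L * (b * (q : ℤ) ^ n))) y = 0 →
      (psi3Mon (famC4 (C c4) (C c6) (C L * X)) (famC6 (C c4) (C c6) (C L * X)) Rz).eval
        (b * (q : ℤ) ^ n) = 0 := by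
  have hI := Nat.prime_iff_prime_int.1 hq
  have hLX : (C L * X : ℤ[X]).natDegree ≤ 1 := (natDegree_C_mul_le _ _).trans natDegree_X_le
  have hdU := natDegree_famC4_le c4 c6 (C L * X) hLX
  have hdV := natDegree_famC6_le c4 c6 (C L * X) hLX
  set Uz := famC4 (C c4) (C c6) (C L * X) with hUz
  set Vz := famC6 (C c4) (C c6) (C L * X) with hVz
  set K₁ := ∑ i ∈ Finset.range 21, |Uz.coeff i|
  set K₂ := ∑ i ∈ Finset.range 31, |Vz.coeff i|
  set K₃ := ∑ i ∈ Finset.range 11, |Rz.coeff i|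
  set K := 1 + K₁ + K₂ with hK
  have hK₁ : 0 ≤ K₁ := Finset.sum_nonneg fun i _ => abs_nonneg _
  have hK₂ : 0 ≤ K₂ := Finset.sum_nonneg fun i _ => abs_nonneg _
  refine ⟨(K₃ + 1000 * K) * b ^ 10, fun n hn y hy => ?_⟩
  set s : ℤ := b * (q : ℤ) ^ n with hs
  have hqn : (1 : ℤ) ≤ (q : ℤ) ^ n := one_le_pow₀ (by exact_mod_cast hq.one_lt.le)
  have hs1 : 1 ≤ s := one_le_mul_of_one_le_of_one_le hb hqn
  have hUev : Uz.eval s = famC4 c4 c6 (L * s) := by
    rw [hUz, ← coe_evalRingHom, famC4_map]; simp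
  have hVev : Vz.eval s = famC6 c4 c6 (L * s) := by
    rw [hVz, ← coe_evalRingHom, famC6_map]; simp
  rw [← hUev, ← hVev] at hy
  have hqs : (q : ℤ) ∣ s := hqb.mul_right _
  have hqLs : (q : ℤ) ∣ L * s := hqs.mul_left L
  set r := Rz.eval s with hr
  have hPev : (psi3Mon Uz Vz Rz).eval s = psi3Mon (Uz.eval s) (Vz.eval s) r := by
    simp only [← coe_evalRingHom, psi3Mon_map, hr]
  have hr0 : (q : ℤ) ∣ r - y₀ := by
    have := sub_dvd_eval_sub s 0 Rz
    rw [sub_zero, hR0] at this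
    exact hqs.trans this
  have hUc : (q : ℤ) ∣ Uz.eval s - c4 := by rw [hUev]; exact dvd_famC4_sub hqLs
  have hVc : (q : ℤ) ∣ Vz.eval s - c6 := by rw [hVev]; exact dvd_famC6_sub hqLs
  have hc' : ¬ (q : ℤ) ∣ Uz.eval s := fun h => hc (by simpa using dvd_sub h hUc)
  have hd : c4 ^ 3 - c6 ^ 2 ≠ 0 := fun e => h5' (e ▸ dvd_zero _)
  have h51 : (q : ℤ) ^ 5 ∣ Uz.eval s ^ 3 - Vz.eval s ^ 2 := by
    rw [hUev, hVev, famC4_cube_sub_int hd]; exact h5.mul_right _
  have h52 : ¬ (q : ℤ) ^ 6 ∣ Uz.eval s ^ 3 - Vz.eval s ^ 2 := by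
    rw [hUev, hVev, famC4_cube_sub_int hd]
    intro h
    refine h5' (hI.pow_dvd_of_dvd_mul_right 6 ?_ h)
    intro h'
    exact hI.not_dvd_one (by
      simpa using dvd_sub (hI.dvd_of_dvd_pow h') (dvd_famD_sub (c4 := c4) (c6 := c6) hqLs))
  let π := Ideal.Quotient.mk (Ideal.span {(q : ℤ)})
  have hπ : ∀ {u v : ℤ}, (q : ℤ) ∣ u - v → π u = π v := fun h =>
    Ideal.Quotient.eq.2 (Ideal.mem_span_singleton.2 h)
  have hπ0 : ∀ {u : ℤ}, π u = 0 ↔ (q : ℤ) ∣ u := fun {u} => by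
    rw [Ideal.Quotient.eq_zero_iff_mem, Ideal.mem_span_singleton]
  have hyy₀ : π y = π y₀ := by
    obtain ⟨-, -, e, -⟩ := psi3_root_mod hq h6 hc' h51 h52 hy
    obtain ⟨-, -, e₀, hne₀⟩ := psi3_root_mod hq h6 hc h5 h5' hy₀
    rw [← hπ0, map_sub, map_mul, map_mul, map_mul, map_pow, hπ hUc, hπ hVc] at e
    rw [← hπ0, map_sub, map_mul, map_mul, map_mul, map_pow] at e₀
    refine hπ ((hI.dvd_or_dvd ?_).resolve_left hne₀)
    rw [← hπ0]
    simp only [map_sub, map_mul]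
    linear_combination e - e₀
  have hS : ¬ (q : ℤ) ∣ psi3Slope (Uz.eval s) (Vz.eval s) r y := by
    rw [← hπ0, psi3Slope_map, hπ hUc, hπ hVc, hπ hr0, hyy₀, ← psi3Slope_map, hπ0]
    exact (psi3_root_mod hq h6 hc h5 h5' hy₀).2.1
  obtain ⟨Q, hQ⟩ := hP
  have hdvd : (q : ℤ) ^ (11 * n) ∣ r - y := by
    refine hI.pow_dvd_of_dvd_mul_right _ hS ?_
    rw [← psi3Mon_sub, hy, sub_zero, ← hPev, hQ, eval_mul, eval_pow, eval_X, mul_comm 11 n,
      pow_mul]
    exact ((pow_dvd_pow_of_dvd (dvd_mul_left ((q : ℤ) ^ n) b) 11)).mul_right _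
  have hK1 : 1 ≤ K := by omega
  have hm1 : 1 ≤ K * s ^ 10 := one_le_mul_of_one_le_of_one_le hK1 (one_le_pow₀ hs1)
  have hUb : |Uz.eval s| ≤ (K * s ^ 10) ^ 2 :=
    le_mul_pow_of_le (a := K₁) hK1 (by omega) hs1 two_ne_zero (abs_eval_le Uz hdU hs1)
  have hVb : |Vz.eval s| ≤ (K * s ^ 10) ^ 3 :=
    le_mul_pow_of_le (a := K₂) hK1 (by omega) hs1 three_ne_zero (abs_eval_le Vz hdV hs1)
  have hyb := abs_root_le hm1 hUb hVb hy
  have hrb : |r| ≤ K₃ * s ^ 10 := abs_eval_le Rz hdR hs1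
  have hlt : |r - y| < (q : ℤ) ^ (11 * n) := by
    refine lt_of_le_of_lt ((abs_sub _ _).trans (add_le_add hrb hyb)) ?_
    have h10 : (0 : ℤ) < ((q : ℤ) ^ n) ^ 10 := pow_pos (by omega) 10
    calc K₃ * s ^ 10 + 1000 * (K * s ^ 10)
        = (K₃ + 1000 * K) * b ^ 10 * ((q : ℤ) ^ n) ^ 10 := by rw [hs]; ring
      _ < (q : ℤ) ^ n * ((q : ℤ) ^ n) ^ 10 := mul_lt_mul_of_pos_right hn h10
      _ = (q : ℤ) ^ (11 * n) := by rw [← pow_succ', ← pow_mul]; congr 1; ring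
  have hry : r = y := sub_eq_zero.1 (Int.eq_zero_of_abs_lt_dvd hdvd hlt)
  rw [hPev, hry, hy]

/-- Some member of the family of `W` has irreducible mod 3 representation, when the discriminant
of `W` has a prime to the fifth power. -/
theorem exists_member_irreducible (W : WeierstrassCurve ℤ) (hΔ : W.Δ ≠ 0)
    (hW : W.IsSemistableModel) {q : ℕ} (hq : q.Prime) (h6 : ¬ (q : ℤ) ∣ 6)
    (h5 : (q : ℤ) ^ 5 ∣ W.Δ) (h5' : ¬ (q : ℤ) ^ 6 ∣ W.Δ) (hred : ¬ W.ModRepIsIrreducible 3) :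
    ∃ t : ℤ, familyBase W ∣ t ∧ (member W t).ModRepIsIrreducible 3 := by
  classical
  have hI := Nat.prime_iff_prime_int.1 hq
  have hqΔ : (q : ℤ) ∣ W.Δ := (dvd_pow_self _ (by norm_num)).trans h5
  have hc : ¬ (q : ℤ) ∣ W.c₄ := hW q hq hqΔ
  have h51 : (q : ℤ) ^ 5 ∣ W.c₄ ^ 3 - W.c₆ ^ 2 := by rw [← W.c_relation]; exact h5.mul_left _
  have h52 : ¬ (q : ℤ) ^ 6 ∣ W.c₄ ^ 3 - W.c₆ ^ 2 := by
    rw [← W.c_relation]
    refine fun h => h5' (hI.pow_dvd_of_dvd_mul_left 6 (fun h' => ?_) h)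
    exact h6 ((prime_five_le hq h6 6 3 1 (by norm_num at h' ⊢; exact h')).trans (one_dvd _))
  obtain ⟨y₀, hy₀⟩ := exists_psi3Mon_root W hΔ hred
  obtain ⟨-, hslope, -, -⟩ := psi3_root_mod hq h6 hc h51 h52 hy₀
  obtain ⟨L, R, Rz, -, hRd, hdR, hR0, hP, hPz0⟩ :=
    exists_scaled_root hy₀ fun e => hslope (e ▸ dvd_zero _)
  have hbne : familyBase W ≠ 0 := by simp [familyBase, hΔ]
  set b : ℤ := |familyBase W| with hbdef
  have hb1 : 1 ≤ b := Int.one_le_abs hbne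
  have hqb : (q : ℤ) ∣ b := (dvd_abs _ _).2 ((hqΔ.mul_left 30).mul_left _)
  obtain ⟨B, hB⟩ := scaled_root_eq hq h6 hc h51 h52 hy₀ hdR hR0 hP b hb1 hqb
  by_contra hall
  push Not at hall
  set Pz := psi3Mon (famC4 (C W.c₄) (C W.c₆) (C L * X)) (famC6 (C W.c₄) (C W.c₆) (C L * X)) Rz
  have hPz : Pz = 0 := by
    by_contra hne
    obtain ⟨n₀, hn₀⟩ := pow_unbounded_of_one_lt B
      (show (1 : ℤ) < q by exact_mod_cast hq.one_lt)
    refine (Set.infinite_range_of_injective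
      (f := fun k : ℕ => b * (q : ℤ) ^ (n₀ + k)) ?_).mono (t := {x | Pz.IsRoot x}) ?_
      (Pz.finite_setOfPred_isRoot hne)
    · intro k k' e
      have e' := mul_left_cancel₀ (by omega : b ≠ 0) e
      have := Nat.pow_right_injective hq.two_le (by exact_mod_cast e')
      omega
    · rintro x ⟨k, rfl⟩
      have hbase : familyBase W ∣ L * (b * (q : ℤ) ^ (n₀ + k)) :=
        (((dvd_abs _ _).2 dvd_rfl).mul_right _).mul_left L
      obtain ⟨y, hy⟩ := exists_psi3Mon_root _ (member_semistable hΔ hW hbase).1 (hall _ hbase)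
      have h41 : (41472 : ℤ) ∣ L * (b * (q : ℤ) ^ (n₀ + k)) := (dvd_mul_right _ _).trans hbase
      rw [member_c₄ h41, member_c₆ h41] at hy
      exact hB _ (hn₀.trans_le (pow_le_pow_right₀ (by exact_mod_cast hq.one_lt.le) (by omega))) y hy
  let g := algebraMap ℚ (AlgebraicClosure ℚ)
  have := congrArg (mapRingHom g) (hPz0 hPz)
  rw [map_zero, psi3Mon_map, famC4_map, famC6_map] at this
  simp only [coe_mapRingHom, map_X, map_intCast] at this
  refine no_polynomial_root (K := AlgebraicClosure ℚ) (c4 := (W.c₄ : AlgebraicClosure ℚ))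
    (c6 := (W.c₆ : AlgebraicClosure ℚ)) ?_ (R.map g) (natDegree_map_le.trans hRd) this
  have hne : ((W.c₄ ^ 3 - W.c₆ ^ 2 : ℤ) : AlgebraicClosure ℚ) ≠ 0 :=
    Int.cast_ne_zero.2 fun e => h52 (by rw [e]; exact dvd_zero _)
  push_cast at hne
  exact hne

end FLTAgent.Switch35
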