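import Fermat.Agent.Switch35.Short
import Fermat.Agent.Switch35.FormsThm
import Mathlib.Algebra.Polynomial.Derivative
import Mathlib.Algebra.Polynomial.Roots
import Mathlib.Tactic.ComputeDegree

/-!
# Points of order five in Tate normal form coordinates

For `y ^ 2 = x ^ 3 + a x + b`: the five-division polynomial `psi5`, the relation `FiveRel`,
the Tate coordinates `tateA`, `tateB` of a point of order five and the converse
`IsShort.five_zsmul_tate`; `psi5` has twelve simple roots (`IsShort.card_psi5_roots`).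
-/

set_option autoImplicit false

open WeierstrassCurve Polynomial

namespace FLTAgent.Switch35

section Defs

variable {L : Type*} [Field L]

/-- Slope of the tangent at `(x, y)`. -/
def tangentSlope (a x y : L) : L := (3 * x ^ 2 + a) / (2 * y)

/-- `x - x(2 P)`. -/
def dblDiff (a x y : L) : L := 3 * x - tangentSlope a x y ^ 2

/-- The first Tate coordinate of a point of order five. -/
def tateA (a x y : L) : L := -(dblDiff a x y ^ 2) / (12 * y)

/-- The second Tate coordinate of a point of order five. -/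
def tateB (a x y : L) : L := y / (3 * dblDiff a x y)

theorem tateA_map {M : Type*} [Field M] (f : L →+* M) (a x y : L) :
    f (tateA a x y) = tateA (f a) (f x) (f y) := by
  simp [tateA, dblDiff, tangentSlope, map_ofNat]

theorem tateB_map {M : Type*} [Field M] (f : L →+* M) (a x y : L) :
    f (tateB a x y) = tateB (f a) (f x) (f y) := by
  simp [tateB, dblDiff, tangentSlope, map_ofNat]

theorem tateA_neg (a x y : L) : tateA a x (-y) = -tateA a x y := by
  simp [tateA, dblDiff, tangentSlope, div_neg, mul_neg]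

theorem tateB_neg (a x y : L) : tateB a x (-y) = -tateB a x y := by
  simp [tateB, dblDiff, tangentSlope, neg_div, div_neg, mul_neg]

end Defs

section Ring

variable {R : Type*} [CommRing R]

/-- `x`-coordinate of the marked point. -/
def tatePx (A B : R) : R := 3 * ((B - A) ^ 2 - 4 * (A * B))

/-- `y`-coordinate of the marked point. -/
def tatePy (A B : R) : R := -(108 * (A * B ^ 2))

theorem tatePx_neg (A B : R) : tatePx (-A) (-B) = tatePx A B := by
  simp only [tatePx]; ring

theorem tatePy_neg (A B : R) : tatePy (-A) (-B) = -tatePy A B := by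
  simp only [tatePy]; ring

theorem tatePx_map {S : Type*} [CommRing S] (f : R →+* S) (A B : R) :
    f (tatePx A B) = tatePx (f A) (f B) := by
  simp [tatePx, map_ofNat]

theorem tatePy_map {S : Type*} [CommRing S] (f : R →+* S) (A B : R) :
    f (tatePy A B) = tatePy (f A) (f B) := by
  simp [tatePy, map_ofNat]

/-- The five-division polynomial of `y ^ 2 = x ^ 3 + a x + b`, up to sign. -/
def psi5 (a b x : R) : R :=
  -5 * x ^ 12 - 62 * a * x ^ 10 - 380 * b * x ^ 9 + 105 * a ^ 2 * x ^ 8 - 240 * a * b * x ^ 7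
    + (300 * a ^ 3 + 240 * b ^ 2) * x ^ 6 + 696 * a ^ 2 * b * x ^ 5
    + (125 * a ^ 4 + 1920 * a * b ^ 2) * x ^ 4 + (80 * a ^ 3 * b + 1600 * b ^ 3) * x ^ 3
    + (50 * a ^ 5 + 240 * a ^ 2 * b ^ 2) * x ^ 2 + (100 * a ^ 4 * b + 640 * a * b ^ 3) * x
    + (-a ^ 6 + 32 * a ^ 3 * b ^ 2 + 256 * b ^ 4)

theorem psi5_map {S : Type*} [CommRing S] (f : R →+* S) (a b x : R) :
    f (psi5 a b x) = psi5 (f a) (f b) (f x) := by
  simp [psi5, map_ofNat]

theorem psi5_eq (a b x : R) :
    psi5 a b x = (12 * x * (x ^ 3 + a * x + b) - (3 * x ^ 2 + a) ^ 2) ^ 3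
      - 32 * (3 * x ^ 2 + a) * (12 * x * (x ^ 3 + a * x + b) - (3 * x ^ 2 + a) ^ 2)
        * (x ^ 3 + a * x + b) ^ 2
      + 256 * (x ^ 3 + a * x + b) ^ 4 := by
  simp only [psi5]; ring

end Ring

section Field

variable {L : Type*} [Field L] {E : WeierstrassCurve.Affine L} {a b : L}

theorem tatePoint_equation {A B : L} :
    tatePy A B ^ 2 = rhs (-27 * tateC4 A B) (-54 * tateC6 A B) (tatePx A B) := by
  simp only [tatePy, tatePx, rhs, tateC4_eq, tateC6_eq]; ring

/-- The relation expressing `5 P = 0`. -/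
def FiveRel (a x y : L) : Prop :=
  2 * tangentSlope a x y * dblDiff a x y * (2 * y) = (2 * y) ^ 2 + dblDiff a x y ^ 3

theorem psi5_eq_zero_iff (h2 : (2 : L) ≠ 0) {x y : L} (hy : y ^ 2 = rhs a b x) (hy0 : y ≠ 0) :
    psi5 a b x = 0 ↔ FiveRel a x y := by
  have h4 : (4 : L) * y ^ 2 ≠ 0 := by
    have := mul_ne_zero (mul_ne_zero h2 h2) (pow_ne_zero 2 hy0)
    convert this using 1; ring
  have hd : dblDiff a x y * (4 * y ^ 2) =
      12 * x * rhs a b x - (3 * x ^ 2 + a) ^ 2 := by
    rw [dblDiff, tangentSlope, ← hy]; field_simp; ring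
  have hs : 2 * tangentSlope a x y * (2 * y) = 2 * (3 * x ^ 2 + a) := by
    rw [tangentSlope]; field_simp
  have e : psi5 a b x = (4 * y ^ 2) ^ 3 * ((2 * y) ^ 2 + dblDiff a x y ^ 3 -
      2 * tangentSlope a x y * dblDiff a x y * (2 * y)) := by
    rw [psi5_eq, show x ^ 3 + a * x + b = rhs a b x from rfl, ← hd, ← hy,
      show 2 * tangentSlope a x y * dblDiff a x y * (2 * y) =
        dblDiff a x y * (2 * tangentSlope a x y * (2 * y)) by ring, hs]
    ring
  rw [e, FiveRel, mul_eq_zero, or_iff_right (pow_ne_zero 3 h4), sub_eq_zero, eq_comm]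

theorem tate_of_fiveRel (h2 : (2 : L) ≠ 0) (h3 : (3 : L) ≠ 0) {x y : L} (hy : y ^ 2 = rhs a b x)
    (hy0 : y ≠ 0) (hd : dblDiff a x y ≠ 0) (hR : FiveRel a x y) :
    tateA a x y ≠ 0 ∧ tateB a x y ≠ 0 ∧ x = tatePx (tateA a x y) (tateB a x y) ∧
      y = tatePy (tateA a x y) (tateB a x y) ∧
      a = -27 * tateC4 (tateA a x y) (tateB a x y) ∧
      b = -54 * tateC6 (tateA a x y) (tateB a x y) := by
  have h12 : (12 : L) ≠ 0 := by
    have := mul_ne_zero (mul_ne_zero h2 h2) h3
    convert this using 1; ring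
  set A := tateA a x y with hA
  set B := tateB a x y with hB
  set d := dblDiff a x y with hdd
  set s := tangentSlope a x y with hs
  have eA : A * (12 * y) = -d ^ 2 := by
    rw [hA, tateA, div_mul_cancel₀]; exact mul_ne_zero h12 hy0
  have eB : B * (3 * d) = y := by
    rw [hB, tateB, div_mul_cancel₀]; exact mul_ne_zero h3 hd
  have hA0 : A ≠ 0 := fun h => by
    rw [h, zero_mul] at eA
    exact pow_ne_zero 2 hd (neg_eq_zero.1 eA.symm)
  have hB0 : B ≠ 0 := fun h => hy0 (by rw [← eB, h, zero_mul])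
  have ed : d = -36 * (A * B) := by
    refine mul_left_cancel₀ hd ?_
    linear_combination eA + 12 * A * eB
  have ey : y = tatePy A B := by
    rw [tatePy, ← eB, ed]; ring
  have es : s = 3 * (B - A) := by
    have : (2 * 2) * (d * y) ≠ 0 := mul_ne_zero (mul_ne_zero h2 h2) (mul_ne_zero hd hy0)
    refine mul_left_cancel₀ this ?_
    rw [FiveRel] at hR
    linear_combination hR - 4 * y * eB + d * eA
  have ex : x = tatePx A B := by
    refine mul_left_cancel₀ h3 ?_
    have : d = 3 * x - s ^ 2 := rfl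
    rw [ed, es] at this
    rw [tatePx]
    linear_combination -this
  have ea : a = -27 * tateC4 A B := by
    have : s * (2 * y) = 3 * x ^ 2 + a := by
      rw [hs, tangentSlope, div_mul_cancel₀]; exact mul_ne_zero h2 hy0
    rw [es, ey, ex] at this
    rw [tateC4_eq]
    simp only [tatePx, tatePy] at this
    linear_combination -this
  refine ⟨hA0, hB0, ex, ey, ea, ?_⟩
  have e1 := hy
  rw [ey, ex, tatePoint_equation, ea] at e1
  simp only [rhs] at e1
  linear_combination -e1

variable [DecidableEq L]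

/-- A point of order five yields Tate coordinates. -/
theorem IsShort.fiveRel_of_five (h : IsShort E a b) {x y : L} (hP : E.Nonsingular x y)
    (h5 : (5 : ℤ) • Affine.Point.some x y hP = 0) :
    y ≠ 0 ∧ dblDiff a x y ≠ 0 ∧ FiveRel a x y := by
  set P := Affine.Point.some x y hP with hPdef
  have hPne : P ≠ 0 := Affine.Point.some_ne_zero hP
  have hy : y ≠ 0 := by
    intro hy
    have : P + P = 0 := Affine.Point.add_self_of_Y_eq (by rw [h.negY, hy, neg_zero])
    refine hPne ?_
    calc P = (5 : ℤ) • P - (2 : ℤ) • (P + P) := by module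
      _ = 0 := by rw [h5, this, smul_zero, sub_zero]
  obtain ⟨x₂, y₂, hP2, e2, ex2, ey2⟩ := h.add_self hP hy
  rw [← hPdef] at e2
  have hxne : x₂ ≠ x := by
    intro e
    subst e
    rcases h.eq_or_neg_of_x_eq hP hP2 with e' | e'
    · subst e'
      refine hPne ?_
      calc P = (P + P) - P := by abel
        _ = 0 := by rw [e2, hPdef, sub_self]
    · subst e'
      have h3P : P + P = -P := by rw [e2, hPdef, h.neg_some hP]
      refine hPne ?_
      calc P = (2 : ℤ) • ((P + P) - -P) - (5 : ℤ) • P := by module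
        _ = 0 := by rw [h5, h3P, sub_self, smul_zero, sub_zero]
  obtain ⟨x₃, y₃, hP3, e3, ex3, -⟩ := h.add_of_ne hP2 hP hxne
  rw [← e2, ← hPdef] at e3
  have h23 : Affine.Point.some x₃ y₃ hP3 = -Affine.Point.some x₂ y₂ hP2 := by
    rw [← e3, ← e2]
    calc P + P + P = (5 : ℤ) • P - (P + P) := by module
      _ = -(P + P) := by rw [h5, zero_sub]
  rw [h.neg_some hP2] at h23
  simp only [Affine.Point.some.injEq] at h23
  have hx23 := h23.1
  set s := tangentSlope a x y with hs
  have hd : dblDiff a x y = x - x₂ := by rw [dblDiff, ex2, tangentSlope]; ring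
  have hd0 : dblDiff a x y ≠ 0 := hd ▸ sub_ne_zero.2 (Ne.symm hxne)
  refine ⟨hy, hd0, ?_⟩
  rw [FiveRel]
  have hx2' : x₂ = x - dblDiff a x y := by rw [hd]; ring
  have hy2' : y₂ = s * dblDiff a x y - y := by
    rw [ey2, hx2']; simp only [hs, tangentSlope]; ring
  rw [ex3, hy2', hx2'] at hx23
  generalize hD : dblDiff a x y = d at hx23 hd0 ⊢
  have hsq : s ^ 2 = 3 * x - d := by rw [← hD, dblDiff, hs]; ring
  rw [show x - d - x = -d by ring] at hx23
  field_simp at hx23
  linear_combination -hx23 + d ^ 2 * hsq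

/-- The marked point of a curve in Tate coordinates has order five. -/
theorem IsShort.five_zsmul_tate (h : IsShort E a b) (h3 : (3 : L) ≠ 0) {A B : L} (hA : A ≠ 0)
    (hB : B ≠ 0) (ha : a = -27 * tateC4 A B) {x y : L} (hP : E.Nonsingular x y)
    (hx : x = tatePx A B) (hy : y = tatePy A B) :
    (5 : ℤ) • Affine.Point.some x y hP = 0 := by
  have h2 := h.two
  have h108 : (108 : L) ≠ 0 := by
    have := mul_ne_zero (mul_ne_zero h2 h2) (pow_ne_zero 3 h3)
    convert this using 1; ring
  have hy0 : y ≠ 0 := by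
    rw [hy, tatePy]
    exact neg_ne_zero.2 (mul_ne_zero h108 (mul_ne_zero hA (pow_ne_zero 2 hB)))
  have hs : tangentSlope a x y = 3 * (B - A) := by
    rw [tangentSlope, div_eq_iff (mul_ne_zero h2 hy0), ha, hx, hy, tatePx, tatePy, tateC4_eq]
    ring
  set P := Affine.Point.some x y hP with hPdef
  obtain ⟨x₂, y₂, hP2, e2, ex2, ey2⟩ := h.add_self hP hy0
  rw [← hPdef] at e2
  rw [show (3 * x ^ 2 + a) / (2 * y) = 3 * (B - A) from hs] at ex2 ey2
  have hxne : x₂ ≠ x := by
    intro e
    have : (2 * 2) * 3 ^ 2 * (A * B) = 0 := by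
      rw [e, hx, tatePx] at ex2
      linear_combination -ex2
    exact mul_ne_zero (mul_ne_zero (mul_ne_zero h2 h2) (pow_ne_zero 2 h3)) (mul_ne_zero hA hB) this
  obtain ⟨x₃, y₃, hP3, e3, ex3, -⟩ := h.add_of_ne hP2 hP hxne
  rw [← e2, ← hPdef] at e3
  have hx32 : x₃ = x₂ := by
    have : (y₂ - y) / (x₂ - x) = 3 * A + 3 * B := by
      rw [div_eq_iff (sub_ne_zero.2 hxne), ey2, ex2, hx, hy, tatePx, tatePy]
      ring
    rw [ex3, this, ex2, hx, tatePx]
    ring
  subst hx32
  rcases h.eq_or_neg_of_x_eq hP2 hP3 with e' | e'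
  · subst e'
    exfalso
    refine Affine.Point.some_ne_zero hP ?_
    rw [← hPdef]
    calc P = (P + P + P) - (P + P) := by abel
      _ = 0 := by rw [e3, e2, sub_self]
  · subst e'
    have h23 : P + P + P = -(P + P) := by rw [e3, e2, h.neg_some hP2]
    calc (5 : ℤ) • P = (P + P + P) - -(P + P) := by module
      _ = 0 := by rw [h23, sub_self]

end Field

section Roots

variable {L : Type*} [Field L] {E : WeierstrassCurve.Affine L} {a b : L}

/-- The five-division polynomial as a polynomial in `x`. -/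
noncomputable def psi5Poly (a b : L) : L[X] := psi5 (C a) (C b) X

theorem psi5Poly_eval (a b x : L) : (psi5Poly a b).eval x = psi5 a b x := by
  rw [psi5Poly, ← coe_evalRingHom, psi5_map]; simp

theorem psi5Poly_natDegree_le (a b : L) : (psi5Poly a b).natDegree ≤ 12 := by
  simp only [psi5Poly, psi5]
  compute_degree

theorem psi5Poly_coeff (a b : L) : (psi5Poly a b).coeff 12 = -5 := by
  simp only [psi5Poly, psi5]
  compute_degree!
  rw [← map_pow, coeff_C, if_neg (by norm_num)]

theorem psi5Poly_ne_zero (h5 : (5 : L) ≠ 0) (a b : L) : psi5Poly a b ≠ 0 := by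
  intro h
  have hc := psi5Poly_coeff a b
  rw [h, coeff_zero] at hc
  exact neg_ne_zero.2 h5 hc.symm

theorem psi5Poly_derivative_eval (A B : L) :
    (derivative (psi5Poly (-27 * tateC4 A B) (-54 * tateC6 A B))).eval (tatePx A B) =
      2 ^ 22 * 3 ^ 22 * 5 * (A ^ 9 * B ^ 13) := by
  simp only [psi5Poly, psi5, tateC4_eq, tateC6_eq]
  simp [derivative_pow, tatePx, map_ofNat]
  ring

/-- Every root of `psi5` gives points of order five. -/
theorem IsShort.fiveRel_of_psi5 (h : IsShort E a b) {x y : L} (hy : y ^ 2 = rhs a b x)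
    (hr : psi5 a b x = 0) : y ≠ 0 ∧ dblDiff a x y ≠ 0 ∧ FiveRel a x y := by
  have h2 := h.two
  have hy0 : y ≠ 0 := by
    intro hy0
    have hY : rhs a b x = 0 := by rw [← hy, hy0]; ring
    refine h.deriv_ne_zero hY ?_
    rw [psi5_eq, show x ^ 3 + a * x + b = rhs a b x from rfl, hY] at hr
    have : (3 * x ^ 2 + a) ^ 6 = 0 := by linear_combination -hr
    exact eq_zero_of_pow_eq_zero this
  have hR := (psi5_eq_zero_iff h2 hy hy0).1 hr
  refine ⟨hy0, fun hd => ?_, hR⟩
  rw [FiveRel, hd] at hR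
  exact pow_ne_zero 2 (mul_ne_zero h2 hy0) (by linear_combination -hR)

variable [IsAlgClosed L]

open scoped Classical in
theorem IsShort.card_psi5_roots (h : IsShort E a b) (h3 : (3 : L) ≠ 0) (h5 : (5 : L) ≠ 0) :
    (psi5Poly a b).natDegree = 12 ∧ (psi5Poly a b).roots.Nodup ∧
      (psi5Poly a b).roots.card = 12 := by
  have hne := psi5Poly_ne_zero h5 a b
  have hdeg : (psi5Poly a b).natDegree = 12 := by
    refine le_antisymm (psi5Poly_natDegree_le a b) (le_natDegree_of_ne_zero ?_)
    have hc := psi5Poly_coeff a b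
    rw [hc]; exact neg_ne_zero.2 h5
  refine ⟨hdeg, ?_, by rw [← hdeg]; exact IsAlgClosed.card_roots_eq_natDegree⟩
  rw [Multiset.nodup_iff_count_le_one]
  intro x
  rw [count_roots]
  by_contra hlt
  push Not at hlt
  obtain ⟨hroot, hder⟩ := (one_lt_rootMultiplicity_iff_isRoot hne).1 hlt
  obtain ⟨y, hy⟩ := IsAlgClosed.exists_pow_nat_eq (rhs a b x) (n := 2) two_pos
  rw [IsRoot, psi5Poly_eval] at hroot
  obtain ⟨hy0, hd, hR⟩ := h.fiveRel_of_psi5 hy hroot
  obtain ⟨hA, hB, hx, -, ha, hb⟩ := tate_of_fiveRel h.two h3 hy hy0 hd hR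
  generalize tateA a x y = A at hA hx ha hb
  generalize tateB a x y = B at hB hx ha hb
  subst hx ha hb
  rw [IsRoot, psi5Poly_derivative_eval] at hder
  simp [h.two, h3, h5, hA, hB] at hder

end Roots

end FLTAgent.Switch35
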