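import Fermat.Agent.Switch35.Torsion5
import Mathlib.FieldTheory.RatFunc.AsPolynomial

/-!
# Transfer of the five-torsion along the family

For a point `P` of order five of `E : y² = x³ - 27 c4 x - 54 c6` with Tate coordinates `(A, B)`,
the point with Tate coordinates `(famA A B t, famB A B t)` lies on the curve with invariants
`famC4 c4 c6 t`, `famC6 c4 c6 t`. This map `transPt` is additive (`transPt_add`): over `K(X)` its
image is the whole five-torsion, and the sum is then determined by specialising at `0`.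
-/

set_option autoImplicit false

open WeierstrassCurve Polynomial

namespace FLTAgent.Switch35

section Maps

variable {R S : Type*} [CommRing R] [CommRing S] (φ : R →+* S)

theorem comp_env3 (a b t : R) : φ ∘ env3 a b t = env3 (φ a) (φ b) (φ t) := by
  funext i
  rcases i with _ | _ | _ <;> rfl

theorem famA_map (a b t : R) : φ (famA a b t) = famA (φ a) (φ b) (φ t) := by
  rw [famA, famA, Px.map_ev, comp_env3]

theorem famB_map (a b t : R) : φ (famB a b t) = famB (φ a) (φ b) (φ t) := by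
  rw [famB, famB, Px.map_ev, comp_env3]

theorem famC4_map (a b t : R) : φ (famC4 a b t) = famC4 (φ a) (φ b) (φ t) := by
  rw [famC4, famC4, Px.map_ev, comp_env3]

theorem famC6_map (a b t : R) : φ (famC6 a b t) = famC6 (φ a) (φ b) (φ t) := by
  rw [famC6, famC6, Px.map_ev, comp_env3]

theorem famD_map (a b t : R) : φ (famD a b t) = famD (φ a) (φ b) (φ t) := by
  rw [famD, famD, Px.map_ev, comp_env3]

theorem tateC4_map (a b : R) : φ (tateC4 a b) = tateC4 (φ a) (φ b) := by
  simp [tateC4_eq, map_ofNat]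

theorem tateC6_map (a b : R) : φ (tateC6 a b) = tateC6 (φ a) (φ b) := by
  simp [tateC6_eq, map_ofNat]

end Maps

/-- The coefficient `a` of the family. -/
def famCoeffA {R : Type*} [CommRing R] (c4 c6 t : R) : R := -27 * famC4 c4 c6 t

/-- The coefficient `b` of the family. -/
def famCoeffB {R : Type*} [CommRing R] (c4 c6 t : R) : R := -54 * famC6 c4 c6 t

theorem famCoeffA_map {R S : Type*} [CommRing R] [CommRing S] (φ : R →+* S) (c4 c6 t : R) :
    φ (famCoeffA c4 c6 t) = famCoeffA (φ c4) (φ c6) (φ t) := by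
  simp [famCoeffA, famC4_map, map_ofNat]

theorem famCoeffB_map {R S : Type*} [CommRing R] [CommRing S] (φ : R →+* S) (c4 c6 t : R) :
    φ (famCoeffB c4 c6 t) = famCoeffB (φ c4) (φ c6) (φ t) := by
  simp [famCoeffB, famC6_map, map_ofNat]

section Field

variable {K : Type*} [Field K]

/-- `x`-coordinate of the transferred point. -/
def transX (c4 t x y : K) : K :=
  tatePx (famA (tateA (-27 * c4) x y) (tateB (-27 * c4) x y) t)
    (famB (tateA (-27 * c4) x y) (tateB (-27 * c4) x y) t)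

/-- `y`-coordinate of the transferred point. -/
def transY (c4 t x y : K) : K :=
  tatePy (famA (tateA (-27 * c4) x y) (tateB (-27 * c4) x y) t)
    (famB (tateA (-27 * c4) x y) (tateB (-27 * c4) x y) t)

/-- `transX` as a polynomial in the parameter. -/
noncomputable def transXPoly (c4 x y : K) : K[X] :=
  tatePx (famA (C (tateA (-27 * c4) x y)) (C (tateB (-27 * c4) x y)) X)
    (famB (C (tateA (-27 * c4) x y)) (C (tateB (-27 * c4) x y)) X)

/-- `transY` as a polynomial in the parameter. -/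
noncomputable def transYPoly (c4 x y : K) : K[X] :=
  tatePy (famA (C (tateA (-27 * c4) x y)) (C (tateB (-27 * c4) x y)) X)
    (famB (C (tateA (-27 * c4) x y)) (C (tateB (-27 * c4) x y)) X)

theorem transXPoly_eval (c4 x y t : K) : (transXPoly c4 x y).eval t = transX c4 t x y := by
  rw [transXPoly, ← coe_evalRingHom, tatePx_map, famA_map, famB_map]
  simp [transX]

theorem transYPoly_eval (c4 x y t : K) : (transYPoly c4 x y).eval t = transY c4 t x y := by
  rw [transYPoly, ← coe_evalRingHom, tatePy_map, famA_map, famB_map]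
  simp [transY]

theorem transX_neg (c4 t x y : K) : transX c4 t x (-y) = transX c4 t x y := by
  rw [transX, transX, tateA_neg, tateB_neg, famA_neg, famB_neg, tatePx_neg]

theorem transY_neg (c4 t x y : K) : transY c4 t x (-y) = -transY c4 t x y := by
  rw [transY, transY, tateA_neg, tateB_neg, famA_neg, famB_neg, tatePy_neg]

theorem transXPoly_neg (c4 x y : K) : transXPoly c4 x (-y) = transXPoly c4 x y := by
  rw [transXPoly, transXPoly, tateA_neg, tateB_neg, map_neg, map_neg, famA_neg, famB_neg,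
    tatePx_neg]

theorem transYPoly_neg (c4 x y : K) : transYPoly c4 x (-y) = -transYPoly c4 x y := by
  rw [transYPoly, transYPoly, tateA_neg, tateB_neg, map_neg, map_neg, famA_neg, famB_neg,
    tatePy_neg]

theorem transX_map {M : Type*} [Field M] (φ : K →+* M) (c4 t x y : K) :
    φ (transX c4 t x y) = transX (φ c4) (φ t) (φ x) (φ y) := by
  simp [transX, tatePx_map, famA_map, famB_map, tateA_map, tateB_map, map_ofNat]

theorem transY_map {M : Type*} [Field M] (φ : K →+* M) (c4 t x y : K) :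
    φ (transY c4 t x y) = transY (φ c4) (φ t) (φ x) (φ y) := by
  simp [transY, tatePy_map, famA_map, famB_map, tateA_map, tateB_map, map_ofNat]

variable {c4 c6 : K}

/-- `(x, y)` is a point of order five. -/
def IsFive (c4 c6 x y : K) : Prop :=
  tateA (-27 * c4) x y ≠ 0 ∧ tateB (-27 * c4) x y ≠ 0 ∧
    x = tatePx (tateA (-27 * c4) x y) (tateB (-27 * c4) x y) ∧
    y = tatePy (tateA (-27 * c4) x y) (tateB (-27 * c4) x y) ∧
    c4 = tateC4 (tateA (-27 * c4) x y) (tateB (-27 * c4) x y) ∧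
    c6 = tateC6 (tateA (-27 * c4) x y) (tateB (-27 * c4) x y)

theorem IsFive.mk' (h2 : (2 : K) ≠ 0) (h3 : (3 : K) ≠ 0) {x y : K}
    (hy : y ^ 2 = rhs (-27 * c4) (-54 * c6) x)
    (h : y ≠ 0 ∧ dblDiff (-27 * c4) x y ≠ 0 ∧ FiveRel (-27 * c4) x y) : IsFive c4 c6 x y := by
  obtain ⟨hA, hB, hx, hy', ha, hb⟩ := tate_of_fiveRel h2 h3 hy h.1 h.2.1 h.2.2
  refine ⟨hA, hB, hx, hy', ?_, ?_⟩
  · refine mul_left_cancel₀ ?_ ha
    exact neg_ne_zero.2 (by convert pow_ne_zero 3 h3 using 1; ring)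
  · refine mul_left_cancel₀ ?_ hb
    exact neg_ne_zero.2 (by convert mul_ne_zero h2 (pow_ne_zero 3 h3) using 1; ring)

theorem famCoeff_disc (c4 c6 t : K) :
    4 * famCoeffA c4 c6 t ^ 3 + 27 * famCoeffB c4 c6 t ^ 2 =
      -78732 * (famC4 c4 c6 t ^ 3 - famC6 c4 c6 t ^ 2) := by
  simp only [famCoeffA, famCoeffB]; ring

theorem IsFive.fam_ne_zero {x y : K} (h : IsFive c4 c6 x y) {t : K}
    (hd : 4 * famCoeffA c4 c6 t ^ 3 + 27 * famCoeffB c4 c6 t ^ 2 ≠ 0) :
    famA (tateA (-27 * c4) x y) (tateB (-27 * c4) x y) t ≠ 0 ∧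
      famB (tateA (-27 * c4) x y) (tateB (-27 * c4) x y) t ≠ 0 := by
  obtain ⟨-, hB, -, -, h4, h6⟩ := h
  rw [famCoeff_disc] at hd
  generalize tateA (-27 * c4) x y = A at *
  generalize tateB (-27 * c4) x y = B at *
  subst h4 h6
  rw [← tateC4_fam hB, ← tateC6_fam hB, tateC4_cube_sub] at hd
  constructor <;> intro e <;> apply hd <;> rw [e] <;> ring

theorem IsFive.trans_equation {x y : K} (h : IsFive c4 c6 x y) (t : K) :
    transY c4 t x y ^ 2 = rhs (famCoeffA c4 c6 t) (famCoeffB c4 c6 t) (transX c4 t x y) := by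
  obtain ⟨-, hB, -, -, h4, h6⟩ := h
  rw [transX, transY, famCoeffA, famCoeffB]
  generalize tateA (-27 * c4) x y = A at *
  generalize tateB (-27 * c4) x y = B at *
  subst h4 h6
  rw [tatePoint_equation, ← tateC4_fam hB, ← tateC6_fam hB]

theorem IsFive.equation {x y : K} (h : IsFive c4 c6 x y) :
    y ^ 2 = rhs (-27 * c4) (-54 * c6) x := by
  obtain ⟨-, -, ex, ey, e4, e6⟩ := h
  generalize tateA (-27 * c4) x y = A at *
  generalize tateB (-27 * c4) x y = B at *
  subst ex ey e4 e6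
  exact tatePoint_equation

theorem IsFive.neg {x y : K} (h : IsFive c4 c6 x y) : IsFive c4 c6 x (-y) := by
  obtain ⟨hA, hB, ex, ey, e4, e6⟩ := h
  unfold IsFive
  rw [tateA_neg, tateB_neg, tatePx_neg, tatePy_neg]
  refine ⟨neg_ne_zero.2 hA, neg_ne_zero.2 hB, ex, ?_, ?_, ?_⟩
  · rw [← ey]
  · rw [tateC4_eq] at e4 ⊢; linear_combination e4
  · rw [tateC6_eq] at e6 ⊢; linear_combination e6

theorem IsFive.trans_zero {x y : K} (h : IsFive c4 c6 x y) :
    transX c4 0 x y = x ∧ transY c4 0 x y = y := by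
  rw [transX, transY, famA_zero, famB_zero]
  exact ⟨h.2.2.1.symm, h.2.2.2.1.symm⟩

theorem IsFive.transY_ne_zero (h2 : (2 : K) ≠ 0) (h3 : (3 : K) ≠ 0) {x y : K}
    (h : IsFive c4 c6 x y) {t : K}
    (hd : 4 * famCoeffA c4 c6 t ^ 3 + 27 * famCoeffB c4 c6 t ^ 2 ≠ 0) : transY c4 t x y ≠ 0 := by
  obtain ⟨hA, hB⟩ := h.fam_ne_zero hd
  have h108 : (108 : K) ≠ 0 := by
    have := mul_ne_zero (mul_ne_zero h2 h2) (pow_ne_zero 3 h3)
    convert this using 1; ring
  exact neg_ne_zero.2 (mul_ne_zero h108 (mul_ne_zero hA (pow_ne_zero 2 hB)))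

/-- The transferred point (zero on points which are not of order five). -/
noncomputable def transPt (c4 t : K) {E' : WeierstrassCurve.Affine K} {a' b' : K}
    (hE' : IsShort E' a' b') {E : WeierstrassCurve.Affine K} : E.Point → E'.Point
  | .zero => 0
  | .some x y _ => by
      classical
      exact if h : transY c4 t x y ^ 2 = rhs a' b' (transX c4 t x y) then hE'.mkPt h else 0

variable {E E' : WeierstrassCurve.Affine K} {t : K}
  (hE : IsShort E (-27 * c4) (-54 * c6))
  (hE' : IsShort E' (famCoeffA c4 c6 t) (famCoeffB c4 c6 t))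

theorem transPt_zero : transPt c4 t hE' (0 : E.Point) = 0 := rfl

theorem transPt_some {x y : K} (h : IsFive c4 c6 x y) (hP : E.Nonsingular x y) :
    transPt c4 t hE' (Affine.Point.some x y hP) =
      hE'.mkPt (h.trans_equation t) := by
  simp [transPt, h.trans_equation t]

variable [DecidableEq K]

include hE in
theorem isFive_of_five (h3 : (3 : K) ≠ 0) {x y : K} (hP : E.Nonsingular x y)
    (h : (5 : ℤ) • Affine.Point.some x y hP = 0) : IsFive c4 c6 x y :=
  IsFive.mk' hE.two h3 (hE.nonsingular_iff.1 hP) (hE.fiveRel_of_five hP h)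

include hE' in
theorem five_zsmul_trans (h3 : (3 : K) ≠ 0) {x y : K} (h : IsFive c4 c6 x y) :
    (5 : ℤ) • hE'.mkPt (h.trans_equation t) = 0 := by
  obtain ⟨hA, hB⟩ := h.fam_ne_zero hE'.disc
  refine hE'.five_zsmul_tate h3 hA hB ?_ _ rfl rfl
  obtain ⟨-, hB0, -, -, h4, h6⟩ := h
  rw [famCoeffA]
  generalize tateA (-27 * c4) x y = A at *
  generalize tateB (-27 * c4) x y = B at *
  subst h4 h6
  rw [tateC4_fam hB0]

end Field

section Sum

variable {K : Type*} [Field K] [IsAlgClosed K] {c4 c6 : K}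

/-- Relations expressing that `(x₁, y₁) + (x₂, y₂) = (x₃, y₃)` with `x₁ ≠ x₂`. -/
def AddRel {R : Type*} [CommRing R] (x₁ y₁ x₂ y₂ x₃ y₃ : R) : Prop :=
  (x₃ + x₁ + x₂) * (x₁ - x₂) ^ 2 = (y₁ - y₂) ^ 2 ∧
    (y₃ + y₁) * (x₁ - x₂) = -((y₁ - y₂) * (x₃ - x₁))

/-- Relations expressing that `2 (x, y) = (x₃, y₃)`. -/
def DblRel {R : Type*} [CommRing R] (a x y x₃ y₃ : R) : Prop :=
  (x₃ + 2 * x) * (2 * y) ^ 2 = (3 * x ^ 2 + a) ^ 2 ∧
    (y₃ + y) * (2 * y) = -((3 * x ^ 2 + a) * (x₃ - x))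

omit [IsAlgClosed K] in
theorem dblRel_of_eq {a x y x₃ y₃ : K} (h : 2 * y ≠ 0)
    (hx : x₃ = ((3 * x ^ 2 + a) / (2 * y)) ^ 2 - 2 * x)
    (hy : y₃ = -((3 * x ^ 2 + a) / (2 * y) * (x₃ - x) + y)) : DblRel a x y x₃ y₃ := by
  unfold DblRel
  generalize 2 * y = D at *
  constructor
  · rw [hx]; field_simp; ring
  · rw [hy]; field_simp; ring

omit [IsAlgClosed K] in
theorem addRel_of_eq {x₁ y₁ x₂ y₂ x₃ y₃ : K} (h : x₁ - x₂ ≠ 0)
    (hx : x₃ = ((y₁ - y₂) / (x₁ - x₂)) ^ 2 - x₁ - x₂)
    (hy : y₃ = -((y₁ - y₂) / (x₁ - x₂) * (x₃ - x₁) + y₁)) : AddRel x₁ y₁ x₂ y₂ x₃ y₃ := by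
  constructor
  · rw [hx]; field_simp; ring
  · rw [hy]; field_simp; ring

theorem five_generic (hd : 4 * (-27 * c4) ^ 3 + 27 * (-54 * c6) ^ 2 ≠ 0) (h2 : (2 : K) ≠ 0)
    (h3 : (3 : K) ≠ 0) (h5 : (5 : K) ≠ 0) {x₁ y₁ x₂ y₂ : K} (h₁ : IsFive c4 c6 x₁ y₁)
    (h₂ : IsFive c4 c6 x₂ y₂) (hne : ¬ (x₁ = x₂ ∧ y₁ = -y₂)) :
    ∃ x₃ y₃, IsFive c4 c6 x₃ y₃ ∧
      (x₁ ≠ x₂ → AddRel (transXPoly c4 x₁ y₁) (transYPoly c4 x₁ y₁) (transXPoly c4 x₂ y₂)
        (transYPoly c4 x₂ y₂) (transXPoly c4 x₃ y₃) (transYPoly c4 x₃ y₃)) ∧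
      (x₁ = x₂ → DblRel (famCoeffA (C c4) (C c6) X) (transXPoly c4 x₁ y₁) (transYPoly c4 x₁ y₁)
        (transXPoly c4 x₃ y₃) (transYPoly c4 x₃ y₃)) := by
  classical
  let L := RatFunc K
  let ι : K →+* L := (algebraMap K[X] L).comp C
  have hι : Function.Injective ι := ι.injective
  set T : L := algebraMap K[X] L X with hT
  have hinj : Function.Injective (algebraMap K[X] L) := RatFunc.algebraMap_injective K
  have hC : ∀ z, algebraMap K[X] L (C z) = ι z := fun _ => rfl
  have hX : ∀ x y, algebraMap K[X] L (transXPoly c4 x y) = transX (ι c4) T (ι x) (ι y) := by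
    intro x y
    simp only [transXPoly, transX, tatePx_map, famA_map, famB_map, hC, tateA_map, tateB_map,
      map_mul, map_neg, map_ofNat, T]
  have hY : ∀ x y, algebraMap K[X] L (transYPoly c4 x y) = transY (ι c4) T (ι x) (ι y) := by
    intro x y
    simp only [transYPoly, transY, tatePy_map, famA_map, famB_map, hC, tateA_map, tateB_map,
      map_mul, map_neg, map_ofNat, T]
  have hA' : algebraMap K[X] L (famCoeffA (C c4) (C c6) X) = famCoeffA (ι c4) (ι c6) T := by
    simp [famCoeffA_map, ι, T]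
  have h2L : (2 : L) ≠ 0 := by simpa [map_ofNat] using (map_ne_zero ι).2 h2
  have h3L : (3 : L) ≠ 0 := by simpa [map_ofNat] using (map_ne_zero ι).2 h3
  have h5L : (5 : L) ≠ 0 := by simpa [map_ofNat] using (map_ne_zero ι).2 h5
  have hdiscT : 4 * famCoeffA (ι c4) (ι c6) T ^ 3 + 27 * famCoeffB (ι c4) (ι c6) T ^ 2 ≠ 0 := by
    intro e
    have hp :
        (4 * famCoeffA (C c4) (C c6) X ^ 3 + 27 * famCoeffB (C c4) (C c6) X ^ 2 : K[X]) = 0 := by
      apply hinj
      simpa [map_ofNat, famCoeffA_map, famCoeffB_map, ι, T] using e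
    have := congrArg (evalRingHom (0 : K)) hp
    simp only [map_add, map_mul, map_pow, map_ofNat, map_zero] at this
    rw [famCoeffA_map, famCoeffB_map] at this
    simp only [coe_evalRingHom, eval_C, eval_X, famCoeffA, famCoeffB, famC4_zero, famC6_zero]
      at this
    exact hd this
  have hE' := IsShort.shortW hdiscT h2L
  set E' := shortW (famCoeffA (ι c4) (ι c6) T) (famCoeffB (ι c4) (ι c6) T)
  have hfive : ∀ {x y : K}, IsFive c4 c6 x y → IsFive (ι c4) (ι c6) (ι x) (ι y) := by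
    intro x y h
    obtain ⟨hA, hB, ex, ey, e4, e6⟩ := h
    refine ⟨?_, ?_, ?_, ?_, ?_, ?_⟩
    · simpa only [tateA_map, map_mul, map_neg, map_ofNat] using (map_ne_zero ι).2 hA
    · simpa only [tateB_map, map_mul, map_neg, map_ofNat] using (map_ne_zero ι).2 hB
    · simpa only [tatePx_map, tateA_map, tateB_map, map_mul, map_neg, map_ofNat] using congrArg ι ex
    · simpa only [tatePy_map, tateA_map, tateB_map, map_mul, map_neg, map_ofNat] using congrArg ι ey
    · simpa only [tateC4_map, tateA_map, tateB_map, map_mul, map_neg, map_ofNat] using congrArg ι e4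
    · simpa only [tateC6_map, tateA_map, tateB_map, map_mul, map_neg, map_ofNat] using congrArg ι e6
  -- all five torsion over `K(X)` comes from `K`
  have hE := IsShort.shortW hd h2
  obtain ⟨-, hnodup, hcard⟩ := hE.card_psi5_roots h3 h5
  have hroot : ∀ r ∈ (psi5Poly (-27 * c4) (-54 * c6)).roots.toFinset, ∃ s, IsFive c4 c6 r s := by
    intro r hr
    rw [Multiset.mem_toFinset, mem_roots', IsRoot, psi5Poly_eval] at hr
    obtain ⟨s, hs⟩ := IsAlgClosed.exists_pow_nat_eq (rhs (-27 * c4) (-54 * c6) r) (n := 2) two_pos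
    exact ⟨s, IsFive.mk' h2 h3 hs (hE.fiveRel_of_psi5 hs hr.2)⟩
  have himg : ∀ (X' Y' : L) (hS : E'.Nonsingular X' Y'),
      (5 : ℤ) • Affine.Point.some X' Y' hS = 0 →
      ∃ r s, IsFive c4 c6 r s ∧ X' = transX (ι c4) T (ι r) (ι s) ∧
        Y' = transY (ι c4) T (ι r) (ι s) := by
    intro X' Y' hS h
    have hmem : ∀ {u v : L} (hu : E'.Nonsingular u v), (5 : ℤ) • Affine.Point.some u v hu = 0 →
        u ∈ (psi5Poly (famCoeffA (ι c4) (ι c6) T) (famCoeffB (ι c4) (ι c6) T)).roots.toFinset := by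
      intro u v hu h5u
      obtain ⟨hv0, -, hR⟩ := hE'.fiveRel_of_five hu h5u
      rw [Multiset.mem_toFinset, mem_roots', IsRoot, psi5Poly_eval]
      exact ⟨psi5Poly_ne_zero h5L _ _,
        (psi5_eq_zero_iff h2L (hE'.nonsingular_iff.1 hu) hv0).2 hR⟩
    choose! s hs using hroot
    let g : K → L := fun r => transX (ι c4) T (ι r) (ι (s r))
    set R₀ := (psi5Poly (-27 * c4) (-54 * c6)).roots.toFinset
    have hg : Set.InjOn g R₀ := by
      intro r hr r' hr' e
      simp only [g, ← hX] at e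
      have := congrArg (evalRingHom (0 : K)) (hinj e)
      simp only [coe_evalRingHom, transXPoly_eval] at this
      rwa [(hs r hr).trans_zero.1, (hs r' hr').trans_zero.1] at this
    have hsub : R₀.image g ⊆
        (psi5Poly (famCoeffA (ι c4) (ι c6) T) (famCoeffB (ι c4) (ι c6) T)).roots.toFinset := by
      intro u hu
      obtain ⟨r, hr, rfl⟩ := Finset.mem_image.1 hu
      exact hmem _ (five_zsmul_trans hE' h3L (hfive (hs r hr)))
    have heq := Finset.eq_of_subset_of_card_le hsub (by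
      rw [Finset.card_image_of_injOn hg, Multiset.toFinset_card_of_nodup hnodup, hcard]
      exact (Multiset.toFinset_card_le _).trans
        ((card_roots' _).trans (psi5Poly_natDegree_le _ _)))
    have := hmem hS h
    rw [← heq, Finset.mem_image] at this
    obtain ⟨r, hr, e⟩ := this
    have h5r := hfive (hs r hr)
    rcases sq_eq_sq_iff_eq_or_eq_neg.1 ((hE'.nonsingular_iff.1 hS).trans
      ((congrArg _ e.symm).trans (h5r.trans_equation T).symm)) with e' | e'
    · exact ⟨r, s r, hs r hr, e.symm, e'⟩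
    · refine ⟨r, -s r, ?_, ?_, ?_⟩
      · exact (hs r hr).neg
      · rw [map_neg, transX_neg]; exact e.symm
      · rw [map_neg, transY_neg]; exact e'
  set P₁ := hE'.mkPt ((hfive h₁).trans_equation T) with hP₁
  set P₂ := hE'.mkPt ((hfive h₂).trans_equation T) with hP₂
  have hz : ∀ {x y : K}, IsFive c4 c6 x y → (transXPoly c4 x y).eval 0 = x ∧
      (transYPoly c4 x y).eval 0 = y := fun h => by
    rw [transXPoly_eval, transYPoly_eval]; exact h.trans_zero
  have hsum : (5 : ℤ) • (P₁ + P₂) = 0 := by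
    rw [smul_add, five_zsmul_trans hE' h3L (hfive h₁), five_zsmul_trans hE' h3L (hfive h₂),
      add_zero]
  by_cases hxx : transX (ι c4) T (ι x₁) (ι y₁) = transX (ι c4) T (ι x₂) (ι y₂)
  · have hxeq : x₁ = x₂ := by
      rw [← hX, ← hX] at hxx
      simpa [(hz h₁).1, (hz h₂).1] using congrArg (eval (0 : K)) (hinj hxx)
    have hyeq : y₁ = y₂ := by
      have e₁ := h₁.equation
      have e₂ := h₂.equation
      rw [hxeq, ← e₂] at e₁
      exact (sq_eq_sq_iff_eq_or_eq_neg.1 e₁).resolve_right fun e => hne ⟨hxeq, e⟩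
    have hP : P₂ = P₁ := by
      simp only [hP₁, hP₂, IsShort.mkPt, Affine.Point.some.injEq]
      subst hxeq hyeq; exact ⟨rfl, rfl⟩
    rw [hP] at hsum
    have hy0 := (hfive h₁).transY_ne_zero h2L h3L hdiscT
    obtain ⟨X₃, Y₃, h₃, hadd, eX, eY⟩ :=
      hE'.add_self (hE'.nonsingular_iff.2 ((hfive h₁).trans_equation T)) hy0
    rw [show P₁ + P₁ = _ from hadd] at hsum
    obtain ⟨r, u, hru, rfl, rfl⟩ := himg X₃ Y₃ h₃ hsum
    obtain ⟨d1, d2⟩ := dblRel_of_eq (mul_ne_zero h2L hy0) eX eY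
    refine ⟨r, u, hru, fun h => absurd hxeq h, fun _ => ⟨hinj ?_, hinj ?_⟩⟩
    · simpa only [map_add, map_mul, map_pow, map_ofNat, hX, hY, hA'] using d1
    · simpa only [map_add, map_mul, map_sub, map_neg, map_pow, map_ofNat, hX, hY, hA'] using d2
  · obtain ⟨X₃, Y₃, h₃, hadd, eX, eY⟩ :=
      hE'.add_of_ne (hE'.nonsingular_iff.2 ((hfive h₁).trans_equation T))
        (hE'.nonsingular_iff.2 ((hfive h₂).trans_equation T)) hxx
    rw [show P₁ + P₂ = _ from hadd] at hsum
    obtain ⟨r, u, hru, rfl, rfl⟩ := himg X₃ Y₃ h₃ hsum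
    have := sub_ne_zero.2 hxx
    have hxne : x₁ ≠ x₂ := by
      intro e
      subst e
      have hy : y₂ ^ 2 = y₁ ^ 2 := by rw [h₁.equation, h₂.equation]
      rcases sq_eq_sq_iff_eq_or_eq_neg.1 hy with h | h
      · exact hxx (by rw [h])
      · exact hxx (by rw [h, map_neg, transX_neg])
    obtain ⟨d1, d2⟩ := addRel_of_eq this eX eY
    refine ⟨r, u, hru, fun _ => ⟨hinj ?_, hinj ?_⟩, fun h => absurd h hxne⟩
    · simpa only [map_add, map_mul, map_sub, map_pow, hX, hY] using d1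
    · simpa only [map_add, map_mul, map_sub, map_neg, hX, hY] using d2

variable [DecidableEq K] {E E' : WeierstrassCurve.Affine K} {t : K}

theorem transPt_add_some (hE : IsShort E (-27 * c4) (-54 * c6))
    (hE' : IsShort E' (famCoeffA c4 c6 t) (famCoeffB c4 c6 t)) (h3 : (3 : K) ≠ 0)
    (h5 : (5 : K) ≠ 0) {x₁ y₁ x₂ y₂ : K} (h₁ : IsFive c4 c6 x₁ y₁) (h₂ : IsFive c4 c6 x₂ y₂)
    (n₁ : E.Nonsingular x₁ y₁) (n₂ : E.Nonsingular x₂ y₂) (hne : ¬ (x₁ = x₂ ∧ y₁ = -y₂)) :
    transPt c4 t hE' (Affine.Point.some x₁ y₁ n₁ + .some x₂ y₂ n₂) =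
      transPt c4 t hE' (Affine.Point.some x₁ y₁ n₁) +
        transPt c4 t hE' (Affine.Point.some x₂ y₂ n₂) := by
  have h2 := hE.two
  obtain ⟨x₃, y₃, h₃, hadd, hdbl⟩ := five_generic hE.disc h2 h3 h5 h₁ h₂ hne
  have hevA : ∀ τ : K, (famCoeffA (C c4) (C c6) (X : K[X])).eval τ = famCoeffA c4 c6 τ :=
    fun τ => by
    rw [← coe_evalRingHom, famCoeffA_map]; simp
  have key : ∀ (τ : K) (E'' : WeierstrassCurve.Affine K)
      (hE'' : IsShort E'' (famCoeffA c4 c6 τ) (famCoeffB c4 c6 τ)),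
      hE''.mkPt (h₁.trans_equation τ) + hE''.mkPt (h₂.trans_equation τ) =
        hE''.mkPt (h₃.trans_equation τ) := by
    intro τ E'' hE''
    have hd := hE''.disc
    have hy1 := h₁.transY_ne_zero h2 h3 hd
    by_cases hx : x₁ = x₂
    · obtain ⟨r1, r2⟩ := hdbl hx
      have q1 := congrArg (eval τ) r1
      have q2 := congrArg (eval τ) r2
      simp only [eval_add, eval_mul, eval_sub, eval_neg, eval_pow, eval_ofNat, transXPoly_eval,
        transYPoly_eval, hevA] at q1 q2
      have hyy : y₂ = y₁ := by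
        subst hx
        rcases hE.eq_or_neg_of_x_eq n₁ n₂ with e | e
        · exact e
        · exact absurd ⟨rfl, by rw [e, neg_neg]⟩ hne
      obtain ⟨X₃, Y₃, h, e, eX, eY⟩ :=
        hE''.add_self (hE''.nonsingular_iff.2 (h₁.trans_equation τ)) hy1
      subst hx hyy
      rw [IsShort.mkPt, e, IsShort.mkPt, Affine.Point.some.injEq]
      have h2y := mul_ne_zero h2 hy1
      have hX3 : X₃ = transX c4 τ x₃ y₃ := by
        rw [eX]; field_simp; linear_combination -q1
      refine ⟨hX3, ?_⟩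
      rw [eY, hX3]
      field_simp
      linear_combination -q2
    · obtain ⟨r1, r2⟩ := hadd hx
      have q1 := congrArg (eval τ) r1
      have q2 := congrArg (eval τ) r2
      simp only [eval_add, eval_mul, eval_sub, eval_neg, eval_pow, transXPoly_eval,
        transYPoly_eval] at q1 q2
      have hxx : transX c4 τ x₁ y₁ ≠ transX c4 τ x₂ y₂ := by
        intro e
        have h₂' := h₂.neg
        obtain ⟨x₄, y₄, -, hadd', -⟩ :=
          five_generic hE.disc h2 h3 h5 h₁ h₂' (fun ⟨e1, _⟩ => hx e1)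
        have s1 := congrArg (eval τ) (hadd' hx).1
        simp only [transYPoly_neg, transXPoly_neg, eval_add, eval_mul, eval_sub, eval_neg, eval_pow,
          transXPoly_eval, transYPoly_eval] at s1
        rw [e, sub_self, zero_pow two_ne_zero, mul_zero] at q1 s1
        have u1 : transY c4 τ x₁ y₁ - transY c4 τ x₂ y₂ = 0 := eq_zero_of_pow_eq_zero q1.symm
        have u2 : transY c4 τ x₁ y₁ - -transY c4 τ x₂ y₂ = 0 := eq_zero_of_pow_eq_zero s1.symm
        exact mul_ne_zero h2 hy1 (by linear_combination u1 + u2)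
      obtain ⟨X₃, Y₃, h, e, eX, eY⟩ :=
        hE''.add_of_ne (hE''.nonsingular_iff.2 (h₁.trans_equation τ))
          (hE''.nonsingular_iff.2 (h₂.trans_equation τ)) hxx
      rw [IsShort.mkPt, IsShort.mkPt, e, IsShort.mkPt, Affine.Point.some.injEq]
      have := sub_ne_zero.2 hxx
      have hX3 : X₃ = transX c4 τ x₃ y₃ := by
        rw [eX]; field_simp; linear_combination -q1
      refine ⟨hX3, ?_⟩
      rw [eY, hX3]
      field_simp
      linear_combination -q2
  have hzero := key 0 E (by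
    simpa [famCoeffA, famCoeffB, famC4_zero, famC6_zero] using hE)
  simp only [IsShort.mkPt, h₁.trans_zero, h₂.trans_zero, h₃.trans_zero] at hzero
  rw [hzero, transPt_some hE' h₃, transPt_some hE' h₁, transPt_some hE' h₂]
  exact (key t E' hE').symm

/-- The transfer map is additive on five-torsion. -/
theorem transPt_add (hE : IsShort E (-27 * c4) (-54 * c6))
    (hE' : IsShort E' (famCoeffA c4 c6 t) (famCoeffB c4 c6 t)) (h3 : (3 : K) ≠ 0)
    (h5 : (5 : K) ≠ 0) {P Q : E.Point} (hP : (5 : ℤ) • P = 0) (hQ : (5 : ℤ) • Q = 0) :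
    transPt c4 t hE' (P + Q) = transPt c4 t hE' P + transPt c4 t hE' Q := by
  rcases P with _ | ⟨x₁, y₁, n₁⟩
  · rw [← Affine.Point.zero_def, zero_add, transPt_zero hE', zero_add]
  rcases Q with _ | ⟨x₂, y₂, n₂⟩
  · rw [← Affine.Point.zero_def, add_zero, transPt_zero hE', add_zero]
  have h₁ := isFive_of_five hE h3 n₁ hP
  have h₂ := isFive_of_five hE h3 n₂ hQ
  by_cases h : x₁ = x₂ ∧ y₁ = -y₂
  · obtain ⟨rfl, rfl⟩ := h
    rw [Affine.Point.add_of_Y_eq rfl (by rw [hE.negY]), transPt_zero hE',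
      transPt_some hE' h₁, transPt_some hE' h₂, IsShort.mkPt, IsShort.mkPt]
    exact (Affine.Point.add_of_Y_eq (transX_neg c4 t x₁ y₂)
      (by rw [hE'.negY, transY_neg])).symm
  · exact transPt_add_some hE hE' h3 h5 h₁ h₂ n₁ n₂ h

end Sum

end FLTAgent.Switch35
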